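/-
TW-FLAT (task 335, FLAT-SS-COUNT): the elementary arithmetic of the window of levels
`p² − 2 ≤ j ≤ p² + p` modulo `p² − 1`.
-/
import Mathlib

set_option autoImplicit false

namespace Fermat.Agent.TW.Flat.SS.Arith

/-- In the window, `j ≢ p + 1` modulo `p² − 1`. -/
theorem window_not_modEq_succ {p j : ℕ} (hp : 3 ≤ p) (h1 : p ^ 2 - 2 ≤ j)
    (h2 : j ≤ p ^ 2 + p - 1) : ¬ (j ≡ p + 1 [MOD p ^ 2 - 1]) := by
  intro h
  have hs : 3 * p ≤ p ^ 2 := by nlinarith
  have hle : p + 1 ≤ j := by omega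
  have hd : p ^ 2 - 1 ∣ j - (p + 1) := (Nat.modEq_iff_dvd' hle).mp h.symm
  have hpos : 0 < j - (p + 1) := by omega
  have := Nat.le_of_dvd hpos hd
  omega

/-- A multiple of `p` in the window `[p² − 2, p² + p]` is `p²` or `p² + p`. -/
theorem window_dvd {p j : ℕ} (hp : 3 ≤ p) (h1 : p ^ 2 - 2 ≤ j) (h2 : j ≤ p ^ 2 + p)
    (h : p ∣ j) : j = p * p ∨ j = p ^ 2 + p := by
  obtain ⟨q, rfl⟩ := h
  have hs : 3 * p ≤ p ^ 2 := by nlinarith
  have h1a : p ^ 2 ≤ p * q + 2 := by omega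
  clear h1
  have hq1 : p ≤ q := by
    by_contra hcon
    have h3 : q + 1 ≤ p := by omega
    have h4 : p * (q + 1) ≤ p * p := Nat.mul_le_mul_left p h3
    nlinarith
  have hq2 : q ≤ p + 1 := by
    by_contra hcon
    have h3 : p + 2 ≤ q := by omega
    have h4 : p * (p + 2) ≤ p * q := Nat.mul_le_mul_left p h3
    nlinarith
  rcases Nat.lt_or_ge p q with hlt | hge
  · right
    have : q = p + 1 := by omega
    subst this
    ring
  · left
    have : q = p := by omega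
    subst this
    rfl

theorem sq_sub_one_eq (p : ℕ) (hp : 1 ≤ p) : p ^ 2 - 1 = (p - 1) * (p + 1) := by
  obtain ⟨n, rfl⟩ : ∃ n, p = n + 1 := ⟨p - 1, by omega⟩
  simp only [Nat.add_sub_cancel]
  have : (n + 1) ^ 2 = n * (n + 1 + 1) + 1 := by ring
  omega

/-- A level of the window with `p * j ≡ j` modulo `p² − 1` is `p² − 1`. -/
theorem window_fixed {p j : ℕ} (hp : 3 ≤ p) (h1 : p ^ 2 - 2 ≤ j) (h2 : j ≤ p ^ 2 + p - 1)
    (h : p * j ≡ j [MOD p ^ 2 - 1]) : j = p ^ 2 - 1 := by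
  have hs : 3 * p ≤ p ^ 2 := by nlinarith
  have hle : j ≤ p * j := Nat.le_mul_of_pos_left j (by omega)
  have hd : p ^ 2 - 1 ∣ p * j - j := (Nat.modEq_iff_dvd' hle).mp h.symm
  have e1 : p * j - j = (p - 1) * j := by
    rw [Nat.sub_mul, one_mul]
  have e2 : p ^ 2 - 1 = (p - 1) * (p + 1) := sq_sub_one_eq p (by omega)
  rw [e1, e2] at hd
  have hd' : p + 1 ∣ j := (Nat.mul_dvd_mul_iff_left (by omega)).mp hd
  obtain ⟨q, rfl⟩ := hd'
  have h1a : p ^ 2 ≤ (p + 1) * q + 2 := by omega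
  have h2a : (p + 1) * q + 1 ≤ p ^ 2 + p := by omega
  clear h1 h2 h hle hd e1
  have hq1 : p ≤ q + 1 := by
    by_contra hcon
    have h3 : q + 2 ≤ p := by omega
    have h4 : (p + 1) * (q + 2) ≤ (p + 1) * p := Nat.mul_le_mul_left _ h3
    nlinarith
  have hq2 : q + 1 ≤ p := by
    by_contra hcon
    have h3 : p ≤ q := by omega
    have h4 : (p + 1) * p ≤ (p + 1) * q := Nat.mul_le_mul_left _ h3
    nlinarith
  have : q = p - 1 := by omega
  subst this
  rw [e2, mul_comm]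

/-- Two levels of the window, prime to `p`, with `j' ≡ j` or `j' ≡ p * j` modulo `p² − 1`,
are equal. -/
theorem window_unique {p j j' : ℕ} (hp : 3 ≤ p) (h1 : p ^ 2 - 2 ≤ j) (h2 : j ≤ p ^ 2 + p - 1)
    (h1' : p ^ 2 - 2 ≤ j') (h2' : j' ≤ p ^ 2 + p - 1) (hj : ¬ p ∣ j) (hj' : ¬ p ∣ j')
    (h : j' ≡ j [MOD p ^ 2 - 1] ∨ j' ≡ p * j [MOD p ^ 2 - 1]) : j' = j := by
  have hs : 3 * p ≤ p ^ 2 := by nlinarith
  have hs9 : 9 ≤ p ^ 2 := by nlinarith
  rcases h with h | h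
  · -- `j' ≡ j`
    rcases Nat.le_total j j' with hle | hle
    · have hd : p ^ 2 - 1 ∣ j' - j := (Nat.modEq_iff_dvd' hle).mp h.symm
      by_contra hne
      have hpos : 0 < j' - j := by omega
      have := Nat.le_of_dvd hpos hd
      omega
    · have hd : p ^ 2 - 1 ∣ j - j' := (Nat.modEq_iff_dvd' hle).mp h
      by_contra hne
      have hpos : 0 < j - j' := by omega
      have := Nat.le_of_dvd hpos hd
      omega
  · -- `j' ≡ p * j`
    by_contra hne
    have hd := (Nat.modEq_iff_dvd.mp h)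
    obtain ⟨q, hq⟩ := hd
    -- integers
    obtain ⟨x, rfl⟩ : ∃ x, j = p ^ 2 - 2 + x := ⟨j - (p ^ 2 - 2), by omega⟩
    obtain ⟨x', rfl⟩ : ∃ x', j' = p ^ 2 - 2 + x' := ⟨j' - (p ^ 2 - 2), by omega⟩
    have hx : x ≤ p + 1 := by omega
    have hx' : x' ≤ p + 1 := by omega
    have c1 : ((p ^ 2 - 2 + x : ℕ) : ℤ) = (p : ℤ) ^ 2 - 2 + x := by
      have : 2 ≤ p ^ 2 := by omega
      push_cast [Nat.cast_sub this]
      ring
    have c1' : ((p ^ 2 - 2 + x' : ℕ) : ℤ) = (p : ℤ) ^ 2 - 2 + x' := by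
      have : 2 ≤ p ^ 2 := by omega
      push_cast [Nat.cast_sub this]
      ring
    have c2 : ((p ^ 2 - 1 : ℕ) : ℤ) = (p : ℤ) ^ 2 - 1 := by
      have : 1 ≤ p ^ 2 := by omega
      push_cast [Nat.cast_sub this]
      ring
    have c3 : ((p * (p ^ 2 - 2 + x) : ℕ) : ℤ) = (p : ℤ) * ((p : ℤ) ^ 2 - 2 + x) := by
      rw [Nat.cast_mul, c1]
    rw [c3, c1', c2] at hq
    -- `hq : p * (p² − 2 + x) − (p² − 2 + x') = (p² − 1) * q`
    have hP3 : (3 : ℤ) ≤ (p : ℤ) := by exact_mod_cast hp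
    have hxz : (x : ℤ) ≤ (p : ℤ) + 1 := by exact_mod_cast hx
    have hxz' : (x' : ℤ) ≤ (p : ℤ) + 1 := by exact_mod_cast hx'
    have hx0 : (0 : ℤ) ≤ x := Int.natCast_nonneg x
    have hx0' : (0 : ℤ) ≤ x' := Int.natCast_nonneg x'
    -- `q' := q − (P − 1)`
    have hq' : ((p : ℤ) ^ 2 - 1) * (q - ((p : ℤ) - 1)) = (p : ℤ) * x - x' - ((p : ℤ) - 1) := by
      linear_combination -hq
    have hpos : (0 : ℤ) < (p : ℤ) ^ 2 - 1 := by nlinarith
    have hlow : (-1 : ℤ) < q - ((p : ℤ) - 1) := by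
      by_contra hcon
      have : q - ((p : ℤ) - 1) ≤ -1 := by omega
      nlinarith
    have hupp : q - ((p : ℤ) - 1) < 2 := by
      by_contra hcon
      have : 2 ≤ q - ((p : ℤ) - 1) := by omega
      nlinarith
    have hcases : q - ((p : ℤ) - 1) = 0 ∨ q - ((p : ℤ) - 1) = 1 := by omega
    have hsq : p ^ 2 - 2 + 2 = p * p := by
      have : 2 ≤ p ^ 2 := by omega
      rw [Nat.sub_add_cancel this, sq]
    rcases hcases with h0 | h1c
    · rw [h0, mul_zero] at hq'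
      -- `P * (x − 1) = x' − 1`
      have hy : (p : ℤ) * ((x : ℤ) - 1) = x' - 1 := by linear_combination -hq'
      have hy0 : (0 : ℤ) ≤ (x : ℤ) - 1 := by
        by_contra hcon
        have : (x : ℤ) - 1 ≤ -1 := by omega
        nlinarith
      have hy1 : (x : ℤ) - 1 ≤ 1 := by
        by_contra hcon
        have : 2 ≤ (x : ℤ) - 1 := by omega
        nlinarith
      have hyc : (x : ℤ) - 1 = 0 ∨ (x : ℤ) - 1 = 1 := by omega
      rcases hyc with hy' | hy'
      · rw [hy', mul_zero] at hy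
        have hxe : x = 1 := by omega
        have hxe' : x' = 1 := by omega
        subst hxe hxe'
        exact hne rfl
      · have hxe : x = 2 := by omega
        subst hxe
        apply hj
        rw [hsq]
        exact dvd_mul_right p p
    · rw [h1c, mul_one] at hq'
      have hy : (p : ℤ) * ((x : ℤ) - (p : ℤ) - 1) = x' - 2 := by linear_combination -hq'
      have hy0 : (0 : ℤ) ≤ (x : ℤ) - (p : ℤ) - 1 := by
        by_contra hcon
        have : (x : ℤ) - (p : ℤ) - 1 ≤ -1 := by omega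
        nlinarith
      have hy1 : (x : ℤ) - (p : ℤ) - 1 ≤ 0 := by
        by_contra hcon
        have : 1 ≤ (x : ℤ) - (p : ℤ) - 1 := by omega
        nlinarith
      have hy' : (x : ℤ) - (p : ℤ) - 1 = 0 := by omega
      rw [hy', mul_zero] at hy
      have hxe' : x' = 2 := by omega
      subst hxe'
      apply hj'
      rw [hsq]
      exact dvd_mul_right p p

end Fermat.Agent.TW.Flat.SS.Arith
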