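/-
TW-FLAT (task 335, FLAT-SS-COUNT): the matrix layer of the supersingular count.

* `coord Qi Q i j` : the `(i, j)` coordinate `X ↦ (Qi * X * Q) i j` in the basis `Q`;
* `dcomp f c` : the scalar component `σ ↦ f (c σ)` of a function `c : D → Mat2 k`;
* `cocycle_conj` : `c (τ⁻¹ σ τ) = rb τ⁻¹ * c σ * rb τ` for a cocycle `c` and `rb σ = 1`;
* `coord_conj_diag`, `coord_conj_anti` : the coordinates of a conjugate by a matrix which is
  diagonal / antidiagonal in the basis `Q`;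
* `eq_zero_of_coord` : a trace-zero matrix with vanishing `(0,0)`, `(0,1)`, `(1,0)` coordinates
  vanishes.
-/
import Mathlib
import Fermat.Agent.TW.Flat.Defs
import Fermat.Agent.TW.Local.AwayCore

set_option autoImplicit false

namespace Fermat.Agent.TW.Flat.SS

open Fermat.Agent.S53 Fermat.Agent.TW Fermat.Agent.TW.Flat

local notation "Qb" => AlgebraicClosure ℚ

variable {k : Type} [Field k]

/-- The `(i, j)` coordinate of a matrix in the basis `Q` (`Qi = Q⁻¹`). -/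
def coord (Qi Q : Mat2 k) (i j : Fin 2) : Mat2 k →ₗ[k] k where
  toFun X := (Qi * X * Q) i j
  map_add' X Y := by rw [mul_add, add_mul, Matrix.add_apply]
  map_smul' a X := by
    rw [Matrix.mul_smul, Matrix.smul_mul, Matrix.smul_apply, RingHom.id_apply]

theorem coord_apply (Qi Q : Mat2 k) (i j : Fin 2) (X : Mat2 k) :
    coord Qi Q i j X = (Qi * X * Q) i j := rfl

/-- The scalar component `σ ↦ f (c σ)` of a function with values in matrices. -/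
def dcomp {D : Type} (f : Mat2 k →ₗ[k] k) (c : D → Mat2 k) : D → k := fun σ => f (c σ)

theorem dcomp_apply {D : Type} (f : Mat2 k →ₗ[k] k) (c : D → Mat2 k) (σ : D) :
    dcomp f c σ = f (c σ) := rfl

theorem dcomp_add {D : Type} (f : Mat2 k →ₗ[k] k) (c c' : D → Mat2 k) :
    dcomp f (c + c') = dcomp f c + dcomp f c' := by
  funext σ
  simp only [dcomp_apply, Pi.add_apply, map_add]

theorem dcomp_smul {D : Type} (f : Mat2 k →ₗ[k] k) (a : k) (c : D → Mat2 k) :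
    dcomp f (a • c) = a • dcomp f c := by
  funext σ
  simp only [dcomp_apply, Pi.smul_apply, map_smul]

/-- Conjugation of a cocycle at an element on which `rb` is trivial. -/
theorem cocycle_conj {D : Subgroup GQ} {rb : GQ →* Mat2 k} {c : D → Mat2 k}
    (hc : c ∈ Z1On D rb 1) (τ σ : D) (hσ : rb (σ : GQ) = 1) :
    c (τ⁻¹ * σ * τ) = rb ((τ : GQ)⁻¹) * c σ * rb (τ : GQ) := by
  have h1 : c (τ⁻¹ * σ * τ) = c (τ⁻¹ * σ) + adAct rb 1 ((τ⁻¹ * σ : D) : GQ) (c τ) := hc.2.1 _ _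
  have h2 : c (τ⁻¹ * σ) = c τ⁻¹ + adAct rb 1 ((τ⁻¹ : D) : GQ) (c σ) := hc.2.1 _ _
  have h3 : c (τ⁻¹ * τ) = c τ⁻¹ + adAct rb 1 ((τ⁻¹ : D) : GQ) (c τ) := hc.2.1 _ _
  rw [inv_mul_cancel, Away.Z1On_map_one hc] at h3
  have h4 : adAct rb 1 ((τ⁻¹ * σ : D) : GQ) (c τ) = adAct rb 1 ((τ⁻¹ : D) : GQ) (c τ) := by
    rw [Subgroup.coe_mul, adAct_mul, adAct_eq_of_rb_eq_one rb 1 _ hσ rfl]
  rw [h1, h2, h4]
  have h5 : adAct rb 1 ((τ⁻¹ : D) : GQ) (c σ) = rb ((τ : GQ)⁻¹) * c σ * rb (τ : GQ) := by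
    rw [adAct_apply, one_hom_apply_coe, one_smul, Subgroup.coe_inv, inv_inv]
  rw [← h5]
  calc c τ⁻¹ + adAct rb 1 ((τ⁻¹ : D) : GQ) (c σ) + adAct rb 1 ((τ⁻¹ : D) : GQ) (c τ)
      = adAct rb 1 ((τ⁻¹ : D) : GQ) (c σ) + (c τ⁻¹ + adAct rb 1 ((τ⁻¹ : D) : GQ) (c τ)) := by
        abel
    _ = adAct rb 1 ((τ⁻¹ : D) : GQ) (c σ) := by rw [← h3, add_zero]

/-- A left inverse of a diagonal matrix. -/
theorem left_inv_diag {A : Mat2 k} {a₁ a₂ : k} (ha₁ : a₁ ≠ 0) (ha₂ : a₂ ≠ 0)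
    (h : A * !![a₁, 0; 0, a₂] = 1) : A = !![a₁⁻¹, 0; 0, a₂⁻¹] := by
  have e : (!![a₁, 0; 0, a₂] : Mat2 k) * !![a₁⁻¹, 0; 0, a₂⁻¹] = 1 := by
    ext i j
    fin_cases i <;> fin_cases j <;> simp [Matrix.mul_apply, Fin.sum_univ_two, ha₁, ha₂]
  calc A = A * (!![a₁, 0; 0, a₂] * !![a₁⁻¹, 0; 0, a₂⁻¹]) := by rw [e, mul_one]
    _ = !![a₁⁻¹, 0; 0, a₂⁻¹] := by rw [← mul_assoc, h, one_mul]

/-- A left inverse of an antidiagonal matrix. -/
theorem left_inv_anti {A : Mat2 k} {b₁ b₂ : k} (hb₁ : b₁ ≠ 0) (hb₂ : b₂ ≠ 0)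
    (h : A * !![0, b₁; b₂, 0] = 1) : A = !![0, b₂⁻¹; b₁⁻¹, 0] := by
  have e : (!![0, b₁; b₂, 0] : Mat2 k) * !![0, b₂⁻¹; b₁⁻¹, 0] = 1 := by
    ext i j
    fin_cases i <;> fin_cases j <;> simp [Matrix.mul_apply, Fin.sum_univ_two, hb₁, hb₂]
  calc A = A * (!![0, b₁; b₂, 0] * !![0, b₂⁻¹; b₁⁻¹, 0]) := by rw [e, mul_one]
    _ = !![0, b₂⁻¹; b₁⁻¹, 0] := by rw [← mul_assoc, h, one_mul]

/-- Conjugation in coordinates. -/
theorem conj_coords {Q Qi : Mat2 k} (hQ : Q * Qi = 1) (g gi X : Mat2 k) :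
    Qi * (gi * X * g) * Q = (Qi * gi * Q) * (Qi * X * Q) * (Qi * g * Q) := by
  calc Qi * (gi * X * g) * Q = Qi * gi * 1 * X * 1 * g * Q := by
        simp only [mul_one, mul_assoc]
    _ = Qi * gi * (Q * Qi) * X * (Q * Qi) * g * Q := by rw [hQ]
    _ = (Qi * gi * Q) * (Qi * X * Q) * (Qi * g * Q) := by simp only [mul_assoc]

theorem diag_conj_apply (a₁ a₂ : k) (Y : Mat2 k) :
    ((!![a₁⁻¹, 0; 0, a₂⁻¹] : Mat2 k) * Y * !![a₁, 0; 0, a₂]) 0 1 = a₂ / a₁ * Y 0 1 ∧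
      ((!![a₁⁻¹, 0; 0, a₂⁻¹] : Mat2 k) * Y * !![a₁, 0; 0, a₂]) 0 0 = a₁ / a₁ * Y 0 0 := by
  constructor
  · simp [Matrix.mul_apply, Fin.sum_univ_two, Matrix.vecMul, dotProduct]
    ring
  · simp [Matrix.mul_apply, Fin.sum_univ_two, Matrix.vecMul, dotProduct]
    ring

theorem anti_conj_apply (b₁ b₂ : k) (Y : Mat2 k) :
    ((!![0, b₂⁻¹; b₁⁻¹, 0] : Mat2 k) * Y * !![0, b₁; b₂, 0]) 0 1 = b₁ / b₂ * Y 1 0 := by
  simp [Matrix.mul_apply, Fin.sum_univ_two, Matrix.vecMul, dotProduct]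
  ring

/-- Coordinates of a conjugate by a matrix which is diagonal in the basis `Q`. -/
theorem coord_conj_diag {Q Qi : Mat2 k} (hQ : Q * Qi = 1) (hQi : Qi * Q = 1) {g gi : Mat2 k}
    (hg : gi * g = 1) {a₁ a₂ : k} (ha₁ : a₁ ≠ 0) (ha₂ : a₂ ≠ 0)
    (hd : Qi * g * Q = !![a₁, 0; 0, a₂]) (X : Mat2 k) :
    coord Qi Q 0 1 (gi * X * g) = a₂ / a₁ * coord Qi Q 0 1 X ∧
      coord Qi Q 0 0 (gi * X * g) = coord Qi Q 0 0 X := by
  have h1 : (Qi * gi * Q) * (Qi * g * Q) = 1 := by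
    calc (Qi * gi * Q) * (Qi * g * Q) = Qi * gi * (Q * Qi) * g * Q := by
          simp only [mul_assoc]
      _ = 1 := by rw [hQ, mul_one, mul_assoc Qi, hg, mul_one, hQi]
  rw [hd] at h1
  have h2 := left_inv_diag ha₁ ha₂ h1
  simp only [coord_apply]
  rw [conj_coords hQ, hd, h2]
  obtain ⟨e1, e2⟩ := diag_conj_apply a₁ a₂ (Qi * X * Q)
  refine ⟨e1, ?_⟩
  rw [e2, div_self ha₁, one_mul]

/-- Coordinates of a conjugate by a matrix which is antidiagonal in the basis `Q`. -/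
theorem coord_conj_anti {Q Qi : Mat2 k} (hQ : Q * Qi = 1) (hQi : Qi * Q = 1) {g gi : Mat2 k}
    (hg : gi * g = 1) {b₁ b₂ : k} (hb₁ : b₁ ≠ 0) (hb₂ : b₂ ≠ 0)
    (hd : Qi * g * Q = !![0, b₁; b₂, 0]) (X : Mat2 k) :
    coord Qi Q 0 1 (gi * X * g) = b₁ / b₂ * coord Qi Q 1 0 X := by
  have h1 : (Qi * gi * Q) * (Qi * g * Q) = 1 := by
    calc (Qi * gi * Q) * (Qi * g * Q) = Qi * gi * (Q * Qi) * g * Q := by
          simp only [mul_assoc]
      _ = 1 := by rw [hQ, mul_one, mul_assoc Qi, hg, mul_one, hQi]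
  rw [hd] at h1
  have h2 := left_inv_anti hb₁ hb₂ h1
  simp only [coord_apply]
  rw [conj_coords hQ, hd, h2]
  exact anti_conj_apply b₁ b₂ (Qi * X * Q)

/-- A trace-zero matrix whose `(0,0)`, `(0,1)`, `(1,0)` coordinates in the basis `Q` vanish is
zero. -/
theorem eq_zero_of_coord {Q Qi : Mat2 k} (hQ : Q * Qi = 1) (X : Mat2 k)
    (htr : X.trace = 0) (h00 : coord Qi Q 0 0 X = 0) (h01 : coord Qi Q 0 1 X = 0)
    (h10 : coord Qi Q 1 0 X = 0) : X = 0 := by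
  have htr' : (Qi * X * Q).trace = 0 := by
    rw [Matrix.trace_mul_comm, ← mul_assoc, hQ, one_mul, htr]
  have h11 : (Qi * X * Q) 1 1 = 0 := by
    rw [Matrix.trace_fin_two] at htr'
    rw [coord_apply] at h00
    rw [h00, zero_add] at htr'
    exact htr'
  have hz : Qi * X * Q = 0 := by
    ext i j
    fin_cases i <;> fin_cases j
    · exact h00
    · exact h01
    · exact h10
    · exact h11
  calc X = (Q * Qi) * X * (Q * Qi) := by rw [hQ, one_mul, mul_one]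
    _ = Q * (Qi * X * Q) * Qi := by simp only [mul_assoc]
    _ = 0 := by rw [hz, mul_zero, zero_mul]

end Fermat.Agent.TW.Flat.SS
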