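/-
TW-FLAT (task 335, FLAT-SS-COUNT): shared DEFINITIONS of the supersingular count.

`ϖ ^ (p² − 1) = −p`, `G_F = {σ ∈ I | σ ϖ = ϖ}`, `F = Qb^{G_F}`.

* `GFFixed P ϖ x` : `x` is fixed by `G_F`;
* the level calculus in `F` as named statements (`Prop`-valued definitions, task 351):
  `K3`, `K4`, `K4'`, `K5`, `GFMu`.  Producers prove `theorem … : SS.K3` etc.
-/
import Mathlib
import Fermat.Agent.TW.Flat.Interfaces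

set_option autoImplicit false

namespace Fermat.Agent.TW.Flat.SS

open Fermat.Agent.S53 Fermat.Agent.TW Fermat.Agent.TW.Flat

local notation "Qb" => AlgebraicClosure ℚ

/-- `x` is fixed by `G_F = {σ ∈ I | σ ϖ = ϖ}`. -/
def GFFixed (P : ValuationSubring Qb) (ϖ x : Qb) : Prop :=
  ∀ σ ∈ P.inertiaSubgroupIn ℚ, σ ϖ = ϖ → σ x = x

/-- (K3) a `p`-th power of an element of `F` which is `≡ 1 mod ϖ^j`, `p ∤ j`, `j < p² + p`, is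
`≡ 1 mod ϖ^(j+1)`. -/
def K3 : Prop :=
  ∀ (p : ℕ) [Fact p.Prime] (P : ValuationSubring Qb), p ≠ 2 → P.LiesOverPrime p →
    ∀ ϖ : Qb, ϖ ^ (p ^ 2 - 1) = -(p : Qb) → ∀ y : Qb, GFFixed P ϖ y →
    ∀ j : ℕ, 1 ≤ j → ¬ p ∣ j → j < p ^ 2 + p →
      (y ^ p - 1) / ϖ ^ j ∈ P → (y ^ p - 1) / ϖ ^ (j + 1) ∈ P

/-- (K4) at a level `p·i`, `1 ≤ i ≤ p`, the leading term can be removed by a `p`-th power of an
element of `F`. -/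
def K4 : Prop :=
  ∀ (p : ℕ) [Fact p.Prime] (P : ValuationSubring Qb), p ≠ 2 → P.LiesOverPrime p →
    ∀ ϖ : Qb, ϖ ^ (p ^ 2 - 1) = -(p : Qb) → ∀ u : Qb, GFFixed P ϖ u →
    ∀ i : ℕ, 1 ≤ i → i ≤ p → (u - 1) / ϖ ^ (p * i) ∈ P →
      ∃ y : Qb, y ≠ 0 ∧ GFFixed P ϖ y ∧ (u / y ^ p - 1) / ϖ ^ (p * i + 1) ∈ P

/-- (K4') the same at the level `p² + p` (Artin–Schreier). -/
def K4' : Prop :=
  ∀ (p : ℕ) [Fact p.Prime] (P : ValuationSubring Qb), p ≠ 2 → P.LiesOverPrime p →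
    ∀ ϖ : Qb, ϖ ^ (p ^ 2 - 1) = -(p : Qb) → ∀ u : Qb, GFFixed P ϖ u →
      (u - 1) / ϖ ^ (p ^ 2 + p) ∈ P →
      ∃ y : Qb, y ≠ 0 ∧ GFFixed P ϖ y ∧ (u / y ^ p - 1) / ϖ ^ (p ^ 2 + p + 1) ∈ P

/-- (K5) beyond the level `p² + p` every `p`-th root is fixed by `G_F`. -/
def K5 : Prop :=
  ∀ (p : ℕ) [Fact p.Prime] (P : ValuationSubring Qb), p ≠ 2 → P.LiesOverPrime p →
    ∀ ϖ : Qb, ϖ ^ (p ^ 2 - 1) = -(p : Qb) → ∀ u z : Qb, GFFixed P ϖ u →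
      (u - 1) / ϖ ^ (p ^ 2 + p + 1) ∈ P → z ^ p = u → GFFixed P ϖ z

/-- `G_F` fixes the `p`-th roots of unity. -/
def GFMu : Prop :=
  ∀ (p : ℕ) [Fact p.Prime] (P : ValuationSubring Qb), p ≠ 2 → P.LiesOverPrime p →
    ∀ ϖ : Qb, ϖ ^ (p ^ 2 - 1) = -(p : Qb) → ∀ ζ : Qb, ζ ^ p = 1 → GFFixed P ϖ ζ

end Fermat.Agent.TW.Flat.SS
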