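/-
TW-FLAT, task 351 (sub-row of 335): the LEVEL CALCULUS (K3), (K4), (K4'), (K5) in
`F = Qb^{G_F}`, `G_F = {σ ∈ I | σ ϖ = ϖ}`, `ϖ^(p²−1) = −p`.  Pure valuation arithmetic; the local
toolkit enters through the named statements of `TW/Flat/Interfaces.lean`.
-/
import Mathlib
import Fermat.Agent.TW.Flat.Interfaces
import Fermat.Agent.TW.Flat.SS.Defs
import Fermat.Agent.PT.LevelTwist

set_option autoImplicit false

namespace Fermat.Agent.TW.Flat.SS

open Fermat.Agent.TW.Flat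

local notation "Qb" => AlgebraicClosure ℚ

namespace Levels

/-! ### Closure properties of `GFFixed` -/

section Closure

variable {P : ValuationSubring Qb} {ϖ x y : Qb}

theorem gfFixed_one : GFFixed P ϖ 1 := fun σ _ _ => map_one σ

theorem gfFixed_zero : GFFixed P ϖ 0 := fun σ _ _ => map_zero σ

theorem gfFixed_self : GFFixed P ϖ ϖ := fun _ _ h => h

theorem gfFixed_of_inertia (h : ∀ σ ∈ P.inertiaSubgroupIn ℚ, σ x = x) : GFFixed P ϖ x :=
  fun σ hσ _ => h σ hσ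

theorem gfFixed_add (hx : GFFixed P ϖ x) (hy : GFFixed P ϖ y) : GFFixed P ϖ (x + y) :=
  fun σ hσ h => by rw [map_add, hx σ hσ h, hy σ hσ h]

theorem gfFixed_sub (hx : GFFixed P ϖ x) (hy : GFFixed P ϖ y) : GFFixed P ϖ (x - y) :=
  fun σ hσ h => by rw [map_sub, hx σ hσ h, hy σ hσ h]

theorem gfFixed_mul (hx : GFFixed P ϖ x) (hy : GFFixed P ϖ y) : GFFixed P ϖ (x * y) :=
  fun σ hσ h => by rw [map_mul, hx σ hσ h, hy σ hσ h]

theorem gfFixed_div (hx : GFFixed P ϖ x) (hy : GFFixed P ϖ y) : GFFixed P ϖ (x / y) :=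
  fun σ hσ h => by rw [map_div₀, hx σ hσ h, hy σ hσ h]

theorem gfFixed_pow (hx : GFFixed P ϖ x) (n : ℕ) : GFFixed P ϖ (x ^ n) :=
  fun σ hσ h => by rw [map_pow, hx σ hσ h]

end Closure

/-! ### Valuation arithmetic -/

section Val

theorem inertia_le_decomp (P : ValuationSubring Qb) :
    P.inertiaSubgroupIn ℚ ≤ P.decompositionSubgroup ℚ := by
  rintro σ ⟨x, -, rfl⟩
  exact x.2

variable {P : ValuationSubring Qb}

theorem isPUnit_iff {z : Qb} : IsPUnit P z ↔ P.valuation z = 1 := by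
  constructor
  · rintro ⟨h0, h1, h2⟩
    have a1 : P.valuation z ≤ 1 := (P.valuation_le_one_iff z).mpr h1
    have a2 : P.valuation z⁻¹ ≤ 1 := (P.valuation_le_one_iff _).mpr h2
    rw [map_inv₀] at a2
    have hpos : 0 < P.valuation z := by
      rw [Valuation.pos_iff]; exact h0
    exact le_antisymm a1 ((inv_le_one₀ hpos).mp a2)
  · intro h
    have h0 : z ≠ 0 := by
      rintro rfl
      rw [map_zero] at h
      exact zero_ne_one h
    refine ⟨h0, (P.valuation_le_one_iff z).mp h.le, (P.valuation_le_one_iff _).mp ?_⟩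
    rw [map_inv₀, h, inv_one]

theorem div_pow_mem_iff {ϖ : Qb} (hϖ0 : ϖ ≠ 0) (x : Qb) (j : ℕ) :
    x / ϖ ^ j ∈ P ↔ P.valuation x ≤ P.valuation ϖ ^ j := by
  have hpos : 0 < P.valuation ϖ := by
    rw [Valuation.pos_iff]; exact hϖ0
  rw [← P.valuation_le_one_iff, map_div₀, map_pow, div_le_one₀ (pow_pos hpos j)]

/-- the geometric-sum factor: `v (x^n − y^n) ≤ v (x − y)` for `x, y ∈ P`. -/
theorem val_pow_sub_pow_le {x y : Qb} (hx : x ∈ P) (hy : y ∈ P) (n : ℕ) :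
    P.valuation (x ^ n - y ^ n) ≤ P.valuation (x - y) := by
  have h := (Commute.all x y).mul_geom_sum₂ n
  rw [← h, map_mul]
  have hs : ∑ i ∈ Finset.range n, x ^ i * y ^ (n - 1 - i) ∈ P :=
    P.toSubring.sum_mem (fun i _ => P.mul_mem _ _ (pow_mem hx _) (pow_mem hy _))
  calc P.valuation (x - y) * P.valuation (∑ i ∈ Finset.range n, x ^ i * y ^ (n - 1 - i))
      ≤ P.valuation (x - y) * 1 :=
        mul_le_mul_right ((P.valuation_le_one_iff _).mpr hs) _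
    _ = P.valuation (x - y) := mul_one _

theorem val_le_one_of_pow_eq_one {ζ : Qb} {m : ℕ} (hm : 0 < m) (h : ζ ^ m = 1) :
    P.valuation ζ = 1 := by
  have h1 : P.valuation ζ ^ m = 1 := by rw [← map_pow, h, map_one]
  rcases lt_trichotomy (P.valuation ζ) 1 with h2 | h2 | h2
  · exact absurd h1 (ne_of_lt (pow_lt_one₀ zero_le h2 hm.ne'))
  · exact h2
  · exact absurd h1 (ne_of_gt (one_lt_pow₀ h2 hm.ne'))

end Val

/-! ### Binomial lemmas -/

section Binomial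

/-- `(1 + x)^p = 1 + x^p + p·x·(1 + x·s)`. -/
theorem exists_one_add_pow_prime {R : Type*} [CommRing R] {p : ℕ} (hp : p.Prime) (x : R) :
    ∃ s : R, (1 + x) ^ p = 1 + x ^ p + p * x * (1 + x * s) := by
  obtain ⟨r, hr⟩ := exists_add_pow_prime_eq hp (1 : Polynomial ℤ) Polynomial.X
  have hc : r.coeff 0 = 1 := by
    have h1 := congrArg (fun f => Polynomial.coeff f 1) hr
    simp only [Polynomial.coeff_one_add_X_pow, one_pow, mul_one, Polynomial.coeff_add,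
      Polynomial.coeff_X_pow] at h1
    have h2 : ((p : Polynomial ℤ) * Polynomial.X * r).coeff 1 = (p : ℤ) * r.coeff 0 := by
      rw [mul_assoc, ← Polynomial.C_eq_natCast, Polynomial.coeff_C_mul]
      have : (Polynomial.X * r).coeff (0 + 1) = r.coeff 0 := Polynomial.coeff_X_mul r 0
      rw [zero_add] at this
      rw [this]
    rw [h2] at h1
    have h3 : (1 : Polynomial ℤ).coeff 1 = 0 := by
      rw [Polynomial.coeff_one]; simp
    rw [h3, if_neg (by intro h; exact hp.ne_one h.symm)] at h1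
    have hp0 : (p : ℤ) ≠ 0 := by exact_mod_cast hp.ne_zero
    have h4 : (p : ℤ) * r.coeff 0 = (p : ℤ) * 1 := by
      rw [mul_one]
      have : ((p.choose 1 : ℕ) : ℤ) = p := by rw [Nat.choose_one_right]
      rw [this] at h1
      linarith
    exact mul_left_cancel₀ hp0 h4
  have hrs : r = 1 + Polynomial.X * r.divX := by
    have h := Polynomial.divX_mul_X_add r
    rw [hc, map_one] at h
    linear_combination -h
  refine ⟨Polynomial.aeval x r.divX, ?_⟩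
  have h2 := congrArg (Polynomial.aeval x) hr
  rw [hrs] at h2
  simp only [map_add, map_pow, map_mul, map_one, Polynomial.aeval_X, map_natCast, one_pow,
    mul_one] at h2
  rw [h2]

end Binomial

/-! ### The uniformiser `ϖ` -/

section Varpi

variable (p : ℕ) [Fact p.Prime] {P : ValuationSubring Qb}

theorem sq_sub_one_pos : 0 < p ^ 2 - 1 := by
  have hp : 2 ≤ p := (Fact.out : p.Prime).two_le
  have : 4 ≤ p ^ 2 := by nlinarith
  omega

theorem not_dvd_sq_sub_one : ¬ p ∣ p ^ 2 - 1 := by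
  have hp : p.Prime := Fact.out
  intro h
  have h1 : p ∣ p ^ 2 := dvd_pow_self p (by norm_num)
  have h2 := Nat.dvd_sub h1 h
  have h3 : p ^ 2 - (p ^ 2 - 1) = 1 := by
    have := sq_sub_one_pos p
    omega
  rw [h3] at h2
  exact hp.one_lt.ne' (Nat.dvd_one.mp h2)

variable {p}

theorem varpi_ne_zero {ϖ : Qb} (hϖ : ϖ ^ (p ^ 2 - 1) = -(p : Qb)) : ϖ ≠ 0 := by
  have hp : p.Prime := Fact.out
  rintro rfl
  rw [zero_pow (sq_sub_one_pos p).ne'] at hϖ
  have : (p : Qb) = 0 := by linear_combination hϖ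
  exact hp.ne_zero (by exact_mod_cast this)

theorem val_varpi_pos {ϖ : Qb} (hϖ : ϖ ^ (p ^ 2 - 1) = -(p : Qb)) : 0 < P.valuation ϖ := by
  rw [Valuation.pos_iff]; exact varpi_ne_zero hϖ

omit [Fact p.Prime] in
theorem val_p_eq {ϖ : Qb} (hϖ : ϖ ^ (p ^ 2 - 1) = -(p : Qb)) :
    P.valuation (p : Qb) = P.valuation ϖ ^ (p ^ 2 - 1) := by
  rw [← map_pow, hϖ, Valuation.map_neg]

theorem val_varpi_lt_one (hP : P.LiesOverPrime p) {ϖ : Qb} (hϖ : ϖ ^ (p ^ 2 - 1) = -(p : Qb)) :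
    P.valuation ϖ < 1 := by
  by_contra hge
  rw [not_lt] at hge
  have h1 : P.valuation (p : Qb) < 1 := P.mem_nonunits_iff.mp hP
  rw [val_p_eq hϖ] at h1
  exact absurd (one_le_pow₀ hge) (not_le.mpr h1)

/-- powers of `v(ϖ)` are antitone -/
theorem pow_le_pow_varpi (hP : P.LiesOverPrime p) {ϖ : Qb} (hϖ : ϖ ^ (p ^ 2 - 1) = -(p : Qb))
    {m n : ℕ} (h : n ≤ m) : P.valuation ϖ ^ m ≤ P.valuation ϖ ^ n :=
  (pow_le_pow_iff_right_of_lt_one₀ (val_varpi_pos hϖ) (val_varpi_lt_one hP hϖ)).mpr h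

/-- **[F-VAL], natural form**: a nonzero `G_F`-fixed element of the maximal ideal has valuation
`v(ϖ)^i`, `i ≥ 1`. -/
theorem fval_nat (hFV : Loc.FVal) (hP : P.LiesOverPrime p) {ϖ : Qb}
    (hϖ : ϖ ^ (p ^ 2 - 1) = -(p : Qb)) {x : Qb} (hx0 : x ≠ 0) (hx : GFFixed P ϖ x)
    (hx1 : P.valuation x < 1) : ∃ i : ℕ, 1 ≤ i ∧ P.valuation x = P.valuation ϖ ^ i := by
  obtain ⟨m, hm⟩ := hFV p P hP (p ^ 2 - 1) (sq_sub_one_pos p) (not_dvd_sq_sub_one p) ϖ hϖ x hx0 hx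
  rw [isPUnit_iff, map_div₀, map_zpow₀] at hm
  have ha0 := val_varpi_pos (P := P) hϖ
  have ha1 := val_varpi_lt_one hP hϖ
  have hxm : P.valuation x = P.valuation ϖ ^ m :=
    (div_eq_one_iff_eq (zpow_ne_zero m ha0.ne')).mp hm
  have hm0 : 0 < m := by
    have h2 : P.valuation ϖ ^ m < P.valuation ϖ ^ (0 : ℤ) := by
      rw [zpow_zero, ← hxm]; exact hx1
    exact (zpow_lt_zpow_iff_right_of_lt_one₀ ha0 ha1).mp h2
  refine ⟨m.toNat, by omega, ?_⟩
  rw [hxm, ← zpow_natCast, Int.toNat_of_nonneg hm0.le]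

/-- **[F-VAL], divisibility form**: a `G_F`-fixed element of the maximal ideal is divisible by
`ϖ`. -/
theorem fval_le (hFV : Loc.FVal) (hP : P.LiesOverPrime p) {ϖ : Qb}
    (hϖ : ϖ ^ (p ^ 2 - 1) = -(p : Qb)) {x : Qb} (hx : GFFixed P ϖ x)
    (hx1 : P.valuation x < 1) : P.valuation x ≤ P.valuation ϖ := by
  rcases eq_or_ne x 0 with rfl | hx0
  · rw [map_zero]; exact zero_le
  · obtain ⟨i, hi, hxi⟩ := fval_nat hFV hP hϖ hx0 hx hx1
    rw [hxi]
    have := pow_le_pow_varpi hP hϖ (m := i) (n := 1) hi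
    rwa [pow_one] at this

/-- the key exponent inequality `i p < (p² − 1) + i` for `1 ≤ i ≤ p`. -/
theorem key_lt {i : ℕ} (_hi1 : 1 ≤ i) (hi : i ≤ p) : i * p < (p ^ 2 - 1) + i := by
  have hp : 2 ≤ p := (Fact.out : p.Prime).two_le
  obtain ⟨q, rfl⟩ : ∃ q, p = q + 2 := ⟨p - 2, by omega⟩
  have he : (q + 2) ^ 2 - 1 = q ^ 2 + 4 * q + 3 := by
    have : (q + 2) ^ 2 = q ^ 2 + 4 * q + 4 := by ring
    omega
  rw [he]
  nlinarith [Nat.mul_le_mul_right (q + 1) hi]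

/-- `v(p · x · r) ≤ v(ϖ)^(e + i)` when `v x ≤ v(ϖ)^i`, `r ∈ P`. -/
theorem val_p_mul_le {ϖ : Qb} (hϖ : ϖ ^ (p ^ 2 - 1) = -(p : Qb)) {x r : Qb} {i : ℕ}
    (hx : P.valuation x ≤ P.valuation ϖ ^ i) (hr : r ∈ P) :
    P.valuation ((p : Qb) * x * r) ≤ P.valuation ϖ ^ (p ^ 2 - 1 + i) := by
  rw [map_mul, map_mul, val_p_eq hϖ, pow_add]
  have hr1 : P.valuation r ≤ 1 := (P.valuation_le_one_iff _).mpr hr
  calc P.valuation ϖ ^ (p ^ 2 - 1) * P.valuation x * P.valuation r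
      ≤ P.valuation ϖ ^ (p ^ 2 - 1) * P.valuation ϖ ^ i * 1 :=
        mul_le_mul' (mul_le_mul_right hx _) hr1
    _ = P.valuation ϖ ^ (p ^ 2 - 1) * P.valuation ϖ ^ i := mul_one _

end Varpi

end Levels

open Levels

variable (p : ℕ) [Fact p.Prime] (P : ValuationSubring Qb)

/-! ### `G_F` fixes the `p`-th roots of unity -/

/-- `G_F` fixes `μ_p`, minimal hypotheses: [TAME-KUM] (also for `p = 2`). -/
theorem gfFixed_of_pow_eq_one_core (hTK : Loc.TameKum) (hP : P.LiesOverPrime p)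
    (ϖ : Qb) (hϖ : ϖ ^ (p ^ 2 - 1) = -(p : Qb)) (ζ : Qb) (hζ : ζ ^ p = 1) :
    GFFixed P ϖ ζ := by
  have hp : p.Prime := Fact.out
  have hp2' : 2 ≤ p := hp.two_le
  obtain ⟨ζ₀, hζ₀⟩ := Fermat.Agent.PT.Levels.exists_primitiveRoot_Qbar p
  intro σ hσ hσϖ
  let f : ↥(P.inertiaSubgroupIn ℚ) →* (ZMod p)ˣ :=
    (ExtCitation.cycloChar p).comp (Subgroup.subtype _)
  have hpe : ¬ p ∣ p - 1 := by
    intro h
    have := Nat.le_of_dvd (by omega) h
    omega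
  have hf : f ⟨σ, hσ⟩ = 1 := by
    refine hTK p P hP (p - 1) (by omega) hpe (ϖ ^ (p + 1)) ?_ f ?_ ?_ ⟨σ, hσ⟩ ?_
    · rw [← pow_mul, ← hϖ]
      congr 1
      obtain ⟨q, rfl⟩ : ∃ q, p = q + 2 := ⟨p - 2, by omega⟩
      have : (q + 2) ^ 2 = (q + 2 + 1) * (q + 2 - 1) + 1 := by
        have h1 : q + 2 - 1 = q + 1 := by omega
        rw [h1]; ring
      omega
    · intro τ
      exact ZMod.units_pow_card_sub_one_eq_one p (f τ)
    · refine ⟨IntermediateField.adjoin ℚ {ζ₀},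
        IntermediateField.adjoin.finiteDimensional ((hζ₀.isIntegral hp.pos).tower_top), ?_⟩
      intro τ hτ
      exact (Fermat.Agent.PT.Levels.cycloChar_eq_one_iff p _ hζ₀).mpr
        (hτ ζ₀ (IntermediateField.mem_adjoin_simple_self ℚ ζ₀))
    · show σ (ϖ ^ (p + 1)) = ϖ ^ (p + 1)
      rw [map_pow, hσϖ]
  have h1 : σ ζ₀ = ζ₀ := (Fermat.Agent.PT.Levels.cycloChar_eq_one_iff p σ hζ₀).mp hf
  obtain ⟨i, -, rfl⟩ := hζ₀.eq_pow_of_pow_eq_one hζ
  rw [map_pow, h1]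

/-! ### (K3) -/

/-- (K3), minimal hypotheses: only [F-VAL]. -/
theorem k3_core (hFV : Loc.FVal)
    (hP : P.LiesOverPrime p) (ϖ : Qb) (hϖ : ϖ ^ (p ^ 2 - 1) = -(p : Qb))
    (y : Qb) (hy : GFFixed P ϖ y) (j : ℕ) (hj1 : 1 ≤ j) (hpj : ¬ p ∣ j) (hj : j < p ^ 2 + p)
    (h : (y ^ p - 1) / ϖ ^ j ∈ P) : (y ^ p - 1) / ϖ ^ (j + 1) ∈ P := by
  have hp : p.Prime := Fact.out
  have hϖ0 := varpi_ne_zero hϖ
  have ha0 := val_varpi_pos (P := P) hϖ
  have ha1 := val_varpi_lt_one hP hϖ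
  rw [div_pow_mem_iff hϖ0] at h ⊢
  -- `y^p ≡ 1`, so `y` is a unit
  have h1 : P.valuation (y ^ p - 1) < 1 := by
    refine lt_of_le_of_lt h ?_
    exact pow_lt_one₀ zero_le ha1 (by omega)
  have hyp : P.valuation (y ^ p) = 1 := by
    have := Valuation.map_one_add_of_lt (v := P.valuation) h1
    rwa [add_sub_cancel] at this
  have hy1 : P.valuation y = 1 := by
    rw [map_pow] at hyp
    rcases lt_trichotomy (P.valuation y) 1 with h2 | h2 | h2
    · exact absurd hyp (ne_of_lt (pow_lt_one₀ zero_le h2 hp.ne_zero))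
    · exact h2
    · exact absurd hyp (ne_of_gt (one_lt_pow₀ h2 hp.ne_zero))
  have hyP : y ∈ P := (P.valuation_le_one_iff _).mp hy1.le
  have hxP : y - 1 ∈ P := sub_mem hyP P.one_mem
  -- binomial expansion in `P`
  obtain ⟨r, hr⟩ := exists_add_pow_prime_eq hp (⟨y - 1, hxP⟩ : P) 1
  have hr' : y ^ p - 1 = (y - 1) ^ p + (p : Qb) * (y - 1) * (r : Qb) := by
    have h2 := congrArg (Subtype.val : P → Qb) hr
    push_cast at h2
    linear_combination h2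
  -- `v (y − 1) < 1`
  have hx1 : P.valuation (y - 1) < 1 := by
    by_contra hge
    have hx1' : P.valuation (y - 1) = 1 :=
      le_antisymm ((P.valuation_le_one_iff _).mpr hxP) (not_lt.mp hge)
    have h3 : P.valuation ((p : Qb) * (y - 1) * (r : Qb)) < P.valuation ((y - 1) ^ p) := by
      rw [map_pow, hx1', one_pow, map_mul, map_mul, hx1', mul_one]
      calc P.valuation (p : Qb) * P.valuation (r : Qb)
          ≤ P.valuation (p : Qb) * 1 :=
            mul_le_mul_right ((P.valuation_le_one_iff _).mpr r.2) _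
        _ = P.valuation (p : Qb) := mul_one _
        _ < 1 := P.mem_nonunits_iff.mp hP
    have h4 := Valuation.map_add_eq_of_lt_left (v := P.valuation) h3
    rw [← hr', map_pow, hx1', one_pow] at h4
    exact absurd h4 (ne_of_lt h1)
  rcases eq_or_ne (y - 1) 0 with hx0 | hx0
  · have : y ^ p - 1 = 0 := by
      rw [hr', hx0]; ring_nf; simp [hp.ne_zero]
    rw [this, map_zero]; exact zero_le
  obtain ⟨i, hi1, hxi⟩ := fval_nat hFV hP hϖ hx0 (gfFixed_sub hy gfFixed_one) hx1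
  have hA : P.valuation ((y - 1) ^ p) = P.valuation ϖ ^ (i * p) := by
    rw [map_pow, hxi, pow_mul]
  have hB : P.valuation ((p : Qb) * (y - 1) * (r : Qb)) ≤ P.valuation ϖ ^ (p ^ 2 - 1 + i) :=
    val_p_mul_le hϖ hxi.le r.2
  rcases le_or_gt i p with hip | hip
  · -- `v (y^p − 1) = v(ϖ)^(ip)`
    have hlt : P.valuation ((p : Qb) * (y - 1) * (r : Qb)) < P.valuation ((y - 1) ^ p) := by
      refine lt_of_le_of_lt hB ?_
      rw [hA]
      exact (pow_lt_pow_iff_right_of_lt_one₀ ha0 ha1).mpr (key_lt hi1 hip)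
    have h4 := Valuation.map_add_eq_of_lt_left (v := P.valuation) hlt
    rw [← hr', hA] at h4
    rw [h4] at h ⊢
    have hj' : j ≤ i * p := (pow_le_pow_iff_right_of_lt_one₀ ha0 ha1).mp h
    have hne : j ≠ i * p := by
      rintro rfl
      exact hpj (dvd_mul_left p i)
    exact pow_le_pow_varpi hP hϖ (by omega)
  · -- `i ≥ p + 1`
    have h5 : p ^ 2 + p ≤ i * p := by nlinarith
    have h6 : p ^ 2 + p ≤ p ^ 2 - 1 + i := by
      have := sq_sub_one_pos p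
      omega
    rw [hr']
    refine le_trans (P.valuation.map_add _ _) (max_le ?_ ?_)
    · rw [hA]; exact pow_le_pow_varpi hP hϖ (by omega)
    · exact le_trans hB (pow_le_pow_varpi hP hϖ (by omega))

/-! ### (K4) -/

/-- (K4), minimal hypotheses: [TEICH], [ROOT-FIX], [F-VAL]. -/
theorem k4_core (hTeich : Loc.Teich) (hRF : Loc.RootFix) (hFV : Loc.FVal)
    (hP : P.LiesOverPrime p) (ϖ : Qb) (hϖ : ϖ ^ (p ^ 2 - 1) = -(p : Qb))
    (u : Qb) (hu : GFFixed P ϖ u) (i : ℕ) (hi1 : 1 ≤ i) (hi : i ≤ p)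
    (h : (u - 1) / ϖ ^ (p * i) ∈ P) :
    ∃ y : Qb, y ≠ 0 ∧ GFFixed P ϖ y ∧ (u / y ^ p - 1) / ϖ ^ (p * i + 1) ∈ P := by
  have hp : p.Prime := Fact.out
  have hϖ0 := varpi_ne_zero hϖ
  have ha0 := val_varpi_pos (P := P) hϖ
  have ha1 := val_varpi_lt_one hP hϖ
  set t : Qb := (u - 1) / ϖ ^ (p * i) with ht
  have htP : P.valuation t ≤ 1 := (P.valuation_le_one_iff _).mpr h
  have htF : GFFixed P ϖ t := gfFixed_div (gfFixed_sub hu gfFixed_one) (gfFixed_pow gfFixed_self _)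
  have hut : u - 1 = ϖ ^ (p * i) * t := by
    rw [ht, mul_div_cancel₀ _ (pow_ne_zero _ hϖ0)]
  rcases lt_or_eq_of_le htP with ht1 | ht1
  · -- `t ∈ 𝔪`: take `y = 1`
    refine ⟨1, one_ne_zero, gfFixed_one, ?_⟩
    rw [one_pow, div_one, div_pow_mem_iff hϖ0, hut, map_mul, map_pow, pow_succ]
    exact mul_le_mul_right (fval_le hFV hP hϖ htF ht1) _
  · -- `t` a unit: Teichmüller representative
    obtain ⟨ζ, m, hm, hpm, hζm, hζt⟩ := hTeich p P hP t (isPUnit_iff.mpr ht1)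
    have hcop : Nat.Coprime p m := (Nat.Prime.coprime_iff_not_dvd hp).mpr hpm
    -- a `p`-th root `b` of `ζ` among the `m`-th roots of unity
    set b : Qb := ζ ^ (p ^ (Nat.totient m - 1)) with hb
    have hbm : b ^ m = 1 := by
      rw [hb, ← pow_mul, mul_comm, pow_mul, hζm, one_pow]
    have hbp : b ^ p = ζ := by
      have hφ : 0 < Nat.totient m := Nat.totient_pos.mpr hm
      have h1 : p ^ (Nat.totient m - 1) * p = p ^ Nat.totient m := by
        rw [← pow_succ, Nat.sub_add_cancel hφ]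
      have h2 : p ^ Nat.totient m % m = 1 % m := Nat.ModEq.pow_totient hcop
      rw [hb, ← pow_mul, h1, pow_eq_pow_mod _ hζm, h2, ← pow_eq_pow_mod _ hζm, pow_one]
    have hbv : P.valuation b = 1 := val_le_one_of_pow_eq_one hm hbm
    have hbF : GFFixed P ϖ b := gfFixed_of_inertia (hRF p P hP b m hm hpm hbm)
    have hζF : GFFixed P ϖ ζ := gfFixed_of_inertia (hRF p P hP ζ m hm hpm hζm)
    set x : Qb := b * ϖ ^ i with hx
    have hxv : P.valuation x = P.valuation ϖ ^ i := by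
      rw [hx, map_mul, hbv, one_mul, map_pow]
    have hxlt : P.valuation x < 1 := by
      rw [hxv]; exact pow_lt_one₀ zero_le ha1 (by omega)
    have hxP : x ∈ P := (P.valuation_le_one_iff _).mp hxlt.le
    have hyv : P.valuation (1 + x) = 1 := P.valuation.map_one_add_of_lt hxlt
    have hy0 : (1 + x) ≠ 0 := by
      intro h0
      rw [h0, map_zero] at hyv
      exact zero_ne_one hyv
    refine ⟨1 + x, hy0, gfFixed_add gfFixed_one (gfFixed_mul hbF (gfFixed_pow gfFixed_self _)), ?_⟩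
    obtain ⟨r, hr⟩ := exists_add_pow_prime_eq hp (⟨x, hxP⟩ : P) 1
    have hr' : (1 + x) ^ p = x ^ p + 1 + (p : Qb) * x * (r : Qb) := by
      have h2 := congrArg (Subtype.val : P → Qb) hr
      push_cast at h2
      rw [add_comm 1 x]
      linear_combination h2
    have hxp : x ^ p = ζ * ϖ ^ (p * i) := by
      rw [hx, mul_pow, hbp, ← pow_mul, mul_comm i p]
    have hdiff : u - (1 + x) ^ p = ϖ ^ (p * i) * (t - ζ) - (p : Qb) * x * (r : Qb) := by
      rw [hr', hxp]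
      linear_combination hut
    have hval : P.valuation (u - (1 + x) ^ p) ≤ P.valuation ϖ ^ (p * i + 1) := by
      rw [hdiff]
      refine le_trans (P.valuation.map_sub _ _) (max_le ?_ ?_)
      · rw [map_mul, map_pow, pow_succ]
        exact mul_le_mul_right (fval_le hFV hP hϖ (gfFixed_sub htF hζF) (P.mem_nonunits_iff.mp hζt)) _
      · refine le_trans (val_p_mul_le hϖ hxv.le r.2) (pow_le_pow_varpi hP hϖ ?_)
        have := key_lt (p := p) hi1 hi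
        rw [mul_comm p i]
        omega
    rw [div_pow_mem_iff hϖ0]
    have hyp0 : (1 + x) ^ p ≠ 0 := pow_ne_zero _ hy0
    have hrw : u / (1 + x) ^ p - 1 = (u - (1 + x) ^ p) / (1 + x) ^ p := by
      field_simp
    rw [hrw, map_div₀, map_pow, hyv, one_pow, div_one]
    exact hval

/-! ### (K4') -/

/-- (K4'), minimal hypotheses: [TEICH], [ROOT-FIX], [F-VAL]. -/
theorem k4'_core (hTeich : Loc.Teich) (hRF : Loc.RootFix) (hFV : Loc.FVal)
    (hP : P.LiesOverPrime p) (ϖ : Qb) (hϖ : ϖ ^ (p ^ 2 - 1) = -(p : Qb))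
    (u : Qb) (hu : GFFixed P ϖ u) (h : (u - 1) / ϖ ^ (p ^ 2 + p) ∈ P) :
    ∃ y : Qb, y ≠ 0 ∧ GFFixed P ϖ y ∧ (u / y ^ p - 1) / ϖ ^ (p ^ 2 + p + 1) ∈ P := by
  have hp : p.Prime := Fact.out
  have hp2' : 2 ≤ p := hp.two_le
  have hϖ0 := varpi_ne_zero hϖ
  have ha0 := val_varpi_pos (P := P) hϖ
  have ha1 := val_varpi_lt_one hP hϖ
  set t : Qb := (u - 1) / ϖ ^ (p ^ 2 + p) with ht
  have htP : P.valuation t ≤ 1 := (P.valuation_le_one_iff _).mpr h
  have htF : GFFixed P ϖ t := gfFixed_div (gfFixed_sub hu gfFixed_one) (gfFixed_pow gfFixed_self _)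
  have hut : u - 1 = ϖ ^ (p ^ 2 + p) * t := by
    rw [ht, mul_div_cancel₀ _ (pow_ne_zero _ hϖ0)]
  -- a root `b₀` of `X^p − X − t`
  obtain ⟨b₀, hb₀⟩ : ∃ b₀ : Qb, b₀ ^ p - b₀ - t = 0 := by
    have hdeg : (Polynomial.X ^ p - (Polynomial.X + Polynomial.C t) : Polynomial Qb).degree
        = (p : WithBot ℕ) := by
      rw [Polynomial.degree_sub_eq_left_of_degree_lt, Polynomial.degree_X_pow]
      rw [Polynomial.degree_X_pow]
      refine lt_of_le_of_lt (Polynomial.degree_X_add_C t).le ?_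
      exact_mod_cast hp.one_lt
    obtain ⟨b₀, hb₀⟩ := IsAlgClosed.exists_root
      (Polynomial.X ^ p - (Polynomial.X + Polynomial.C t) : Polynomial Qb)
      (by rw [hdeg]; exact_mod_cast hp.ne_zero)
    refine ⟨b₀, ?_⟩
    rw [Polynomial.IsRoot.def] at hb₀
    simp only [Polynomial.eval_sub, Polynomial.eval_pow, Polynomial.eval_X, Polynomial.eval_add,
      Polynomial.eval_C] at hb₀
    linear_combination hb₀
  have hb₀P : P.valuation b₀ ≤ 1 := by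
    by_contra hgt
    rw [not_le] at hgt
    have h1 : b₀ ^ p = b₀ + t := by linear_combination hb₀
    have h2 : P.valuation (b₀ ^ p) ≤ P.valuation b₀ := by
      rw [h1]
      exact le_trans (P.valuation.map_add _ _) (max_le le_rfl (htP.trans hgt.le))
    rw [map_pow] at h2
    have h3 : P.valuation b₀ ^ 1 < P.valuation b₀ ^ p :=
      pow_lt_pow_right₀ hgt hp.one_lt
    rw [pow_one] at h3
    exact absurd h2 (not_le.mpr h3)
  -- an inertia-fixed `b` with the same residue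
  obtain ⟨b, hbP, hbI, hbb⟩ : ∃ b : Qb, P.valuation b ≤ 1 ∧
      (∀ σ ∈ P.inertiaSubgroupIn ℚ, σ b = b) ∧ P.valuation (b₀ - b) < 1 := by
    rcases lt_or_eq_of_le hb₀P with h1 | h1
    · exact ⟨0, by rw [map_zero]; exact zero_le, fun σ _ => map_zero σ, by rwa [sub_zero]⟩
    · obtain ⟨ζ, m, hm, hpm, hζm, hζt⟩ := hTeich p P hP b₀ (isPUnit_iff.mpr h1)
      exact ⟨ζ, (val_le_one_of_pow_eq_one hm hζm).le, hRF p P hP ζ m hm hpm hζm,
        P.mem_nonunits_iff.mp hζt⟩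
  have hbF : GFFixed P ϖ b := gfFixed_of_inertia hbI
  have hbP' : b ∈ P := (P.valuation_le_one_iff _).mp hbP
  have hb₀P' : b₀ ∈ P := (P.valuation_le_one_iff _).mp hb₀P
  -- `g = t − (b^p − b)` lies in the maximal ideal, hence is divisible by `ϖ`
  set g : Qb := t - (b ^ p - b) with hg
  have hgF : GFFixed P ϖ g := gfFixed_sub htF (gfFixed_sub (gfFixed_pow hbF _) hbF)
  have hg1 : P.valuation g < 1 := by
    have h1 : g = (b₀ ^ p - b ^ p) - (b₀ - b) := by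
      rw [hg]; linear_combination -hb₀
    rw [h1]
    refine lt_of_le_of_lt (P.valuation.map_sub _ _) (max_lt ?_ hbb)
    exact lt_of_le_of_lt (val_pow_sub_pow_le hb₀P' hbP' p) hbb
  have hga : P.valuation g ≤ P.valuation ϖ := fval_le hFV hP hϖ hgF hg1
  -- `y = 1 + b ϖ^(p+1)`
  set x : Qb := b * ϖ ^ (p + 1) with hx
  have hxv : P.valuation x ≤ P.valuation ϖ ^ (p + 1) := by
    rw [hx, map_mul, map_pow]
    calc P.valuation b * P.valuation ϖ ^ (p + 1) ≤ 1 * P.valuation ϖ ^ (p + 1) :=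
          mul_le_mul_left hbP _
      _ = P.valuation ϖ ^ (p + 1) := one_mul _
  have hxlt : P.valuation x < 1 :=
    lt_of_le_of_lt hxv (pow_lt_one₀ zero_le ha1 (by omega))
  have hxP : x ∈ P := (P.valuation_le_one_iff _).mp hxlt.le
  have hyv : P.valuation (1 + x) = 1 := P.valuation.map_one_add_of_lt hxlt
  have hy0 : (1 + x) ≠ 0 := by
    intro h0
    rw [h0, map_zero] at hyv
    exact zero_ne_one hyv
  refine ⟨1 + x, hy0, gfFixed_add gfFixed_one (gfFixed_mul hbF (gfFixed_pow gfFixed_self _)), ?_⟩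
  obtain ⟨s, hs⟩ := exists_one_add_pow_prime hp (⟨x, hxP⟩ : P)
  have hs' : (1 + x) ^ p = 1 + x ^ p + (p : Qb) * x * (1 + x * (s : Qb)) := by
    have h2 := congrArg (Subtype.val : P → Qb) hs
    push_cast at h2
    exact h2
  -- `p ϖ^(p+1) = −ϖ^(p²+p)`
  have he : p ^ 2 - 1 + (p + 1) = p ^ 2 + p := by
    have := sq_sub_one_pos p
    omega
  have hpϖ : (p : Qb) * ϖ ^ (p + 1) = -ϖ ^ (p ^ 2 + p) := by
    have h1 : ϖ ^ (p ^ 2 + p) = ϖ ^ (p ^ 2 - 1) * ϖ ^ (p + 1) := by rw [← pow_add, he]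
    rw [h1, hϖ]; ring
  have hxp : x ^ p = b ^ p * ϖ ^ (p ^ 2 + p) := by
    rw [hx, mul_pow, ← pow_mul]
    congr 2
    ring
  have hdiff : u - (1 + x) ^ p = ϖ ^ (p ^ 2 + p) * (g + b * x * (s : Qb)) := by
    rw [hs', hxp, hg]
    have h3 : (p : Qb) * x = -(b * ϖ ^ (p ^ 2 + p)) := by
      rw [hx]
      linear_combination b * hpϖ
    linear_combination hut - (1 + x * (s : Qb)) * h3
  have hval : P.valuation (u - (1 + x) ^ p) ≤ P.valuation ϖ ^ (p ^ 2 + p + 1) := by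
    rw [hdiff, map_mul, map_pow, pow_succ]
    refine mul_le_mul_right ?_ _
    refine le_trans (P.valuation.map_add _ _) (max_le hga ?_)
    rw [map_mul, map_mul]
    have hs1 : P.valuation (s : Qb) ≤ 1 := (P.valuation_le_one_iff _).mpr s.2
    have hxa : P.valuation x ≤ P.valuation ϖ := by
      refine le_trans hxv ?_
      have := pow_le_pow_varpi hP hϖ (m := p + 1) (n := 1) (by omega)
      rwa [pow_one] at this
    calc P.valuation b * P.valuation x * P.valuation (s : Qb)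
        ≤ 1 * P.valuation ϖ * 1 := mul_le_mul' (mul_le_mul' hbP hxa) hs1
      _ = P.valuation ϖ := by rw [one_mul, mul_one]
  rw [div_pow_mem_iff hϖ0]
  have hyp0 : (1 + x) ^ p ≠ 0 := pow_ne_zero _ hy0
  have hrw : u / (1 + x) ^ p - 1 = (u - (1 + x) ^ p) / (1 + x) ^ p := by
    field_simp
  rw [hrw, map_div₀, map_pow, hyv, one_pow, div_one]
  exact hval

/-! ### (K5) -/

/-- (K5), minimal hypotheses: [CLOSE], [TAME-KUM]. -/
theorem k5_core (hCR : Loc.CloseRoot) (hTK : Loc.TameKum)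
    (hP : P.LiesOverPrime p) (ϖ : Qb) (hϖ : ϖ ^ (p ^ 2 - 1) = -(p : Qb)) (u z : Qb)
    (hu : GFFixed P ϖ u) (h : (u - 1) / ϖ ^ (p ^ 2 + p + 1) ∈ P) (hz : z ^ p = u) :
    GFFixed P ϖ z := by
  have hp : p.Prime := Fact.out
  have hp2' : 2 ≤ p := hp.two_le
  have hϖ0 := varpi_ne_zero hϖ
  have ha0 := val_varpi_pos (P := P) hϖ
  have ha1 := val_varpi_lt_one hP hϖ
  have hϖP : ϖ ∈ P := (P.valuation_le_one_iff _).mp ha1.le
  have hsq := sq_sub_one_pos p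
  -- the data of [CLOSE]
  have hc : ϖ ^ (p + 2) ∈ P := pow_mem hϖP _
  have hm : ∃ m ∈ P.nonunits, (ϖ ^ (p + 2)) ^ (p - 1) = p * m := by
    refine ⟨-ϖ ^ (p - 1), ?_, ?_⟩
    · rw [P.mem_nonunits_iff, Valuation.map_neg, map_pow]
      exact pow_lt_one₀ zero_le ha1 (by omega)
    · have he : (p + 2) * (p - 1) = p ^ 2 - 1 + (p - 1) := by
        obtain ⟨q, rfl⟩ : ∃ q, p = q + 2 := ⟨p - 2, by omega⟩
        have h1 : q + 2 - 1 = q + 1 := by omega
        have h2 : (q + 2) ^ 2 - 1 = q ^ 2 + 4 * q + 3 := by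
          have : (q + 2) ^ 2 = q ^ 2 + 4 * q + 4 := by ring
          omega
        rw [h1, h2]; ring
      rw [← pow_mul, he, pow_add, hϖ]; ring
  have ht : ∃ t ∈ P, u - 1 = p * ϖ ^ (p + 2) * t := by
    refine ⟨-((u - 1) / ϖ ^ (p ^ 2 + p + 1)), P.neg_mem _ h, ?_⟩
    have he : p ^ 2 - 1 + (p + 2) = p ^ 2 + p + 1 := by omega
    have h1 : (p : Qb) * ϖ ^ (p + 2) = -ϖ ^ (p ^ 2 + p + 1) := by
      have h2 : ϖ ^ (p ^ 2 + p + 1) = ϖ ^ (p ^ 2 - 1) * ϖ ^ (p + 2) := by rw [← pow_add, he]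
      rw [h2, hϖ]; ring
    rw [h1]
    field_simp
  obtain ⟨ζ, hζp, -, hζ⟩ := hCR p P hP (ϖ ^ (p + 2)) u z hc hm ht hz
  have hζ0 : ζ ≠ 0 := by
    rintro rfl
    rw [zero_pow hp.ne_zero] at hζp
    exact zero_ne_one hζp
  have hζF := gfFixed_of_pow_eq_one_core p P hTK hP ϖ hϖ ζ hζp
  intro σ hσ hσϖ
  have h1 := hζ σ (inertia_le_decomp P hσ) (hu σ hσ hσϖ)
  rw [map_mul, hζF σ hσ hσϖ] at h1
  exact mul_left_cancel₀ hζ0 h1

/-! ### The statements in the literal form of task 351 -/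

theorem gfFixed_of_pow_eq_one (hTK : Loc.TameKum) (_hp2 : p ≠ 2) (hP : P.LiesOverPrime p)
    (ϖ : Qb) (hϖ : ϖ ^ (p ^ 2 - 1) = -(p : Qb)) (ζ : Qb) (hζ : ζ ^ p = 1) :
    GFFixed P ϖ ζ :=
  gfFixed_of_pow_eq_one_core p P hTK hP ϖ hϖ ζ hζ

theorem k3 (_hTeich : Loc.Teich) (_hRF : Loc.RootFix) (_hRI : Loc.RootInj) (hFV : Loc.FVal)
    (_hp2 : p ≠ 2) (hP : P.LiesOverPrime p) (ϖ : Qb) (hϖ : ϖ ^ (p ^ 2 - 1) = -(p : Qb))
    (y : Qb) (hy : GFFixed P ϖ y) (j : ℕ) (hj1 : 1 ≤ j) (hpj : ¬ p ∣ j) (hj : j < p ^ 2 + p)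
    (h : (y ^ p - 1) / ϖ ^ j ∈ P) : (y ^ p - 1) / ϖ ^ (j + 1) ∈ P :=
  k3_core p P hFV hP ϖ hϖ y hy j hj1 hpj hj h

theorem k4 (hTeich : Loc.Teich) (hRF : Loc.RootFix) (_hRI : Loc.RootInj) (hFV : Loc.FVal)
    (_hp2 : p ≠ 2) (hP : P.LiesOverPrime p) (ϖ : Qb) (hϖ : ϖ ^ (p ^ 2 - 1) = -(p : Qb))
    (u : Qb) (hu : GFFixed P ϖ u) (i : ℕ) (hi1 : 1 ≤ i) (hi : i ≤ p)
    (h : (u - 1) / ϖ ^ (p * i) ∈ P) :
    ∃ y : Qb, y ≠ 0 ∧ GFFixed P ϖ y ∧ (u / y ^ p - 1) / ϖ ^ (p * i + 1) ∈ P :=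
  k4_core p P hTeich hRF hFV hP ϖ hϖ u hu i hi1 hi h

theorem k4' (hTeich : Loc.Teich) (hRF : Loc.RootFix) (_hRI : Loc.RootInj) (hFV : Loc.FVal)
    (_hp2 : p ≠ 2) (hP : P.LiesOverPrime p) (ϖ : Qb) (hϖ : ϖ ^ (p ^ 2 - 1) = -(p : Qb))
    (u : Qb) (hu : GFFixed P ϖ u) (h : (u - 1) / ϖ ^ (p ^ 2 + p) ∈ P) :
    ∃ y : Qb, y ≠ 0 ∧ GFFixed P ϖ y ∧ (u / y ^ p - 1) / ϖ ^ (p ^ 2 + p + 1) ∈ P :=
  k4'_core p P hTeich hRF hFV hP ϖ hϖ u hu h

theorem k5 (hCR : Loc.CloseRoot) (hTK : Loc.TameKum) (_hRF : Loc.RootFix) (_hp2 : p ≠ 2)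
    (hP : P.LiesOverPrime p) (ϖ : Qb) (hϖ : ϖ ^ (p ^ 2 - 1) = -(p : Qb)) (u z : Qb)
    (hu : GFFixed P ϖ u) (h : (u - 1) / ϖ ^ (p ^ 2 + p + 1) ∈ P) (hz : z ^ p = u) :
    GFFixed P ϖ z :=
  k5_core p P hCR hTK hP ϖ hϖ u z hu h hz

/-! ### The named statements of `TW/Flat/SS/Defs.lean` (minimal toolkit hypotheses) -/

/-- `SS.GFMu` from [TAME-KUM]. -/
theorem gfMu_of (hTK : Loc.TameKum) : GFMu :=
  fun p _ P _ hP ϖ hϖ ζ hζ => gfFixed_of_pow_eq_one_core p P hTK hP ϖ hϖ ζ hζ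

/-- `SS.K3` from [F-VAL]. -/
theorem k3_of (hFV : Loc.FVal) : K3 :=
  fun p _ P _ hP ϖ hϖ y hy j hj1 hpj hj h => k3_core p P hFV hP ϖ hϖ y hy j hj1 hpj hj h

/-- `SS.K4` from [TEICH], [ROOT-FIX], [F-VAL]. -/
theorem k4_of (hTeich : Loc.Teich) (hRF : Loc.RootFix) (hFV : Loc.FVal) : K4 :=
  fun p _ P _ hP ϖ hϖ u hu i hi1 hi h => k4_core p P hTeich hRF hFV hP ϖ hϖ u hu i hi1 hi h

/-- `SS.K4'` from [TEICH], [ROOT-FIX], [F-VAL]. -/
theorem k4'_of (hTeich : Loc.Teich) (hRF : Loc.RootFix) (hFV : Loc.FVal) : K4' :=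
  fun p _ P _ hP ϖ hϖ u hu h => k4'_core p P hTeich hRF hFV hP ϖ hϖ u hu h

/-- `SS.K5` from [CLOSE], [TAME-KUM]. -/
theorem k5_of (hCR : Loc.CloseRoot) (hTK : Loc.TameKum) : K5 :=
  fun p _ P _ hP ϖ hϖ u z hu h hz => k5_core p P hCR hTK hP ϖ hϖ u z hu h hz

end Fermat.Agent.TW.Flat.SS
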