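/-
TW-FLAT, row 335 (FLAT-SS-COUNT), step (S2) RESTRICTION.

`P` is a valuation subring of `Qb` over `p`, `D ⊇ I` its decomposition and inertia groups,
`ϖ ^ e = -p` with `p ∤ e`, and `G_F = {σ ∈ I | σ ϖ = ϖ}`.  In the irreducible case (`rb|D` has no
stable line) a cocycle of `D` with values in `ad⁰` which vanishes on `G_F` is a coboundary:

* (A) `exists_cob_on_inertia` : a cocycle of `D` vanishing on `G_F` is a coboundary on `I`
  (average over the finite quotient `I / G_F`, whose order is prime to `p`);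
* (B) `H0On_decomp_eq_bot` : `H⁰(D, ad⁰) = 0` if `rb|D` has no stable line;
* (C) `mem_B1On_of_eq_zero_on_inertia` : a cocycle of `D` vanishing on `I` is a coboundary
  (`Ad(φ) − 1` is bijective on the inertia invariants, and `D / I` is procyclic);
* `mem_B1On_of_eq_zero_on_GF` : the restriction statement (S2).
-/
import Mathlib
import Fermat.Agent.TW.Flat.Local.Basic
import Fermat.Agent.TW.Local.FrobGen

set_option autoImplicit false

namespace Fermat.Agent.TW.Flat.SS.ResB1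

open Fermat.Agent.S53 Fermat.Agent.TW Fermat.Agent.TW.Flat Fermat.Agent.TW.Away

local notation "Qb" => AlgebraicClosure ℚ

variable {k : Type} [Field k]

/-! ### (B) no invariants in the irreducible case -/

/-- If a nonzero `2 × 2` matrix kills `v ≠ 0` and `w`, then `w` is a multiple of `v`. -/
theorem exists_smul_of_mulVec_eq_zero (M : Mat2 k) (hM : M ≠ 0) (v w : Fin 2 → k) (hv : v ≠ 0)
    (h1 : M.mulVec v = 0) (h2 : M.mulVec w = 0) : ∃ a : k, w = a • v := by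
  have hdet : v 0 * w 1 - v 1 * w 0 = 0 := by
    by_contra hne
    apply hM
    have e1 : ∀ i, M i 0 * v 0 + M i 1 * v 1 = 0 := fun i => by
      have := congrFun h1 i
      simpa [Matrix.mulVec, dotProduct, Fin.sum_univ_two] using this
    have e2 : ∀ i, M i 0 * w 0 + M i 1 * w 1 = 0 := fun i => by
      have := congrFun h2 i
      simpa [Matrix.mulVec, dotProduct, Fin.sum_univ_two] using this
    have f0 : ∀ i, M i 0 = 0 := fun i => by
      have : M i 0 * (v 0 * w 1 - v 1 * w 0) = 0 := by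
        linear_combination w 1 * e1 i - v 1 * e2 i
      exact (mul_eq_zero.mp this).resolve_right hne
    have f1 : ∀ i, M i 1 = 0 := fun i => by
      have : M i 1 * (v 0 * w 1 - v 1 * w 0) = 0 := by
        linear_combination v 0 * e2 i - w 0 * e1 i
      exact (mul_eq_zero.mp this).resolve_right hne
    ext i j
    fin_cases j
    · exact f0 i
    · exact f1 i
  by_cases hv0 : v 0 = 0
  · have hv1 : v 1 ≠ 0 := by
      intro hv1
      apply hv
      ext i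
      fin_cases i
      · exact hv0
      · exact hv1
    refine ⟨w 1 / v 1, ?_⟩
    ext i
    fin_cases i
    · show w 0 = w 1 / v 1 * v 0
      rw [hv0, mul_zero]
      rw [hv0, zero_mul, zero_sub, neg_eq_zero] at hdet
      exact (mul_eq_zero.mp hdet).resolve_left hv1
    · show w 1 = w 1 / v 1 * v 1
      rw [div_mul_cancel₀ _ hv1]
  · refine ⟨w 0 / v 0, ?_⟩
    ext i
    fin_cases i
    · show w 0 = w 0 / v 0 * v 0
      rw [div_mul_cancel₀ _ hv0]
    · show w 1 = w 0 / v 0 * v 1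
      field_simp
      linear_combination hdet

/-- A nonzero trace-zero matrix commuting with `rb(D)` produces a `D`-stable line (if all `rb σ`
have their eigenvalues in `k` and `2 ≠ 0`). -/
theorem hasLine_of_mem_H0On (rb : GQ →* Mat2 k) (P : ValuationSubring Qb) (h2 : (2 : k) ≠ 0)
    (hsplit : ∀ σ : GQ, ∃ α β : k,
      (rb σ).charpoly = (Polynomial.X - Polynomial.C α) * (Polynomial.X - Polynomial.C β))
    (X : Mat2 k) (hX0 : X ≠ 0) (hX : X ∈ H0On (P.decompositionSubgroup ℚ) rb 1) :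
    HasLine rb P := by
  obtain ⟨hXtr, hXinv⟩ := hX
  have hcomm : ∀ σ ∈ P.decompositionSubgroup ℚ, rb σ * X = X * rb σ := fun σ hσ =>
    (adAct_one_eq_iff rb σ X).mp (hXinv σ hσ)
  by_cases hev : ∃ v : Fin 2 → k, v ≠ 0 ∧ ∃ l : k, X.mulVec v = l • v
  · obtain ⟨v, hv, l, hl⟩ := hev
    refine ⟨v, hv, fun σ hσ => ?_⟩
    have hM : X - l • (1 : Mat2 k) ≠ 0 := by
      intro hM
      have hXl : X = l • (1 : Mat2 k) := sub_eq_zero.mp hM
      have htr : (2 : k) * l = 0 := by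
        have := hXtr
        rw [hXl, Matrix.trace_smul, Matrix.trace_one, Fintype.card_fin, smul_eq_mul] at this
        rw [← this]
        push_cast
        ring
      have hl0 : l = 0 := (mul_eq_zero.mp htr).resolve_left h2
      apply hX0
      rw [hXl, hl0, zero_smul]
    have h1 : (X - l • (1 : Mat2 k)).mulVec v = 0 := by
      rw [Matrix.sub_mulVec, Matrix.smul_mulVec, Matrix.one_mulVec, hl, sub_self]
    have h2' : (X - l • (1 : Mat2 k)).mulVec ((rb σ).mulVec v) = 0 := by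
      rw [Matrix.mulVec_mulVec]
      have e : (X - l • (1 : Mat2 k)) * rb σ = rb σ * (X - l • (1 : Mat2 k)) := by
        rw [sub_mul, mul_sub, hcomm σ hσ, Matrix.smul_mul, Matrix.mul_smul, one_mul, mul_one]
      rw [e, ← Matrix.mulVec_mulVec, h1, Matrix.mulVec_zero]
    exact exists_smul_of_mulVec_eq_zero _ hM v _ hv h1 h2'
  · refine ⟨Pi.single 0 1, ?_, fun σ hσ => ?_⟩
    · intro h
      have := congrFun h 0
      simp at this
    · obtain ⟨α, β, hαβ⟩ := hsplit σ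
      have hdet : (rb σ - α • (1 : Mat2 k)).det = 0 := by
        have h1 := congrArg (Polynomial.eval α) hαβ
        rw [Matrix.charpoly_fin_two] at h1
        simp only [Polynomial.eval_mul, Polynomial.eval_sub, Polynomial.eval_X, Polynomial.eval_C,
          sub_self, zero_mul, Polynomial.eval_add, Polynomial.eval_pow] at h1
        rw [Matrix.det_fin_two]
        simp only [Matrix.sub_apply, Matrix.smul_apply, Matrix.one_apply_eq, smul_eq_mul, mul_one,
          Matrix.one_apply_ne (show (0 : Fin 2) ≠ 1 by decide),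
          Matrix.one_apply_ne (show (1 : Fin 2) ≠ 0 by decide), mul_zero, sub_zero]
        rw [Matrix.trace_fin_two, Matrix.det_fin_two] at h1
        linear_combination h1
      obtain ⟨u, hu, hu0⟩ := Matrix.exists_mulVec_eq_zero_iff.mpr hdet
      have hN : rb σ - α • (1 : Mat2 k) = 0 := by
        by_contra hN
        apply hev
        have h2' : (rb σ - α • (1 : Mat2 k)).mulVec (X.mulVec u) = 0 := by
          rw [Matrix.mulVec_mulVec]
          have e : (rb σ - α • (1 : Mat2 k)) * X = X * (rb σ - α • (1 : Mat2 k)) := by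
            rw [sub_mul, mul_sub, hcomm σ hσ, Matrix.smul_mul, Matrix.mul_smul, one_mul, mul_one]
          rw [e, ← Matrix.mulVec_mulVec, hu0, Matrix.mulVec_zero]
        exact ⟨u, hu, exists_smul_of_mulVec_eq_zero _ hN u _ hu hu0 h2'⟩
      refine ⟨α, ?_⟩
      rw [sub_eq_zero.mp hN, Matrix.smul_mulVec, Matrix.one_mulVec]

/-- (B) In the irreducible case the decomposition group has no invariants on `ad⁰`. -/
theorem H0On_decomp_eq_bot (rb : GQ →* Mat2 k) (p : ℕ) [Fact p.Prime] (hp2 : p ≠ 2)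
    (h : ResidualHyp rb p) (P : ValuationSubring Qb) (hline : ¬ HasLine rb P) :
    H0On (P.decompositionSubgroup ℚ) rb 1 = ⊥ := by
  rw [eq_bot_iff]
  intro X hX
  rw [Submodule.mem_bot]
  by_contra hX0
  exact hline (hasLine_of_mem_H0On rb P (two_ne_zero_of_charP p hp2 h.charP) h.split X hX0 hX)

/-! ### (C) cocycles vanishing on inertia -/

/-- The inertia invariants are stable under the decomposition group. -/
theorem adAct_mem_H0On_inertia (rb : GQ →* Mat2 k) (P : ValuationSubring Qb) (φ : GQ)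
    (hφ : φ ∈ P.decompositionSubgroup ℚ) (Y : Mat2 k)
    (hY : Y ∈ H0On (P.inertiaSubgroupIn ℚ) rb 1) :
    adAct rb 1 φ Y ∈ H0On (P.inertiaSubgroupIn ℚ) rb 1 := by
  refine ⟨?_, fun τ hτ => ?_⟩
  · rw [trace_adAct, hY.1, mul_zero]
  · have hmem : φ⁻¹ * τ * φ ∈ P.inertiaSubgroupIn ℚ := by
      have := conj_mem_inertiaSubgroupIn P (σ := φ⁻¹) (inv_mem hφ) hτ
      rwa [inv_inv] at this
    have e : τ * φ = φ * (φ⁻¹ * τ * φ) := by group
    rw [← adAct_mul, e, adAct_mul, hY.2 _ hmem]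

/-- An inertia invariant fixed by a Frobenius element is invariant under the decomposition
group. -/
theorem mem_H0On_decomp_of_frob (rb : GQ →* Mat2 k) (hrb : FiniteLevel rb)
    (P : ValuationSubring Qb) (φ : GQ) (hproc : ProcyclicAt P φ) (Y : Mat2 k)
    (hY : Y ∈ H0On (P.inertiaSubgroupIn ℚ) rb 1) (hφY : adAct rb 1 φ Y = Y) :
    Y ∈ H0On (P.decompositionSubgroup ℚ) rb 1 := by
  obtain ⟨L, hL, hL'⟩ := hrb
  refine ⟨hY.1, fun σ hσ => ?_⟩
  obtain ⟨j, τ, hτ, hx⟩ := hproc L hL σ hσ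
  have hrbσ : rb σ = rb φ ^ j * rb τ := by
    have h1 : rb ((φ ^ j * τ)⁻¹ * σ) = 1 := by
      apply hL'
      intro x hxL
      show (φ ^ j * τ)⁻¹ (σ x) = x
      rw [hx x hxL]
      exact gq_inv_apply_apply _ _
    have h2 : rb σ = rb (φ ^ j * τ) * rb ((φ ^ j * τ)⁻¹ * σ) := by
      rw [← map_mul]
      congr 1
      group
    rw [h2, h1, mul_one, map_mul, map_pow]
  rw [adAct_one_eq_iff, hrbσ]
  have c1 : rb φ * Y = Y * rb φ := (adAct_one_eq_iff rb φ Y).mp hφY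
  have c2 : rb τ * Y = Y * rb τ := (adAct_one_eq_iff rb τ Y).mp (hY.2 τ hτ)
  have c3 : ∀ j : ℕ, rb φ ^ j * Y = Y * rb φ ^ j := by
    intro j
    induction j with
    | zero => rw [pow_zero, one_mul, mul_one]
    | succ j ih => rw [pow_succ, mul_assoc, c1, ← mul_assoc, ih, mul_assoc]
  rw [mul_assoc, c2, ← mul_assoc, c3, mul_assoc]

/-- The endomorphism `Ad(φ) − 1` of the matrices. -/
noncomputable def adSub (rb : GQ →* Mat2 k) (φ : GQ) : Mat2 k →ₗ[k] Mat2 k :=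
  adAct rb 1 φ - LinearMap.id

theorem adSub_apply (rb : GQ →* Mat2 k) (φ : GQ) (Y : Mat2 k) :
    adSub rb φ Y = adAct rb 1 φ Y - Y := rfl

/-- (C) In the irreducible case a cocycle of the decomposition group vanishing on inertia is a
coboundary. -/
theorem mem_B1On_of_eq_zero_on_inertia (rb : GQ →* Mat2 k) (p : ℕ) [Fact p.Prime] (hp2 : p ≠ 2)
    (h : ResidualHyp rb p) (P : ValuationSubring Qb) (hP : P.LiesOverPrime p)
    (hline : ¬ HasLine rb P) (c : ↥(P.decompositionSubgroup ℚ) → Mat2 k)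
    (hc : c ∈ Z1On (P.decompositionSubgroup ℚ) rb 1)
    (hI : ∀ σ : ↥(P.decompositionSubgroup ℚ), (σ : GQ) ∈ P.inertiaSubgroupIn ℚ → c σ = 0) :
    c ∈ B1On (P.decompositionSubgroup ℚ) rb 1 := by
  have hp : p.Prime := Fact.out
  obtain ⟨φ, hφ⟩ := Fermat.Agent.Lib.FrobeniusExists.exists_isFrobeniusAt_of_liesOverPrime hp P hP
  have hφD : φ ∈ P.decompositionSubgroup ℚ := hφ.mem_decompositionSubgroup
  have hproc : ProcyclicAt P φ := procyclicAt_of_isFrobeniusAt hp P hP φ hφ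
  have hrb : FiniteLevel rb := h.finiteLevel'
  have hbot := H0On_decomp_eq_bot rb p hp2 h P hline
  -- the endomorphism `Ad(φ) − 1` of the inertia invariants
  have hstab : ∀ Y ∈ H0On (P.inertiaSubgroupIn ℚ) rb 1,
      adSub rb φ Y ∈ H0On (P.inertiaSubgroupIn ℚ) rb 1 := fun Y hY => by
    rw [adSub_apply]
    exact Submodule.sub_mem _ (adAct_mem_H0On_inertia rb P φ hφD Y hY) hY
  have hTapp : ∀ Y : ↥(H0On (P.inertiaSubgroupIn ℚ) rb 1),
      ((((adSub rb φ).restrict hstab) Y : ↥(H0On (P.inertiaSubgroupIn ℚ) rb 1)) :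
        Mat2 k) = adAct rb 1 φ (Y : Mat2 k) - (Y : Mat2 k) := fun Y => rfl
  have hinj : Function.Injective ((adSub rb φ).restrict hstab) := by
    rw [← LinearMap.ker_eq_bot, eq_bot_iff]
    intro Y hY
    rw [LinearMap.mem_ker] at hY
    have hY' : adAct rb 1 φ (Y : Mat2 k) - (Y : Mat2 k) = 0 := by
      rw [← hTapp Y, hY]
      rfl
    have hmem : (Y : Mat2 k) ∈ H0On (P.decompositionSubgroup ℚ) rb 1 :=
      mem_H0On_decomp_of_frob rb hrb P φ hproc Y Y.2 (sub_eq_zero.mp hY')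
    rw [hbot, Submodule.mem_bot] at hmem
    rw [Submodule.mem_bot]
    exact Subtype.ext hmem
  have hsurj : Function.Surjective ((adSub rb φ).restrict hstab) :=
    LinearMap.surjective_of_injective hinj
  have hcφ : c ⟨φ, hφD⟩ ∈ H0On (P.inertiaSubgroupIn ℚ) rb 1 :=
    ⟨hc.1 _, fun τ hτ => Z1On_inertia_invariant P hc hI ⟨φ, hφD⟩ τ hτ⟩
  obtain ⟨Y, hY⟩ := hsurj ⟨c ⟨φ, hφD⟩, hcφ⟩
  have hY' : adAct rb 1 φ (Y : Mat2 k) - (Y : Mat2 k) = c ⟨φ, hφD⟩ := by
    rw [← hTapp Y, hY]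
  have hB : resOn (P.decompositionSubgroup ℚ) (cob rb 1 (Y : Mat2 k)) ∈
      B1On (P.decompositionSubgroup ℚ) rb 1 :=
    (mem_B1On _ _ _ _).mpr ⟨Y, Y.2.1, fun σ => rfl⟩
  have hc' : c - resOn (P.decompositionSubgroup ℚ) (cob rb 1 (Y : Mat2 k)) ∈
      Z1On (P.decompositionSubgroup ℚ) rb 1 :=
    sub_mem hc (B1On_le_Z1On _ hrb hB)
  have hzero := Z1On_eq_zero_of_procyclic P φ hφD hproc hc' (fun σ hσ => ?_) ?_
  · rw [sub_eq_zero] at hzero
    rw [hzero]
    exact hB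
  · rw [Pi.sub_apply, hI σ hσ, resOn_apply, cob_apply, Y.2.2 _ hσ, sub_self, sub_zero]
  · rw [Pi.sub_apply, resOn_apply, cob_apply]
    exact sub_eq_zero.mpr hY'.symm

/-! ### (A) cocycles vanishing on `G_F` are coboundaries on inertia -/

theorem natCast_ne_zero_of_not_dvd (p : ℕ) [hp : Fact p.Prime] (hk : (p : k) = 0) (m : ℕ)
    (hm : ¬ p ∣ m) : (m : k) ≠ 0 := by
  intro hm0
  have hcop : Nat.Coprime p m := (Nat.Prime.coprime_iff_not_dvd hp.out).mpr hm
  obtain ⟨a, b, hab⟩ := Nat.Coprime.isCoprime hcop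
  have := congrArg (fun n : ℤ => (n : k)) hab
  simp only [Int.cast_add, Int.cast_mul, Int.cast_natCast, Int.cast_one] at this
  rw [hk, hm0, mul_zero, mul_zero, add_zero] at this
  exact zero_ne_one this

theorem root_ne_zero (p : ℕ) [Fact p.Prime] (e : ℕ) (hpe : ¬ p ∣ e) (ϖ : Qb)
    (hϖ : ϖ ^ e = -(p : Qb)) : ϖ ≠ 0 := by
  rintro rfl
  have he : e ≠ 0 := by
    rintro rfl
    exact hpe (dvd_zero p)
  rw [zero_pow he] at hϖ
  have hp0 : (p : Qb) ≠ 0 := by exact_mod_cast (Fact.out : p.Prime).ne_zero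
  exact hp0 (neg_eq_zero.mp hϖ.symm)

theorem ratio_pow (p : ℕ) [Fact p.Prime] (e : ℕ) (hpe : ¬ p ∣ e) (ϖ : Qb)
    (hϖ : ϖ ^ e = -(p : Qb)) (τ : GQ) : (τ ϖ / ϖ) ^ e = 1 := by
  have hϖ0 := root_ne_zero p e hpe ϖ hϖ
  rw [div_pow, ← map_pow, hϖ, map_neg, map_natCast]
  exact div_self (by rw [← hϖ]; exact pow_ne_zero e hϖ0)

/-- The tame character `τ ↦ τ ϖ / ϖ` of inertia, with values in the `e`-th roots of unity. -/
noncomputable def tameChar (p : ℕ) [Fact p.Prime] (P : ValuationSubring Qb)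
    (hP : P.LiesOverPrime p) (e : ℕ) (hpe : ¬ p ∣ e) (ϖ : Qb) (hϖ : ϖ ^ e = -(p : Qb)) :
    ↥(P.inertiaSubgroupIn ℚ) →* ↥(rootsOfUnity e Qb) where
  toFun τ := ⟨Units.mk0 ((τ : GQ) ϖ / ϖ)
      (div_ne_zero ((map_ne_zero _).mpr (root_ne_zero p e hpe ϖ hϖ)) (root_ne_zero p e hpe ϖ hϖ)),
    (mem_rootsOfUnity _ _).mpr (Units.ext (by
      rw [Units.val_pow_eq_pow_val, Units.val_mk0, Units.val_one]
      exact ratio_pow p e hpe ϖ hϖ _))⟩
  map_one' := by
    apply Subtype.ext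
    apply Units.ext
    show ((1 : ↥(P.inertiaSubgroupIn ℚ)) : GQ) ϖ / ϖ = 1
    rw [OneMemClass.coe_one, AlgEquiv.one_apply]
    exact div_self (root_ne_zero p e hpe ϖ hϖ)
  map_mul' σ τ := by
    apply Subtype.ext
    apply Units.ext
    show ((σ * τ : ↥(P.inertiaSubgroupIn ℚ)) : GQ) ϖ / ϖ =
      ((σ : GQ) ϖ / ϖ) * ((τ : GQ) ϖ / ϖ)
    have hϖ0 := root_ne_zero p e hpe ϖ hϖ
    have hfix : (σ : GQ) ((τ : GQ) ϖ / ϖ) = (τ : GQ) ϖ / ϖ :=
      Fermat.Agent.PT.G.inertia_apply_root Fact.out P hP σ.2 hpe (ratio_pow p e hpe ϖ hϖ _)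
    have e1 : (τ : GQ) ϖ = ((τ : GQ) ϖ / ϖ) * ϖ := by rw [div_mul_cancel₀ _ hϖ0]
    rw [Subgroup.coe_mul, AlgEquiv.mul_apply, e1, map_mul, hfix, mul_div_assoc, mul_comm,
      ← e1]

theorem tameChar_eq_one_iff (p : ℕ) [Fact p.Prime] (P : ValuationSubring Qb)
    (hP : P.LiesOverPrime p) (e : ℕ) (hpe : ¬ p ∣ e) (ϖ : Qb) (hϖ : ϖ ^ e = -(p : Qb))
    (τ : ↥(P.inertiaSubgroupIn ℚ)) :
    tameChar p P hP e hpe ϖ hϖ τ = 1 ↔ (τ : GQ) ϖ = ϖ := by
  have hϖ0 := root_ne_zero p e hpe ϖ hϖ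
  constructor
  · intro h
    have h1 : (τ : GQ) ϖ / ϖ = 1 := congrArg (fun u : ↥(rootsOfUnity e Qb) => ((u : Qbˣ) : Qb)) h
    rwa [div_eq_one_iff_eq hϖ0] at h1
  · intro h
    apply Subtype.ext
    apply Units.ext
    show (τ : GQ) ϖ / ϖ = 1
    rw [h, div_self hϖ0]

/-- (A) A cocycle of the decomposition group which vanishes on `G_F = {σ ∈ I | σ ϖ = ϖ}`
(`ϖ ^ e = -p`, `p ∤ e`) is a coboundary on the inertia group. -/
theorem exists_cob_on_inertia (rb : GQ →* Mat2 k) (p : ℕ) [Fact p.Prime] (hpk : (p : k) = 0)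
    (P : ValuationSubring Qb) (hP : P.LiesOverPrime p) (e : ℕ) (hpe : ¬ p ∣ e) (ϖ : Qb)
    (hϖ : ϖ ^ e = -(p : Qb)) (c : ↥(P.decompositionSubgroup ℚ) → Mat2 k)
    (hc : c ∈ Z1On (P.decompositionSubgroup ℚ) rb 1)
    (h0 : ∀ σ : ↥(P.decompositionSubgroup ℚ), (σ : GQ) ∈ P.inertiaSubgroupIn ℚ →
      (σ : GQ) ϖ = ϖ → c σ = 0) :
    ∃ X : Mat2 k, X.trace = 0 ∧ ∀ σ : ↥(P.decompositionSubgroup ℚ),
      (σ : GQ) ∈ P.inertiaSubgroupIn ℚ → c σ = adAct rb 1 σ X - X := by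
  classical
  have he : e ≠ 0 := by
    rintro rfl
    exact hpe (dvd_zero p)
  have : NeZero e := ⟨he⟩
  let ϑ := tameChar p P hP e hpe ϖ hϖ
  -- the inclusion of `I` into `D`
  let ι : ↥(P.inertiaSubgroupIn ℚ) → ↥(P.decompositionSubgroup ℚ) :=
    fun τ => ⟨τ, inertiaSubgroupIn_le P τ.2⟩
  have hιmul : ∀ a b, ι (a * b) = ι a * ι b := fun a b => rfl
  -- `c` is constant on the left cosets of `ker ϑ`
  have hconst : ∀ a b : ↥(P.inertiaSubgroupIn ℚ), a⁻¹ * b ∈ ϑ.ker → c (ι a) = c (ι b) := by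
    intro a b hab
    have hg : c (ι (a⁻¹ * b)) = 0 :=
      h0 _ (a⁻¹ * b).2 ((tameChar_eq_one_iff p P hP e hpe ϖ hϖ _).mp (MonoidHom.mem_ker.mp hab))
    have e1 : ι b = ι a * ι (a⁻¹ * b) := by
      rw [← hιmul]
      congr 1
      group
    rw [e1, hc.2.1, hg, map_zero, add_zero]
  let cbar : (↥(P.inertiaSubgroupIn ℚ) ⧸ ϑ.ker) → Mat2 k := fun q =>
    Quotient.liftOn' q (fun τ => c (ι τ))
      (fun a b hab => hconst a b (QuotientGroup.leftRel_apply.mp hab))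
  have hcbar : ∀ τ : ↥(P.inertiaSubgroupIn ℚ),
      cbar (τ : ↥(P.inertiaSubgroupIn ℚ) ⧸ ϑ.ker) = c (ι τ) := fun τ => rfl
  have : Finite (↥(P.inertiaSubgroupIn ℚ) ⧸ ϑ.ker) :=
    Finite.of_injective _ (QuotientGroup.kerLift_injective ϑ)
  have : Fintype (↥(P.inertiaSubgroupIn ℚ) ⧸ ϑ.ker) := Fintype.ofFinite _
  -- the order of the quotient is prime to `p`
  have hm : ((Fintype.card (↥(P.inertiaSubgroupIn ℚ) ⧸ ϑ.ker) : ℕ) : k) ≠ 0 := by
    apply natCast_ne_zero_of_not_dvd p hpk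
    intro hdvd
    obtain ⟨x, hx⟩ := exists_prime_orderOf_dvd_card p hdvd
    have hxe : x ^ e = 1 := by
      apply QuotientGroup.kerLift_injective ϑ
      rw [map_pow, map_one]
      apply Subtype.ext
      rw [Subgroup.coe_pow, Subgroup.coe_one]
      exact (mem_rootsOfUnity _ _).mp (QuotientGroup.kerLift ϑ x).2
    have h1 := orderOf_dvd_of_pow_eq_one hxe
    rw [hx] at h1
    exact hpe h1
  have hkey : ∀ σ : ↥(P.inertiaSubgroupIn ℚ), ∑ q, cbar q =
      ((Fintype.card (↥(P.inertiaSubgroupIn ℚ) ⧸ ϑ.ker) : ℕ) : k) • c (ι σ) +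
        adAct rb 1 (σ : GQ) (∑ q, cbar q) := by
    intro σ
    have e1 : ∑ q, cbar ((σ : ↥(P.inertiaSubgroupIn ℚ) ⧸ ϑ.ker) * q) = ∑ q, cbar q :=
      Equiv.sum_comp (Equiv.mulLeft (σ : ↥(P.inertiaSubgroupIn ℚ) ⧸ ϑ.ker)) cbar
    have e2 : ∀ q, cbar ((σ : ↥(P.inertiaSubgroupIn ℚ) ⧸ ϑ.ker) * q) =
        c (ι σ) + adAct rb 1 (σ : GQ) (cbar q) := by
      intro q
      induction q using QuotientGroup.induction_on with
      | H τ => rw [← QuotientGroup.mk_mul, hcbar, hcbar, hιmul, hc.2.1]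
    calc ∑ q, cbar q = ∑ q, cbar ((σ : ↥(P.inertiaSubgroupIn ℚ) ⧸ ϑ.ker) * q) := e1.symm
      _ = ∑ q : ↥(P.inertiaSubgroupIn ℚ) ⧸ ϑ.ker, (c (ι σ) + adAct rb 1 (σ : GQ) (cbar q)) :=
          Finset.sum_congr rfl (fun q _ => e2 q)
      _ = _ := by
          rw [Finset.sum_add_distrib, Finset.sum_const, Finset.card_univ, ← map_sum,
            Nat.cast_smul_eq_nsmul]
  refine ⟨-(((Fintype.card (↥(P.inertiaSubgroupIn ℚ) ⧸ ϑ.ker) : ℕ) : k)⁻¹ • ∑ q, cbar q), ?_,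
    fun σ hσ => ?_⟩
  · rw [Matrix.trace_neg, Matrix.trace_smul, Matrix.trace_sum, Finset.sum_eq_zero, smul_zero,
      neg_zero]
    intro q _
    induction q using QuotientGroup.induction_on with
    | H τ => exact hc.1 _
  · have h3 : ((Fintype.card (↥(P.inertiaSubgroupIn ℚ) ⧸ ϑ.ker) : ℕ) : k) • c σ =
        ∑ q, cbar q - adAct rb 1 (σ : GQ) (∑ q, cbar q) :=
      eq_sub_of_add_eq (hkey ⟨σ, hσ⟩).symm
    rw [map_neg, map_smul, sub_neg_eq_add, ← sub_eq_neg_add, ← smul_sub, ← h3, smul_smul,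
      inv_mul_cancel₀ hm, one_smul]

/-- **(S2) RESTRICTION.** In the irreducible case a cocycle of the decomposition group which
vanishes on `G_F = {σ ∈ I | σ ϖ = ϖ}` (`ϖ ^ e = -p`, `p ∤ e`) is a coboundary. -/
theorem mem_B1On_of_eq_zero_on_GF (rb : GQ →* Mat2 k) (p : ℕ) [Fact p.Prime] (hp2 : p ≠ 2)
    (h : ResidualHyp rb p) (P : ValuationSubring Qb) (hP : P.LiesOverPrime p)
    (hline : ¬ HasLine rb P) (e : ℕ) (_he : 0 < e) (hpe : ¬ p ∣ e) (ϖ : Qb)
    (hϖ : ϖ ^ e = -(p : Qb)) (c : ↥(P.decompositionSubgroup ℚ) → Mat2 k)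
    (hc : c ∈ Z1On (P.decompositionSubgroup ℚ) rb 1)
    (h0 : ∀ σ : ↥(P.decompositionSubgroup ℚ), (σ : GQ) ∈ P.inertiaSubgroupIn ℚ →
      (σ : GQ) ϖ = ϖ → c σ = 0) :
    c ∈ B1On (P.decompositionSubgroup ℚ) rb 1 := by
  obtain ⟨X, hX, hXc⟩ := exists_cob_on_inertia rb p h.charP P hP e hpe ϖ hϖ c hc h0
  have hB : resOn (P.decompositionSubgroup ℚ) (cob rb 1 X) ∈
      B1On (P.decompositionSubgroup ℚ) rb 1 :=
    (mem_B1On _ _ _ _).mpr ⟨X, hX, fun σ => rfl⟩
  have hc' : c - resOn (P.decompositionSubgroup ℚ) (cob rb 1 X) ∈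
      Z1On (P.decompositionSubgroup ℚ) rb 1 :=
    sub_mem hc (B1On_le_Z1On _ h.finiteLevel' hB)
  have h1 := mem_B1On_of_eq_zero_on_inertia rb p hp2 h P hP hline _ hc' (fun σ hσ => by
    rw [Pi.sub_apply, resOn_apply, cob_apply, hXc σ hσ, sub_self])
  have e1 : c = (c - resOn (P.decompositionSubgroup ℚ) (cob rb 1 X)) +
      resOn (P.decompositionSubgroup ℚ) (cob rb 1 X) := by abel
  rw [e1]
  exact add_mem h1 hB

end Fermat.Agent.TW.Flat.SS.ResB1
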