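/-
TW-FLAT (task 335, FLAT-SS-COUNT): DEFINITIONS of the scalar witness calculus.

`ϖ ^ (p² − 1) = −p`, `G_F = {σ ∈ I | σ ϖ = ϖ}`, `lam : AddChar k Qb` a fixed additive character,
`d : D → k` a scalar function on the decomposition group (a coordinate of a cocycle).

* `Wit P p ϖ lam j d t z` : `z ≠ 0` is a Kummer witness of level `≥ j` for the character
  `σ ↦ lam (t * d σ)` of `G_F`: `z ^ p ≡ 1 mod ϖ ^ j` and `σ z = lam (t * d σ) * z` on `G_F`;
* `Lev P p ϖ lam j d` : for every `t : k` there is a witness of level `≥ j`;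
* `IsLam P p ϖ lam j d t r` : `r` is the leading coefficient (the residue class of
  `(z ^ p − 1) / ϖ ^ j`) of some witness of level `≥ j` for `(d, t)`.
-/
import Mathlib
import Fermat.Agent.TW.Flat.SS.Defs

set_option autoImplicit false

namespace Fermat.Agent.TW.Flat.SS

open Fermat.Agent.S53 Fermat.Agent.TW Fermat.Agent.TW.Flat

local notation "Qb" => AlgebraicClosure ℚ

variable {k : Type} [Field k]

/-- A Kummer witness of level `≥ j` for the character `σ ↦ lam (t * d σ)` of `G_F`. -/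
def Wit (P : ValuationSubring Qb) (p : ℕ) (ϖ : Qb) (lam : AddChar k Qb) (j : ℕ)
    (d : ↥(P.decompositionSubgroup ℚ) → k) (t : k) (z : Qb) : Prop :=
  z ≠ 0 ∧ (z ^ p - 1) / ϖ ^ j ∈ P ∧
    ∀ σ : ↥(P.decompositionSubgroup ℚ), (σ : GQ) ∈ P.inertiaSubgroupIn ℚ → (σ : GQ) ϖ = ϖ →
      (σ : GQ) z = lam (t * d σ) * z

/-- Every character `σ ↦ lam (t * d σ)`, `t : k`, has a witness of level `≥ j`. -/
def Lev (P : ValuationSubring Qb) (p : ℕ) (ϖ : Qb) (lam : AddChar k Qb) (j : ℕ)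
    (d : ↥(P.decompositionSubgroup ℚ) → k) : Prop :=
  ∀ t : k, ∃ z : Qb, Wit P p ϖ lam j d t z

/-- `r` is the leading coefficient at level `j` of some witness for `(d, t)`. -/
def IsLam (P : ValuationSubring Qb) (p : ℕ) (ϖ : Qb) (lam : AddChar k Qb) (j : ℕ)
    (d : ↥(P.decompositionSubgroup ℚ) → k) (t : k) (r : IsLocalRing.ResidueField ↥P) : Prop :=
  ∃ z : Qb, Wit P p ϖ lam j d t z ∧
    ∃ h : (z ^ p - 1) / ϖ ^ j ∈ P, IsLocalRing.residue ↥P ⟨(z ^ p - 1) / ϖ ^ j, h⟩ = r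

end Fermat.Agent.TW.Flat.SS
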