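/-
TW-FLAT, row 365 (FLAT-SS-EQUIVAR, sub-row of 335): equivariance (W9) of the leading coefficient
`IsLam` under an element `τ` of the decomposition group.

`ϖ ^ (p² − 1) = −p`, `G_F = {σ ∈ I | σ ϖ = ϖ}`.  If `τ ∈ D` has `τ ϖ = ξ ϖ`, acts on the `p`-th
roots of unity by `μ ↦ μ ^ w`, on the residue field by `x ↦ x ^ N`, and the scalar function `d`
satisfies `d (τ⁻¹ σ τ) = m · d σ` on `G_F`, then `τ z` is a witness for `(d, w m t)` whenever `z`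
is one for `(d, t)`, with leading coefficient `res(ξ) ^ j · r ^ N`.
-/
import Mathlib
import Fermat.Agent.TW.Flat.SS.WitDefs
import Fermat.Agent.TW.Flat.SS.Levels
import Fermat.Agent.TW.Flat.SS.ResB1
import Fermat.Agent.TW.Flat.Local.Basic
import Fermat.Agent.TW.Local.AwayCore

set_option autoImplicit false

namespace Fermat.Agent.TW.Flat.SS

open Fermat.Agent.S53 Fermat.Agent.TW Fermat.Agent.TW.Flat

local notation "Qb" => AlgebraicClosure ℚ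

variable {k : Type} [Field k] {p : ℕ} [Fact p.Prime] {P : ValuationSubring Qb} {ϖ : Qb}
  {lam : AddChar k Qb} {d : ↥(P.decompositionSubgroup ℚ) → k}

omit [Fact p.Prime] in
/-- `lam x ^ p = 1` when `p = 0` in `k`. -/
theorem Equivar.lam_pow_prime_eq_one (hpk : (p : k) = 0) (lam : AddChar k Qb) (x : k) :
    lam x ^ p = 1 := by
  rw [← AddChar.map_nsmul_eq_pow, nsmul_eq_mul, hpk, zero_mul, AddChar.map_zero_eq_one]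

/-- For `τ ∈ D` with `τ ϖ = ξ ϖ` and `σ ∈ G_F`, the conjugate `τ⁻¹ σ τ` is in `G_F`. -/
theorem Equivar.conj_mem_GF (hP : P.LiesOverPrime p) (hϖ : ϖ ^ (p ^ 2 - 1) = -(p : Qb)) {τ : GQ}
    (hτ : τ ∈ P.decompositionSubgroup ℚ) {ξ : Qb} (hτϖ : τ ϖ = ξ * ϖ) {σ : GQ}
    (hσ : σ ∈ P.inertiaSubgroupIn ℚ) (hσϖ : σ ϖ = ϖ) :
    τ⁻¹ * σ * τ ∈ P.inertiaSubgroupIn ℚ ∧ (τ⁻¹ * σ * τ) ϖ = ϖ := by
  have hϖ0 : ϖ ≠ 0 := Levels.varpi_ne_zero hϖ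
  refine ⟨?_, ?_⟩
  · have := Fermat.Agent.TW.Away.conj_mem_inertiaSubgroupIn P (σ := τ⁻¹) (inv_mem hτ) hσ
    rwa [inv_inv] at this
  · have hξ : ξ = τ ϖ / ϖ := by rw [hτϖ, mul_div_cancel_right₀ _ hϖ0]
    have hξe : ξ ^ (p ^ 2 - 1) = 1 := by
      rw [hξ]
      exact ResB1.ratio_pow p (p ^ 2 - 1) (Levels.not_dvd_sq_sub_one p) ϖ hϖ τ
    have hσξ : σ ξ = ξ :=
      Loc.Basic.rootFix p P hP ξ (p ^ 2 - 1) (Levels.sq_sub_one_pos p)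
        (Levels.not_dvd_sq_sub_one p) hξe σ hσ
    have h1 : σ (τ ϖ) = τ ϖ := by rw [hτϖ, map_mul, hσξ, hσϖ]
    show τ⁻¹ (σ (τ ϖ)) = ϖ
    rw [h1]
    show (τ⁻¹ * τ) ϖ = ϖ
    rw [inv_mul_cancel]
    rfl

/-- **(W9)** equivariance of `IsLam` under `τ ∈ D`. -/
theorem isLam_conj (hP : P.LiesOverPrime p) (hϖ : ϖ ^ (p ^ 2 - 1) = -(p : Qb))
    (hpk : (p : k) = 0) (j : ℕ) (τ : GQ) (hτ : τ ∈ P.decompositionSubgroup ℚ) (w : ℕ)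
    (hw : ∀ μ : Qb, μ ^ p = 1 → τ μ = μ ^ w) (ξ : Qb) (hξ : ξ ∈ P) (hτϖ : τ ϖ = ξ * ϖ) (m : k)
    (hm : ∀ σ : ↥(P.decompositionSubgroup ℚ), (σ : GQ) ∈ P.inertiaSubgroupIn ℚ →
      (σ : GQ) ϖ = ϖ →
      d ((⟨τ, hτ⟩ : ↥(P.decompositionSubgroup ℚ))⁻¹ * σ * ⟨τ, hτ⟩) = m * d σ)
    (N : ℕ) (hN : ∀ x ∈ P, τ x - x ^ N ∈ P.nonunits) {t : k}
    {r : IsLocalRing.ResidueField ↥P} (h : IsLam P p ϖ lam j d t r) :
    IsLam P p ϖ lam j d ((w : k) * m * t) (IsLocalRing.residue ↥P ⟨ξ, hξ⟩ ^ j * r ^ N) := by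
  obtain ⟨z, ⟨hz0, _, hzσ⟩, hx, hr⟩ := h
  have hϖ0 : ϖ ≠ 0 := Levels.varpi_ne_zero hϖ
  -- the new leading term
  have hτx : τ ((z ^ p - 1) / ϖ ^ j) ∈ P := (Loc.Basic.decompMem P τ hτ _).mpr hx
  have hkey : ((τ z) ^ p - 1) / ϖ ^ j = ξ ^ j * τ ((z ^ p - 1) / ϖ ^ j) := by
    rw [map_div₀, map_sub, map_pow, map_one, map_pow, hτϖ, mul_pow]
    have hξ0 : ξ ≠ 0 := by
      rintro rfl
      rw [zero_mul] at hτϖ
      exact hϖ0 ((map_eq_zero τ).mp hτϖ)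
    field_simp
  have hmem : ((τ z) ^ p - 1) / ϖ ^ j ∈ P := by
    rw [hkey]
    exact P.mul_mem _ _ (P.pow_mem hξ j) hτx
  refine ⟨τ z, ⟨(map_ne_zero τ).mpr hz0, hmem, fun σ hσ hσϖ => ?_⟩, hmem, ?_⟩
  · -- the Kummer character of `τ z`
    obtain ⟨hc1, hc2⟩ := Equivar.conj_mem_GF hP hϖ hτ hτϖ hσ hσϖ
    have hz' := hzσ ((⟨τ, hτ⟩ : ↥(P.decompositionSubgroup ℚ))⁻¹ * σ * ⟨τ, hτ⟩) hc1 hc2
    rw [hm σ hσ hσϖ] at hz'
    have hz'' : (τ⁻¹ * (σ : GQ) * τ) z = lam (t * (m * d σ)) * z := hz'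
    have e1 : (σ : GQ) (τ z) = τ ((τ⁻¹ * (σ : GQ) * τ) z) := by
      show (σ : GQ) (τ z) = (τ * τ⁻¹) ((σ : GQ) (τ z))
      rw [mul_inv_cancel]
      rfl
    rw [e1, hz'', map_mul, hw _ (Equivar.lam_pow_prime_eq_one hpk lam _), ← AddChar.map_nsmul_eq_pow,
      nsmul_eq_mul]
    congr 2
    ring
  · -- the residue
    have e2 : (⟨((τ z) ^ p - 1) / ϖ ^ j, hmem⟩ : ↥P) =
        (⟨ξ, hξ⟩ : ↥P) ^ j * ⟨τ ((z ^ p - 1) / ϖ ^ j), hτx⟩ := Subtype.ext hkey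
    rw [e2, map_mul, map_pow]
    congr 1
    rw [← hr, ← map_pow]
    refine (Ideal.Quotient.eq (I := IsLocalRing.maximalIdeal ↥P)).mpr ?_
    rw [IsLocalRing.mem_maximalIdeal, mem_nonunits_iff]
    have h1 := hN _ hx
    rw [P.mem_nonunits_iff] at h1
    intro hu
    have h2 : P.valuation ((hu.unit : ↥P) : Qb) = 1 := P.valuation_unit hu.unit
    have h3 : ((hu.unit : ↥P) : Qb) =
        τ ((z ^ p - 1) / ϖ ^ j) - ((z ^ p - 1) / ϖ ^ j) ^ N := rfl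
    rw [h3] at h2
    rw [h2] at h1
    exact lt_irrefl _ h1

end Fermat.Agent.TW.Flat.SS
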