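/-
TW / FLAT — task 367 (FLAT-SS-WCOUNT), helper32.  Pure algebra
(Mathlib + `Lib/LinAlg/SemilinFixed`).

* `exists_comb_eq_zero` : two additive maps `b₁ b₂ : k → κ` (`k` a finite field, `κ` a field, both
  of characteristic `p`) satisfying the same two semilinear constraints
  `b (m₀ t) = θ b t`, `b (c₀ t) = ξ (b t)^(p²)` with `θ^p ≠ θ` are `k`-dependent:
  `b₁ (a₁ t) + b₂ (a₂ t) = 0` for some `(a₁, a₂) ≠ 0`  (fixed points of a Frobenius-semilinear
  map + pigeonhole).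
* `theta_eq_or_eq_pow` : eigenvalue rigidity, `θ' = θ ∨ θ' = θ^p`.

Consumer: helper41's `TW/Flat/SSCount.lean` (row 335).
-/
import Mathlib
import Fermat.Agent.Lib.LinAlg.SemilinFixed

set_option autoImplicit false

namespace Fermat.Agent.TW.Flat.SS

namespace WCount

open Fermat.Agent.Lib.SemilinFixed Module

variable {k κ : Type} [Field k] [Field κ]

/-- Additive maps respect subtraction. -/
theorem map_sub_of_add {b : k → κ} (hb : ∀ s t, b (s + t) = b s + b t) (s t : k) :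
    b (s - t) = b s - b t := by
  have h := hb (s - t) t
  rw [sub_add_cancel] at h
  rw [h, add_sub_cancel_right]

/-- Additive maps are linear over natural-number casts. -/
theorem map_natCast_mul_of_add {b : k → κ} (hb : ∀ s t, b (s + t) = b s + b t) (j : ℕ) (t : k) :
    b ((j : k) * t) = (j : κ) * b t := by
  have h0 : b 0 = 0 := by
    have h := hb 0 0
    rw [add_zero] at h
    exact left_eq_add.mp h
  induction j with
  | zero => simp [h0]
  | succ j ih =>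
    rw [Nat.cast_succ, add_mul, one_mul, hb, ih, Nat.cast_succ, add_mul, one_mul]

/-- Precomposition with a multiplication, as a linear map on the space of additive maps. -/
def mulPre (m : k) : addFun k κ →ₗ[κ] addFun k κ where
  toFun g := ⟨fun t => g.1 (m * t), fun a b => by
    show g.1 (m * (a + b)) = g.1 (m * a) + g.1 (m * b)
    rw [mul_add, g.2]⟩
  map_add' _ _ := rfl
  map_smul' _ _ := rfl

theorem mulPre_apply (m : k) (g : addFun k κ) (t : k) : (mulPre m g).1 t = g.1 (m * t) := rfl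

variable (p : ℕ) [Fact p.Prime] [CharP κ p]

/-- The Frobenius `g ↦ g ^ p` on additive maps. -/
def frob : addFun k κ →+ addFun k κ where
  toFun g := ⟨fun t => g.1 t ^ p, fun a b => by
    show g.1 (a + b) ^ p = g.1 a ^ p + g.1 b ^ p
    rw [g.2, add_pow_char]⟩
  map_zero' := by
    apply Subtype.ext
    funext a
    show (0 : κ) ^ p = 0
    exact zero_pow (Fact.out : p.Prime).ne_zero
  map_add' g h := by
    apply Subtype.ext
    funext a
    show (g.1 a + h.1 a) ^ p = g.1 a ^ p + h.1 a ^ p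
    exact add_pow_char _ _ p

theorem frob_apply (g : addFun k κ) (t : k) : (frob p g).1 t = g.1 t ^ p := rfl

theorem frob_smul (s : κ) (g : addFun k κ) : frob p (s • g) = s ^ p • frob p g := by
  apply Subtype.ext
  funext t
  show (s * g.1 t) ^ p = s ^ p * g.1 t ^ p
  exact mul_pow _ _ _

/-- The projector onto the `θ`-eigenspace of `mulPre m₀` along the `θ^p`-eigenspace. -/
def proj (m₀ : k) (θ : κ) (U : addFun k κ) : addFun k κ :=
  (θ - θ ^ p)⁻¹ • (mulPre m₀ U - θ ^ p • U)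

/-- The projector onto the `θ^p`-eigenspace of `mulPre m₀` along the `θ`-eigenspace. -/
def proj' (m₀ : k) (θ : κ) (U : addFun k κ) : addFun k κ :=
  (θ ^ p - θ)⁻¹ • (mulPre m₀ U - θ • U)

omit [Fact p.Prime] [CharP κ p] in
theorem proj_add (m₀ : k) (θ : κ) (U U' : addFun k κ) :
    proj p m₀ θ (U + U') = proj p m₀ θ U + proj p m₀ θ U' := by
  simp only [proj, map_add]
  module

omit [Fact p.Prime] [CharP κ p] in
theorem proj_smul (m₀ : k) (θ : κ) (s : κ) (U : addFun k κ) :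
    proj p m₀ θ (s • U) = s • proj p m₀ θ U := by
  simp only [proj, map_smul]
  module

omit [Fact p.Prime] [CharP κ p] in
theorem proj'_add (m₀ : k) (θ : κ) (U U' : addFun k κ) :
    proj' p m₀ θ (U + U') = proj' p m₀ θ U + proj' p m₀ θ U' := by
  simp only [proj', map_add]
  module

omit [Fact p.Prime] [CharP κ p] in
theorem proj'_smul (m₀ : k) (θ : κ) (s : κ) (U : addFun k κ) :
    proj' p m₀ θ (s • U) = s • proj' p m₀ θ U := by
  simp only [proj', map_smul]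
  module

/-- The Frobenius-semilinear map whose fixed points contain `b + b^p` for every `b` in the
constrained space. -/
def psi (m₀ c₀ : k) (θ ξ : κ) (U : addFun k κ) : addFun k κ :=
  frob p (proj p m₀ θ U) + ξ • mulPre c₀⁻¹ (frob p (proj' p m₀ θ U))

theorem psi_add (m₀ c₀ : k) (θ ξ : κ) (U U' : addFun k κ) :
    psi p m₀ c₀ θ ξ (U + U') = psi p m₀ c₀ θ ξ U + psi p m₀ c₀ θ ξ U' := by
  simp only [psi, proj_add, proj'_add, map_add, smul_add]
  abel

theorem psi_smul (m₀ c₀ : k) (θ ξ : κ) (s : κ) (U : addFun k κ) :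
    psi p m₀ c₀ θ ξ (s • U) = s ^ p • psi p m₀ c₀ θ ξ U := by
  simp only [psi, proj_smul, proj'_smul, frob_smul, map_smul, smul_add]
  rw [smul_comm ξ (s ^ p)]

/-- For `B` in the constrained space, `B + B^p` is a fixed point of `psi`, and `B` is recovered
from it by `proj`. -/
theorem psi_fixed (m₀ c₀ : k) (hc₀ : c₀ ≠ 0) (θ ξ : κ) (hθ : θ ^ p ≠ θ) (B : addFun k κ)
    (hm : ∀ t, B.1 (m₀ * t) = θ * B.1 t) (hc : ∀ t, B.1 (c₀ * t) = ξ * B.1 t ^ (p ^ 2)) :
    proj p m₀ θ (B + frob p B) = B ∧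
      psi p m₀ c₀ θ ξ (B + frob p B) = B + frob p B := by
  have hM1 : mulPre m₀ B = θ • B := by
    apply Subtype.ext
    funext t
    exact hm t
  have hM2 : mulPre m₀ (frob p B) = θ ^ p • frob p B := by
    apply Subtype.ext
    funext t
    show B.1 (m₀ * t) ^ p = θ ^ p * B.1 t ^ p
    rw [hm, mul_pow]
  have h1 : θ - θ ^ p ≠ 0 := sub_ne_zero.2 (Ne.symm hθ)
  have h2 : θ ^ p - θ ≠ 0 := sub_ne_zero.2 hθ
  have hπ : proj p m₀ θ (B + frob p B) = B := by
    have h : mulPre m₀ (B + frob p B) - θ ^ p • (B + frob p B) = (θ - θ ^ p) • B := by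
      rw [map_add, hM1, hM2]
      module
    rw [proj, h, inv_smul_smul₀ h1]
  have hπ' : proj' p m₀ θ (B + frob p B) = frob p B := by
    have h : mulPre m₀ (B + frob p B) - θ • (B + frob p B) = (θ ^ p - θ) • frob p B := by
      rw [map_add, hM1, hM2]
      module
    rw [proj', h, inv_smul_smul₀ h2]
  refine ⟨hπ, ?_⟩
  have hB : ξ • mulPre c₀⁻¹ (frob p (frob p B)) = B := by
    apply Subtype.ext
    funext t
    show ξ * ((B.1 (c₀⁻¹ * t)) ^ p) ^ p = B.1 t
    rw [← pow_mul, ← sq, ← hc, mul_inv_cancel_left₀ hc₀]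
  rw [psi, hπ, hπ', hB, add_comm]

/-- The constrained space of additive maps. -/
def Wset (m₀ c₀ : k) (θ ξ : κ) : Set (k → κ) :=
  {b | (∀ s t, b (s + t) = b s + b t) ∧ (∀ t, b (m₀ * t) = θ * b t) ∧
    ∀ t, b (c₀ * t) = ξ * b t ^ (p ^ 2)}

/-- **The constrained space has at most `#k` elements.** -/
theorem card_Wset_le [Finite k] [CharP k p] (m₀ c₀ : k) (hc₀ : c₀ ≠ 0) (θ ξ : κ)
    (hθ : θ ^ p ≠ θ) :
    Finite (Wset p m₀ c₀ θ ξ) ∧ Nat.card (Wset p m₀ c₀ θ ξ) ≤ Nat.card k := by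
  classical
  let Ψ : addFun k κ →+ addFun k κ :=
    AddMonoidHom.mk' (psi p m₀ c₀ θ ξ) (psi_add p m₀ c₀ θ ξ)
  have hΨ : ∀ (a : κ) (v : addFun k κ), Ψ (a • v) = a ^ p • Ψ v := psi_smul p m₀ c₀ θ ξ
  obtain ⟨hfin, hcard⟩ := card_fixed_le (κ := κ) p Ψ hΨ
  let toV : Wset p m₀ c₀ θ ξ → addFun k κ := fun b => ⟨b.1, b.2.1⟩
  have hfix : ∀ b : Wset p m₀ c₀ θ ξ,
      proj p m₀ θ (toV b + frob p (toV b)) = toV b ∧
        psi p m₀ c₀ θ ξ (toV b + frob p (toV b)) = toV b + frob p (toV b) :=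
    fun b => psi_fixed p m₀ c₀ hc₀ θ ξ hθ (toV b) b.2.2.1 b.2.2.2
  let e : Wset p m₀ c₀ θ ξ → {v : addFun k κ | Ψ v = v} :=
    fun b => ⟨toV b + frob p (toV b), (hfix b).2⟩
  have he : Function.Injective e := by
    intro b b' h
    have h' : toV b + frob p (toV b) = toV b' + frob p (toV b') := congrArg Subtype.val h
    have h'' := congrArg (proj p m₀ θ) h'
    rw [(hfix b).1, (hfix b').1] at h''
    exact Subtype.ext (congrArg (fun v : addFun k κ => (v : k → κ)) h'')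
  have := hfin.to_subtype
  have hW : Finite (Wset p m₀ c₀ θ ξ) := Finite.of_injective e he
  refine ⟨hW, ?_⟩
  calc Nat.card (Wset p m₀ c₀ θ ξ) ≤ Nat.card {v : addFun k κ | Ψ v = v} :=
        Nat.card_le_card_of_injective e he
    _ ≤ p ^ finrank κ (addFun k κ) := hcard
    _ ≤ Nat.card k := pow_finrank_addFun_le p

/-- In a field of characteristic `p`, a solution of `a ^ p = a` is a natural-number cast. -/
theorem exists_natCast_of_pow_eq {K : Type} [Field K] [CharP K p] (a : K) (h : a ^ p = a) :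
    ∃ j : ℕ, (j : K) = a := by
  let _ : Algebra (ZMod p) K := ZMod.algebra K p
  have h1 : a ∈ (⊥ : Subfield K) := (Subfield.mem_bot_iff_pow_eq_self K p).2 h
  rw [Subfield.bot_eq_of_zMod_algebra p] at h1
  obtain ⟨z, hz⟩ := h1
  refine ⟨z.val, ?_⟩
  rw [← hz, ZMod.natCast_val]
  rfl

end WCount

open WCount

/-- **Row 367, first statement**: two additive maps with the same semilinear constraints are
`k`-dependent. -/
theorem exists_comb_eq_zero {k κ : Type} [Field k] [Finite k] [Field κ] (p : ℕ) [Fact p.Prime]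
    [CharP k p] [CharP κ p] (m₀ c₀ : k) (hc₀ : c₀ ≠ 0) (θ ξ : κ) (hθ : θ ^ p ≠ θ) (b₁ b₂ : k → κ)
    (h₁ : (∀ s t, b₁ (s + t) = b₁ s + b₁ t) ∧ (∀ t, b₁ (m₀ * t) = θ * b₁ t) ∧
      ∀ t, b₁ (c₀ * t) = ξ * b₁ t ^ (p ^ 2))
    (h₂ : (∀ s t, b₂ (s + t) = b₂ s + b₂ t) ∧ (∀ t, b₂ (m₀ * t) = θ * b₂ t) ∧
      ∀ t, b₂ (c₀ * t) = ξ * b₂ t ^ (p ^ 2)) :
    ∃ a₁ a₂ : k, (a₁ ≠ 0 ∨ a₂ ≠ 0) ∧ ∀ t, b₁ (a₁ * t) + b₂ (a₂ * t) = 0 := by
  classical
  obtain ⟨hWfin, hWcard⟩ := card_Wset_le (κ := κ) p m₀ c₀ hc₀ θ ξ hθ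
  -- the map `(a₁, a₂) ↦ (t ↦ b₁ (a₁ t) + b₂ (a₂ t))` into the constrained space
  let Φ : k × k → Wset p m₀ c₀ θ ξ := fun a =>
    ⟨fun t => b₁ (a.1 * t) + b₂ (a.2 * t), by
      refine ⟨fun s t => ?_, fun t => ?_, fun t => ?_⟩
      · show b₁ (a.1 * (s + t)) + b₂ (a.2 * (s + t)) =
          b₁ (a.1 * s) + b₂ (a.2 * s) + (b₁ (a.1 * t) + b₂ (a.2 * t))
        rw [mul_add, mul_add, h₁.1, h₂.1]
        ring
      · show b₁ (a.1 * (m₀ * t)) + b₂ (a.2 * (m₀ * t)) = θ * (b₁ (a.1 * t) + b₂ (a.2 * t))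
        rw [mul_left_comm a.1, mul_left_comm a.2, h₁.2.1, h₂.2.1]
        ring
      · show b₁ (a.1 * (c₀ * t)) + b₂ (a.2 * (c₀ * t)) =
          ξ * (b₁ (a.1 * t) + b₂ (a.2 * t)) ^ (p ^ 2)
        rw [mul_left_comm a.1, mul_left_comm a.2, h₁.2.2, h₂.2.2, add_pow_char_pow]
        ring⟩
  have hk : 1 < Nat.card k := Finite.one_lt_card
  have hlt : Nat.card (Wset p m₀ c₀ θ ξ) < Nat.card (k × k) := by
    rw [Nat.card_prod]
    calc Nat.card (Wset p m₀ c₀ θ ξ) ≤ Nat.card k := hWcard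
      _ = 1 * Nat.card k := (one_mul _).symm
      _ < Nat.card k * Nat.card k := Nat.mul_lt_mul_of_pos_right hk (by omega)
  have hninj : ¬ Function.Injective Φ := fun hinj =>
    absurd (Nat.card_le_card_of_injective Φ hinj) (not_le.2 hlt)
  obtain ⟨x, y, hxy, hne⟩ := Function.not_injective_iff.1 hninj
  refine ⟨x.1 - y.1, x.2 - y.2, ?_, fun t => ?_⟩
  · by_contra hcon
    push Not at hcon
    exact hne (Prod.ext (sub_eq_zero.1 hcon.1) (sub_eq_zero.1 hcon.2))
  · have ht : b₁ (x.1 * t) + b₂ (x.2 * t) = b₁ (y.1 * t) + b₂ (y.2 * t) :=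
      congrFun (congrArg Subtype.val hxy) t
    rw [sub_mul, sub_mul, map_sub_of_add h₁.1, map_sub_of_add h₂.1]
    linear_combination ht

/-- **Row 367, second statement**: eigenvalue rigidity. -/
theorem theta_eq_or_eq_pow {k κ : Type} [Field k] [Field κ] (p : ℕ) [Fact p.Prime] [CharP k p]
    [CharP κ p] (m₀ : k) (hm₀ : m₀ ^ (p ^ 2) = m₀) (θ θ' : κ) (hθ : θ ^ p ≠ θ) (b b' : k → κ)
    (hb : ∀ s t, b (s + t) = b s + b t) (hb' : ∀ s t, b' (s + t) = b' s + b' t)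
    (hbm : ∀ t, b (m₀ * t) = θ * b t) (hbm' : ∀ t, b' (m₀ * t) = θ' * b' t)
    (hb0 : ∃ t, b t ≠ 0) (hb0' : ∃ t, b' t ≠ 0) : θ' = θ ∨ θ' = θ ^ p := by
  -- `s = m₀ + m₀^p` and `n = m₀ · m₀^p` lie in the prime field
  have hs : (m₀ + m₀ ^ p) ^ p = m₀ + m₀ ^ p := by
    rw [add_pow_char, ← pow_mul, ← sq, hm₀, add_comm]
  have hn : (m₀ * m₀ ^ p) ^ p = m₀ * m₀ ^ p := by
    rw [mul_pow, ← pow_mul, ← sq, hm₀, mul_comm]
  obtain ⟨s', hs'⟩ := exists_natCast_of_pow_eq p _ hs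
  obtain ⟨n', hn'⟩ := exists_natCast_of_pow_eq p _ hn
  -- the quadratic relation transported through an additive eigen-map
  have key : ∀ (c : k → κ) (ϑ : κ), (∀ s t, c (s + t) = c s + c t) →
      (∀ t, c (m₀ * t) = ϑ * c t) → (∃ t, c t ≠ 0) → ϑ ^ 2 + (n' : κ) = (s' : κ) * ϑ := by
    intro c ϑ hc hcm ⟨t, ht⟩
    have e1 : m₀ * (m₀ * t) + (n' : k) * t = (s' : k) * (m₀ * t) := by
      rw [hs', hn']
      ring
    have e2 := congrArg c e1
    rw [hc, hcm, hcm, map_natCast_mul_of_add hc, map_natCast_mul_of_add hc, hcm] at e2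
    have e3 : (ϑ ^ 2 + (n' : κ) - (s' : κ) * ϑ) * c t = 0 := by linear_combination e2
    rcases mul_eq_zero.1 e3 with h | h
    · exact sub_eq_zero.1 h
    · exact absurd h ht
  have hθq := key b θ hb hbm hb0
  have hθ'q := key b' θ' hb' hbm' hb0'
  -- `θ^p` is a root as well
  have hcast : ∀ j : ℕ, ((j : κ)) ^ p = (j : κ) := fun j => by
    rw [← frobenius_def, map_natCast]
  have hθpq : (θ ^ p) ^ 2 + (n' : κ) = (s' : κ) * θ ^ p := by
    have h := congrArg (fun x : κ => x ^ p) hθq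
    simp only [add_pow_char, mul_pow, hcast] at h
    rw [← pow_mul, mul_comm 2 p, pow_mul] at h
    exact h
  have hne : θ - θ ^ p ≠ 0 := sub_ne_zero.2 (Ne.symm hθ)
  -- Vieta
  have hsum : θ + θ ^ p = (s' : κ) := by
    have h : (θ - θ ^ p) * (θ + θ ^ p - (s' : κ)) = 0 := by linear_combination hθq - hθpq
    rcases mul_eq_zero.1 h with h | h
    · exact absurd h hne
    · exact sub_eq_zero.1 h
  have hprod : θ * θ ^ p = (n' : κ) := by linear_combination (-1 : κ) * hθq + θ * hsum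
  have hfac : (θ' - θ) * (θ' - θ ^ p) = 0 := by
    linear_combination hθ'q - θ' * hsum + hprod
  rcases mul_eq_zero.1 hfac with h | h
  · exact Or.inl (sub_eq_zero.1 h)
  · exact Or.inr (sub_eq_zero.1 h)

end Fermat.Agent.TW.Flat.SS
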