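/-
TW-FLAT, row 364 (FLAT-SS-WIT, sub-row of 335; helper33): the Λ-calculus W0–W8 on the scalar
witness vocabulary `Wit` / `Lev` / `IsLam` of `SS/WitDefs.lean`.

* `isLam_zero`, `Lev.exists_isLam` : existence;
* `isLam_unique` : the leading coefficient does not depend on the witness (K3);
* `isLam_add_t`, `isLam_add_d`, `isLam_smul_iff` : biadditivity and the scalar action;
* `lev_succ_of_isLam_zero`, `lev_succ_of_dvd`, `lev_succ_top` : raising the level;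
* `lam_eq_one_of_lev_top` : beyond the level `p² + p` the character is trivial (K5).
-/
import Mathlib
import Fermat.Agent.TW.Flat.SS.WitDefs
import Fermat.Agent.TW.Flat.SS.Levels
import Fermat.Agent.TW.Flat.SSLev.Galois

set_option autoImplicit false

namespace Fermat.Agent.TW.Flat.SS

open Fermat.Agent.S53 Fermat.Agent.TW Fermat.Agent.TW.Flat

local notation "Qb" => AlgebraicClosure ℚ

variable {k : Type} [Field k] {p : ℕ} [Fact p.Prime] {P : ValuationSubring Qb} {ϖ : Qb}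
  {lam : AddChar k Qb} {d d' : ↥(P.decompositionSubgroup ℚ) → k}

/-! ### Helpers -/

omit [Fact p.Prime] in
/-- `lam x ^ p = 1` when `p = 0` in `k`. -/
theorem wit_lam_pow (lam : AddChar k Qb) (hpk : (p : k) = 0) (x : k) : lam x ^ p = 1 := by
  rw [← AddChar.map_nsmul_eq_pow, nsmul_eq_mul, hpk, zero_mul, AddChar.map_zero_eq_one]

omit [Fact p.Prime] in
theorem wit_lam_ne_zero (lam : AddChar k Qb) (x : k) : lam x ≠ 0 := by
  intro h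
  have h1 : lam x * lam (-x) = 1 := by
    rw [← AddChar.map_add_eq_mul, add_neg_cancel, AddChar.map_zero_eq_one]
  rw [h, zero_mul] at h1
  exact zero_ne_one h1

omit [Fact p.Prime] in
/-- The residue class of an element of `P` as the total function `SSLev.res`. -/
theorem wit_residue_mk {x : Qb} (h : x ∈ P) :
    IsLocalRing.residue ↥P ⟨x, h⟩ = SSLev.res P x := (SSLev.res_eq P h).symm

omit [Fact p.Prime] in
/-- The `p`-th power of a witness is fixed by `G_F`. -/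
theorem Wit.gfFixed_pow {j : ℕ} {t : k} {z : Qb} (h : Wit P p ϖ lam j d t z)
    (hpk : (p : k) = 0) : GFFixed P ϖ (z ^ p) := by
  intro σ hσ hσϖ
  have h1 := h.2.2 ⟨σ, Levels.inertia_le_decomp P hσ⟩ hσ hσϖ
  have h2 : σ z = lam (t * d ⟨σ, Levels.inertia_le_decomp P hσ⟩) * z := h1
  rw [map_pow, h2, mul_pow, wit_lam_pow lam hpk, one_mul]

theorem wit_varpi_pow_mem_nonunits (hP : P.LiesOverPrime p) (hϖ : ϖ ^ (p ^ 2 - 1) = -(p : Qb))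
    {j : ℕ} (hj1 : 1 ≤ j) : ϖ ^ j ∈ P.nonunits := by
  rw [P.mem_nonunits_iff, map_pow]
  have h1 := Levels.val_varpi_lt_one hP hϖ
  have h2 := Levels.pow_le_pow_varpi hP hϖ (m := j) (n := 1) hj1
  rw [pow_one] at h2
  exact lt_of_le_of_lt h2 h1

theorem wit_varpi_mem (hP : P.LiesOverPrime p) (hϖ : ϖ ^ (p ^ 2 - 1) = -(p : Qb)) : ϖ ∈ P :=
  (P.valuation_le_one_iff ϖ).mp (Levels.val_varpi_lt_one hP hϖ).le

/-- Multiplicativity of levels and additivity of leading coefficients. -/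
theorem wit_mul_aux (hP : P.LiesOverPrime p) (hϖ : ϖ ^ (p ^ 2 - 1) = -(p : Qb)) {j : ℕ}
    (hj1 : 1 ≤ j) {u u' : Qb} (h : (u - 1) / ϖ ^ j ∈ P) (h' : (u' - 1) / ϖ ^ j ∈ P) :
    (u * u' - 1) / ϖ ^ j ∈ P ∧
      SSLev.res P ((u * u' - 1) / ϖ ^ j) =
        SSLev.res P ((u - 1) / ϖ ^ j) + SSLev.res P ((u' - 1) / ϖ ^ j) := by
  have hϖ0 : ϖ ^ j ≠ 0 := pow_ne_zero j (Levels.varpi_ne_zero hϖ)
  have e : (u * u' - 1) / ϖ ^ j = (u - 1) / ϖ ^ j * u' + (u' - 1) / ϖ ^ j := by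
    field_simp
    ring
  have hm : u' - 1 ∈ P.nonunits := by
    have e' : u' - 1 = ϖ ^ j * ((u' - 1) / ϖ ^ j) := by
      field_simp
    rw [e']
    exact SSLev.mul_mem_nonunits_left P (wit_varpi_pow_mem_nonunits hP hϖ hj1) h'
  have hu' : u' ∈ P := by
    have e' : u' = 1 + (u' - 1) := by ring
    rw [e']
    exact P.add_mem _ _ P.one_mem (SSLev.nonunits_subset P hm)
  have h1 : SSLev.res P u' = 1 := by
    rw [← SSLev.res_one P, SSLev.res_eq_iff P hu' P.one_mem]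
    exact hm
  refine ⟨?_, ?_⟩
  · rw [e]
    exact P.add_mem _ _ (P.mul_mem _ _ h hu') h'
  · rw [e, SSLev.res_add P (P.mul_mem _ _ h hu') h', SSLev.res_mul P h hu', h1, mul_one]

/-! ### W0–W8 -/

omit [Fact p.Prime] in
theorem isLam_zero (j : ℕ) (d : ↥(P.decompositionSubgroup ℚ) → k) :
    IsLam P p ϖ lam j d 0 0 := by
  have h0 : ((1 : Qb) ^ p - 1) / ϖ ^ j ∈ P := by
    rw [one_pow, sub_self, zero_div]
    exact P.zero_mem
  refine ⟨1, ⟨one_ne_zero, h0, fun σ _ _ => ?_⟩, h0, ?_⟩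
  · rw [zero_mul, AddChar.map_zero_eq_one, map_one, one_mul]
  · rw [wit_residue_mk, one_pow, sub_self, zero_div, SSLev.res_zero]

omit [Fact p.Prime] in
theorem Lev.exists_isLam {j : ℕ} (h : Lev P p ϖ lam j d) (t : k) :
    ∃ r, IsLam P p ϖ lam j d t r := by
  obtain ⟨z, hz⟩ := h t
  exact ⟨_, z, hz, hz.2.1, rfl⟩

theorem isLam_unique (hK3 : K3) (hp2 : p ≠ 2) (hP : P.LiesOverPrime p)
    (hϖ : ϖ ^ (p ^ 2 - 1) = -(p : Qb)) (hpk : (p : k) = 0) {j : ℕ} (hj1 : 1 ≤ j)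
    (hjp : ¬ p ∣ j) (hj : j < p ^ 2 + p) {t : k} {r r' : IsLocalRing.ResidueField ↥P}
    (h : IsLam P p ϖ lam j d t r) (h' : IsLam P p ϖ lam j d t r') : r = r' := by
  obtain ⟨z, hz, hx, rfl⟩ := h
  obtain ⟨z', hz', hx', rfl⟩ := h'
  have S : SSLev.Setting p P ϖ := ⟨Fact.out, hp2, hP, hϖ⟩
  have hyF : GFFixed P ϖ (z / z') := by
    intro σ hσ hσϖ
    have h1 : σ z = lam (t * d ⟨σ, Levels.inertia_le_decomp P hσ⟩) * z :=
      hz.2.2 ⟨σ, Levels.inertia_le_decomp P hσ⟩ hσ hσϖ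
    have h2 : σ z' = lam (t * d ⟨σ, Levels.inertia_le_decomp P hσ⟩) * z' :=
      hz'.2.2 ⟨σ, Levels.inertia_le_decomp P hσ⟩ hσ hσϖ
    have h3 := wit_lam_ne_zero lam (t * d ⟨σ, Levels.inertia_le_decomp P hσ⟩)
    have h4 := hz'.1
    rw [map_div₀, h1, h2]
    field_simp
  have hdiv : ((z / z') ^ p - 1) / ϖ ^ j ∈ P := by
    rw [div_pow]
    exact SSLev.level_div S hj1 hx hx'
  have hk := hK3 p P hp2 hP ϖ hϖ (z / z') hyF j hj1 hjp hj hdiv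
  have hm : ((z / z') ^ p - 1) / ϖ ^ j ∈ P.nonunits :=
    S.div_mem_nonunits_of_lt hk (Nat.lt_succ_self j)
  have h0 : SSLev.lc P ϖ j ((z / z') ^ p) = 0 := by
    rw [SSLev.lc_def, SSLev.res_eq_zero_iff P hdiv]
    exact hm
  rw [div_pow, SSLev.lc_div S hj1 hx hx', sub_eq_zero, SSLev.lc_def, SSLev.lc_def] at h0
  rw [wit_residue_mk, wit_residue_mk]
  exact h0

theorem isLam_add_t (hP : P.LiesOverPrime p) (hϖ : ϖ ^ (p ^ 2 - 1) = -(p : Qb)) {j : ℕ}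
    (hj1 : 1 ≤ j) {t t' : k} {r r' : IsLocalRing.ResidueField ↥P}
    (h : IsLam P p ϖ lam j d t r) (h' : IsLam P p ϖ lam j d t' r') :
    IsLam P p ϖ lam j d (t + t') (r + r') := by
  obtain ⟨z, hz, hx, rfl⟩ := h
  obtain ⟨z', hz', hx', rfl⟩ := h'
  obtain ⟨hmem, hres⟩ := wit_mul_aux hP hϖ hj1 hx hx'
  rw [← mul_pow] at hmem hres
  refine ⟨z * z', ⟨mul_ne_zero hz.1 hz'.1, hmem, fun σ hσ hσϖ => ?_⟩, hmem, ?_⟩
  · rw [map_mul, hz.2.2 σ hσ hσϖ, hz'.2.2 σ hσ hσϖ, add_mul, AddChar.map_add_eq_mul]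
    ring
  · rw [wit_residue_mk, wit_residue_mk, wit_residue_mk]
    exact hres

theorem isLam_add_d (hP : P.LiesOverPrime p) (hϖ : ϖ ^ (p ^ 2 - 1) = -(p : Qb)) {j : ℕ}
    (hj1 : 1 ≤ j) {t : k} {r r' : IsLocalRing.ResidueField ↥P}
    (h : IsLam P p ϖ lam j d t r) (h' : IsLam P p ϖ lam j d' t r') :
    IsLam P p ϖ lam j (d + d') t (r + r') := by
  obtain ⟨z, hz, hx, rfl⟩ := h
  obtain ⟨z', hz', hx', rfl⟩ := h'
  obtain ⟨hmem, hres⟩ := wit_mul_aux hP hϖ hj1 hx hx'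
  rw [← mul_pow] at hmem hres
  refine ⟨z * z', ⟨mul_ne_zero hz.1 hz'.1, hmem, fun σ hσ hσϖ => ?_⟩, hmem, ?_⟩
  · rw [map_mul, hz.2.2 σ hσ hσϖ, hz'.2.2 σ hσ hσϖ, Pi.add_apply, mul_add,
      AddChar.map_add_eq_mul]
    ring
  · rw [wit_residue_mk, wit_residue_mk, wit_residue_mk]
    exact hres

omit [Fact p.Prime] in
theorem isLam_smul_iff (j : ℕ) (a t : k) (r : IsLocalRing.ResidueField ↥P) :
    IsLam P p ϖ lam j (a • d) t r ↔ IsLam P p ϖ lam j d (t * a) r := by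
  constructor
  · rintro ⟨z, hz, hx, hr⟩
    refine ⟨z, ⟨hz.1, hz.2.1, fun σ hσ hσϖ => ?_⟩, hx, hr⟩
    rw [hz.2.2 σ hσ hσϖ, Pi.smul_apply, smul_eq_mul, mul_assoc]
  · rintro ⟨z, hz, hx, hr⟩
    refine ⟨z, ⟨hz.1, hz.2.1, fun σ hσ hσϖ => ?_⟩, hx, hr⟩
    rw [hz.2.2 σ hσ hσϖ, Pi.smul_apply, smul_eq_mul, mul_assoc]

theorem lev_succ_of_isLam_zero (hFV : Loc.FVal) (hP : P.LiesOverPrime p)
    (hϖ : ϖ ^ (p ^ 2 - 1) = -(p : Qb)) (hpk : (p : k) = 0) {j : ℕ}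
    (h : ∀ t : k, IsLam P p ϖ lam j d t 0) : Lev P p ϖ lam (j + 1) d := by
  intro t
  obtain ⟨z, hz, hx, hr⟩ := h t
  refine ⟨z, hz.1, ?_, hz.2.2⟩
  have hϖ0 := Levels.varpi_ne_zero hϖ
  have hm : (z ^ p - 1) / ϖ ^ j ∈ P.nonunits := by
    rw [wit_residue_mk] at hr
    exact (SSLev.res_eq_zero_iff P hx).mp hr
  have hF : GFFixed P ϖ ((z ^ p - 1) / ϖ ^ j) :=
    Levels.gfFixed_div (Levels.gfFixed_sub (hz.gfFixed_pow hpk) Levels.gfFixed_one)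
      (Levels.gfFixed_pow Levels.gfFixed_self j)
  have hle := Levels.fval_le hFV hP hϖ hF (P.mem_nonunits_iff.mp hm)
  rw [Levels.div_pow_mem_iff hϖ0, pow_succ]
  rw [map_div₀, map_pow, div_le_iff₀ (pow_pos (Levels.val_varpi_pos hϖ) j)] at hle
  rw [mul_comm]
  exact hle

theorem lev_succ_of_dvd (hK4 : K4) (hp2 : p ≠ 2) (hP : P.LiesOverPrime p)
    (hϖ : ϖ ^ (p ^ 2 - 1) = -(p : Qb)) (hpk : (p : k) = 0) {i : ℕ} (hi1 : 1 ≤ i) (hip : i ≤ p)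
    (h : Lev P p ϖ lam (p * i) d) : Lev P p ϖ lam (p * i + 1) d := by
  intro t
  obtain ⟨z, hz⟩ := h t
  obtain ⟨y, hy0, hyF, hy⟩ := hK4 p P hp2 hP ϖ hϖ (z ^ p) (hz.gfFixed_pow hpk) i hi1 hip hz.2.1
  refine ⟨z / y, div_ne_zero hz.1 hy0, ?_, fun σ hσ hσϖ => ?_⟩
  · rw [div_pow]
    exact hy
  · rw [map_div₀, hz.2.2 σ hσ hσϖ, hyF σ hσ hσϖ, mul_div_assoc]

theorem lev_succ_top (hK4' : K4') (hp2 : p ≠ 2) (hP : P.LiesOverPrime p)
    (hϖ : ϖ ^ (p ^ 2 - 1) = -(p : Qb)) (hpk : (p : k) = 0)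
    (h : Lev P p ϖ lam (p ^ 2 + p) d) : Lev P p ϖ lam (p ^ 2 + p + 1) d := by
  intro t
  obtain ⟨z, hz⟩ := h t
  obtain ⟨y, hy0, hyF, hy⟩ := hK4' p P hp2 hP ϖ hϖ (z ^ p) (hz.gfFixed_pow hpk) hz.2.1
  refine ⟨z / y, div_ne_zero hz.1 hy0, ?_, fun σ hσ hσϖ => ?_⟩
  · rw [div_pow]
    exact hy
  · rw [map_div₀, hz.2.2 σ hσ hσϖ, hyF σ hσ hσϖ, mul_div_assoc]

theorem lam_eq_one_of_lev_top (hK5 : K5) (hp2 : p ≠ 2) (hP : P.LiesOverPrime p)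
    (hϖ : ϖ ^ (p ^ 2 - 1) = -(p : Qb)) (hpk : (p : k) = 0)
    (h : Lev P p ϖ lam (p ^ 2 + p + 1) d) (t : k) (σ : ↥(P.decompositionSubgroup ℚ))
    (hσ : (σ : GQ) ∈ P.inertiaSubgroupIn ℚ) (hσϖ : (σ : GQ) ϖ = ϖ) : lam (t * d σ) = 1 := by
  obtain ⟨z, hz⟩ := h t
  have hzF := hK5 p P hp2 hP ϖ hϖ (z ^ p) z (hz.gfFixed_pow hpk) hz.2.1 rfl
  have h1 := hz.2.2 σ hσ hσϖ
  rw [hzF (σ : GQ) hσ hσϖ] at h1
  have h2 : (1 : Qb) * z = lam (t * d σ) * z := by rw [one_mul]; exact h1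
  exact (mul_right_cancel₀ hz.1 h2).symm

end Fermat.Agent.TW.Flat.SS
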