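/-
TW-FLAT (task 335, FLAT-SS-COUNT): the descent through the window of levels
`p² − 2 ≤ j ≤ p² + p + 1`.
-/
import Mathlib
import Fermat.Agent.TW.Flat.SS.WitDefs
import Fermat.Agent.TW.Flat.SS.Witness
import Fermat.Agent.TW.Flat.SS.Equivar
import Fermat.Agent.TW.Flat.SS.Arith
import Fermat.Agent.TW.Flat.SS.Coord
import Fermat.Agent.TW.Flat.SS.Levels
import Fermat.Agent.TW.Flat.SS.ResB1
import Fermat.Agent.TW.Flat.Local.Basic
import Fermat.Agent.TW.Flat.SS.Eigen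
import Fermat.Agent.TW.Flat.SS.WCount
import Fermat.Agent.TW.Local.FrobGen

set_option autoImplicit false
set_option linter.unusedSectionVars false

namespace Fermat.Agent.TW.Flat.SS

open Fermat.Agent.S53 Fermat.Agent.TW Fermat.Agent.TW.Flat IsLocalRing

local notation "Qb" => AlgebraicClosure ℚ

variable {k : Type} [Field k]

/-- The standing data of the supersingular count. -/
structure Ctx (rb : GQ →* Mat2 k) (p : ℕ) (P : ValuationSubring Qb) (ϖ : Qb)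
    (lam : AddChar k Qb) : Prop where
  hp2 : p ≠ 2
  hpk : (p : k) = 0
  hP : P.LiesOverPrime p
  hϖ : ϖ ^ (p ^ 2 - 1) = -(p : Qb)
  hlam : lam 1 ≠ 1
  hrb1 : ∀ σ ∈ P.inertiaSubgroupIn ℚ, σ ϖ = ϖ → rb σ = 1
  hK3 : K3
  hK4 : K4
  hK4' : K4'
  hK5 : K5
  hFV : Loc.FVal

/-- A level of the window `[p² − 2, p² + p − 1]` prime to `p`. -/
def Valid (p j : ℕ) : Prop := p ^ 2 - 2 ≤ j ∧ j ≤ p ^ 2 + p - 1 ∧ ¬ p ∣ j

variable {rb : GQ →* Mat2 k} {p : ℕ} [Fact p.Prime] {P : ValuationSubring Qb} {ϖ : Qb}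
  {lam : AddChar k Qb}

theorem Ctx.three_le (S : Ctx rb p P ϖ lam) : 3 ≤ p := by
  have hp : p.Prime := Fact.out
  have h2 := hp.two_le
  have := S.hp2
  omega

theorem Valid.one_le {j : ℕ} (hp : 3 ≤ p) (hv : Valid p j) : 1 ≤ j := by
  have h1 := hv.1
  have : 9 ≤ p ^ 2 := by nlinarith
  omega

theorem Valid.lt {j : ℕ} (hp : 3 ≤ p) (hv : Valid p j) : j < p ^ 2 + p := by
  have h1 := hv.2.1
  omega

/-! ### The base level -/

/-- The additive character `X ↦ lam (t * f X)` of `Mat2 k`. -/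
noncomputable def famChar (lam : AddChar k Qb) (f : Mat2 k →ₗ[k] k) (t : k) :
    AddChar (Mat2 k) Qb where
  toFun X := lam (t * f X)
  map_zero_eq_one' := by rw [map_zero, mul_zero, AddChar.map_zero_eq_one]
  map_add_eq_mul' X Y := by rw [map_add, mul_add, AddChar.map_add_eq_mul]

theorem famChar_apply (lam : AddChar k Qb) (f : Mat2 k →ₗ[k] k) (t : k) (X : Mat2 k) :
    famChar lam f t X = lam (t * f X) := rfl

/-- Every cocycle of `LSS` has level `≥ p² − 2` in every coordinate. -/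
theorem lev_base (S : Ctx rb p P ϖ lam) {c : ↥(P.decompositionSubgroup ℚ) → Mat2 k}
    (hc : c ∈ LSS rb P p) (f : Mat2 k →ₗ[k] k) : Lev P p ϖ lam (p ^ 2 - 2) (dcomp f c) := by
  intro t
  obtain ⟨z, hz0, -, hz1, hz2⟩ := hc.2 ϖ S.hϖ (famChar lam f t)
  exact ⟨z, hz0, hz1, fun σ hσ hσϖ => by rw [hz2 σ hσ hσϖ, famChar_apply, dcomp_apply]⟩

/-- Conjugation of a coordinate of a cocycle of `LSS` on `G_F`. -/
theorem dcomp_conj (S : Ctx rb p P ϖ lam) {c : ↥(P.decompositionSubgroup ℚ) → Mat2 k}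
    (hc : c ∈ LSS rb P p) (f : Mat2 k →ₗ[k] k) (τ : GQ) (hτ : τ ∈ P.decompositionSubgroup ℚ)
    (σ : ↥(P.decompositionSubgroup ℚ)) (hσ : (σ : GQ) ∈ P.inertiaSubgroupIn ℚ)
    (hσϖ : (σ : GQ) ϖ = ϖ) :
    dcomp f c ((⟨τ, hτ⟩ : ↥(P.decompositionSubgroup ℚ))⁻¹ * σ * ⟨τ, hτ⟩) =
      f (rb τ⁻¹ * c σ * rb τ) := by
  rw [dcomp_apply, cocycle_conj hc.1 ⟨τ, hτ⟩ σ (S.hrb1 _ hσ hσϖ)]

/-! ### The leading coefficient as a function -/

/-- A choice of the leading coefficients at level `j`. -/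
noncomputable def lamFun {j : ℕ} {d : ↥(P.decompositionSubgroup ℚ) → k}
    (h : Lev P p ϖ lam j d) (t : k) : ResidueField ↥P :=
  Classical.choose (h.exists_isLam t)

theorem isLam_lamFun {j : ℕ} {d : ↥(P.decompositionSubgroup ℚ) → k}
    (h : Lev P p ϖ lam j d) (t : k) : IsLam P p ϖ lam j d t (lamFun h t) :=
  Classical.choose_spec (h.exists_isLam t)

theorem lamFun_unique (S : Ctx rb p P ϖ lam) {j : ℕ} (hv : Valid p j)
    {d : ↥(P.decompositionSubgroup ℚ) → k} (h : Lev P p ϖ lam j d) {t : k}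
    {r : ResidueField ↥P} (hr : IsLam P p ϖ lam j d t r) : r = lamFun h t :=
  isLam_unique S.hK3 S.hp2 S.hP S.hϖ S.hpk (hv.one_le S.three_le) hv.2.2 (hv.lt S.three_le) hr
    (isLam_lamFun h t)

theorem lamFun_add (S : Ctx rb p P ϖ lam) {j : ℕ} (hv : Valid p j)
    {d : ↥(P.decompositionSubgroup ℚ) → k} (h : Lev P p ϖ lam j d) (t t' : k) :
    lamFun h (t + t') = lamFun h t + lamFun h t' :=
  (lamFun_unique S hv h (isLam_add_t S.hP S.hϖ (hv.one_le S.three_le) (isLam_lamFun h t)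
    (isLam_lamFun h t'))).symm

theorem lamFun_zero (S : Ctx rb p P ϖ lam) {j : ℕ} (hv : Valid p j)
    {d : ↥(P.decompositionSubgroup ℚ) → k} (h : Lev P p ϖ lam j d) : lamFun h 0 = 0 :=
  (lamFun_unique S hv h (isLam_zero j d)).symm

theorem lamFun_natCast_mul (S : Ctx rb p P ϖ lam) {j : ℕ} (hv : Valid p j)
    {d : ↥(P.decompositionSubgroup ℚ) → k} (h : Lev P p ϖ lam j d) (n : ℕ) (t : k) :
    lamFun h ((n : k) * t) = (n : ResidueField ↥P) * lamFun h t := by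
  induction n with
  | zero => rw [Nat.cast_zero, zero_mul, Nat.cast_zero, zero_mul, lamFun_zero S hv h]
  | succ n ih =>
    rw [Nat.cast_succ, add_mul, one_mul, lamFun_add S hv h, ih, Nat.cast_succ, add_mul, one_mul]

theorem lamFun_conj (S : Ctx rb p P ϖ lam) {j : ℕ} (hv : Valid p j)
    {d : ↥(P.decompositionSubgroup ℚ) → k} (h : Lev P p ϖ lam j d)
    (τ : GQ) (hτ : τ ∈ P.decompositionSubgroup ℚ) (w : ℕ)
    (hw : ∀ μ : Qb, μ ^ p = 1 → τ μ = μ ^ w) (ξ : Qb) (hξ : ξ ∈ P) (hτϖ : τ ϖ = ξ * ϖ) (m : k)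
    (hm : ∀ σ : ↥(P.decompositionSubgroup ℚ), (σ : GQ) ∈ P.inertiaSubgroupIn ℚ →
      (σ : GQ) ϖ = ϖ → d ((⟨τ, hτ⟩ : ↥(P.decompositionSubgroup ℚ))⁻¹ * σ * ⟨τ, hτ⟩) = m * d σ)
    (N : ℕ) (hN : ∀ x ∈ P, τ x - x ^ N ∈ P.nonunits) (t : k) :
    lamFun h ((w : k) * m * t) = residue ↥P ⟨ξ, hξ⟩ ^ j * lamFun h t ^ N :=
  (lamFun_unique S hv h (isLam_conj S.hP S.hϖ S.hpk j τ hτ w hw ξ hξ hτϖ m hm N hN
    (isLam_lamFun h t))).symm

theorem lev_succ_of_lamFun_eq_zero (S : Ctx rb p P ϖ lam) {j : ℕ}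
    {d : ↥(P.decompositionSubgroup ℚ) → k} (h : Lev P p ϖ lam j d)
    (h0 : ∀ t, lamFun h t = 0) : Lev P p ϖ lam (j + 1) d :=
  lev_succ_of_isLam_zero S.hFV S.hP S.hϖ S.hpk fun t => by
    have := isLam_lamFun h t
    rwa [h0 t] at this

/-- Beyond the top level the coordinate vanishes on `G_F`. -/
theorem eq_zero_of_lev_top (S : Ctx rb p P ϖ lam) {d : ↥(P.decompositionSubgroup ℚ) → k}
    (h : Lev P p ϖ lam (p ^ 2 + p + 1) d) (σ : ↥(P.decompositionSubgroup ℚ))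
    (hσ : (σ : GQ) ∈ P.inertiaSubgroupIn ℚ) (hσϖ : (σ : GQ) ϖ = ϖ) : d σ = 0 := by
  by_contra hne
  have h1 := lam_eq_one_of_lev_top S.hK5 S.hp2 S.hP S.hϖ S.hpk h (d σ)⁻¹ σ hσ hσϖ
  rw [inv_mul_cancel₀ hne] at h1
  exact S.hlam h1

/-! ### Passing a level -/

/-- Every cocycle of `LSS` whose `f`-coordinate has level `≥ j` has level `≥ j + 1`. -/
def Pass (rb : GQ →* Mat2 k) (p : ℕ) (P : ValuationSubring Qb) (ϖ : Qb) (lam : AddChar k Qb)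
    (f : Mat2 k →ₗ[k] k) (j : ℕ) : Prop :=
  ∀ c ∈ LSS rb P p, Lev P p ϖ lam j (dcomp f c) → Lev P p ϖ lam (j + 1) (dcomp f c)

theorem pass_of_dvd (S : Ctx rb p P ϖ lam) (f : Mat2 k →ₗ[k] k) {j : ℕ} (h1 : p ^ 2 - 2 ≤ j)
    (h2 : j ≤ p ^ 2 + p) (hd : p ∣ j) : Pass rb p P ϖ lam f j := by
  intro c _ h
  rcases Arith.window_dvd S.three_le h1 h2 hd with rfl | rfl
  · exact lev_succ_of_dvd S.hK4 S.hp2 S.hP S.hϖ S.hpk (by have := S.three_le; omega) le_rfl h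
  · exact lev_succ_top S.hK4' S.hp2 S.hP S.hϖ S.hpk h

theorem reach (f : Mat2 k →ₗ[k] k) {c : ↥(P.decompositionSubgroup ℚ) → Mat2 k}
    (hc : c ∈ LSS rb P p) (j₁ j₂ : ℕ) (h12 : j₁ ≤ j₂)
    (hpass : ∀ i, j₁ ≤ i → i < j₂ → Pass rb p P ϖ lam f i)
    (h : Lev P p ϖ lam j₁ (dcomp f c)) : Lev P p ϖ lam j₂ (dcomp f c) := by
  induction j₂, h12 using Nat.le_induction with
  | base => exact h
  | succ n hn ih =>
    exact hpass n hn (Nat.lt_succ_self n) c hc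
      (ih fun i hi hin => hpass i hi (Nat.lt_succ_of_lt hin))

/-- If every valid level passes, every cocycle of `LSS` reaches the top level. -/
theorem lev_top_of_pass (S : Ctx rb p P ϖ lam) (f : Mat2 k →ₗ[k] k)
    {c : ↥(P.decompositionSubgroup ℚ) → Mat2 k} (hc : c ∈ LSS rb P p) (j₁ : ℕ)
    (hj₁ : p ^ 2 - 2 ≤ j₁) (hj₁' : j₁ ≤ p ^ 2 + p + 1)
    (hpass : ∀ i, j₁ ≤ i → Valid p i → Pass rb p P ϖ lam f i)
    (h : Lev P p ϖ lam j₁ (dcomp f c)) : Lev P p ϖ lam (p ^ 2 + p + 1) (dcomp f c) := by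
  refine reach f hc j₁ _ hj₁' (fun i hi hi' => ?_) h
  by_cases hd : p ∣ i
  · exact pass_of_dvd S f (le_trans hj₁ hi) (by omega) hd
  · have hne : i ≠ p ^ 2 + p := by
      rintro rfl
      exact hd (dvd_add (dvd_pow_self p (by norm_num)) dvd_rfl)
    exact hpass i hi ⟨le_trans hj₁ hi, by omega, hd⟩

/-! ### The tame generator -/

/-- A generator `τ₀` of the tame quotient `I / G_F`: `τ₀ ϖ = ξ₀ ϖ` with `ξ₀` a primitive
`(p² − 1)`-th root of unity, and `w` a cyclotomic exponent of `τ₀`. -/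
structure Tame (p : ℕ) (P : ValuationSubring Qb) (ϖ : Qb) (τ₀ : GQ) (ξ₀ : Qb) (w : ℕ) :
    Prop where
  hτ₀ : τ₀ ∈ P.inertiaSubgroupIn ℚ
  hξ₀ : IsPrimitiveRoot ξ₀ (p ^ 2 - 1)
  hτ₀ϖ : τ₀ ϖ = ξ₀ * ϖ
  hw : ∀ μ : Qb, μ ^ p = 1 → τ₀ μ = μ ^ w

variable {τ₀ : GQ} {ξ₀ : Qb} {w : ℕ}

theorem mem_of_pow_eq_one {ζ : Qb} {m : ℕ} (hm : 0 < m) (h : ζ ^ m = 1) : ζ ∈ P :=
  (P.valuation_le_one_iff ζ).mp (le_of_eq (Levels.val_le_one_of_pow_eq_one hm h))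

theorem Tame.mem (T : Tame p P ϖ τ₀ ξ₀ w) : ξ₀ ∈ P :=
  mem_of_pow_eq_one (Levels.sq_sub_one_pos p) T.hξ₀.pow_eq_one

theorem Tame.decomp (T : Tame p P ϖ τ₀ ξ₀ w) : τ₀ ∈ P.decompositionSubgroup ℚ :=
  Loc.Basic.inertia_le_decomp P T.hτ₀

/-- `θ₀`, the residue class of `ξ₀`. -/
noncomputable def Tame.theta (T : Tame p P ϖ τ₀ ξ₀ w) : ResidueField ↥P :=
  residue ↥P ⟨ξ₀, T.mem⟩

theorem residue_eq_zero_of_mem_nonunits {x : Qb} (hx : x ∈ P) (h : x ∈ P.nonunits) :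
    residue ↥P ⟨x, hx⟩ = 0 := by
  obtain ⟨hx', hmem⟩ := (P.mem_nonunits_iff_exists_mem_maximalIdeal).mp h
  exact (residue_eq_zero_iff _).mpr hmem

theorem mem_nonunits_of_residue_eq_zero {x : Qb} (hx : x ∈ P) (h : residue ↥P ⟨x, hx⟩ = 0) :
    x ∈ P.nonunits :=
  (P.mem_nonunits_iff_exists_mem_maximalIdeal).mpr ⟨hx, (residue_eq_zero_iff _).mp h⟩

/-- `θ₀` has exact order `p² − 1`. -/
theorem Tame.theta_pow_eq (T : Tame p P ϖ τ₀ ξ₀ w) (hP : P.LiesOverPrime p) {a b : ℕ}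
    (h : T.theta ^ a = T.theta ^ b) : a ≡ b [MOD p ^ 2 - 1] := by
  have hmem : ξ₀ ^ a - ξ₀ ^ b ∈ P := sub_mem (pow_mem T.mem a) (pow_mem T.mem b)
  have h0 : residue ↥P ⟨ξ₀ ^ a - ξ₀ ^ b, hmem⟩ = 0 := by
    have e : (⟨ξ₀ ^ a - ξ₀ ^ b, hmem⟩ : ↥P) = ⟨ξ₀, T.mem⟩ ^ a - ⟨ξ₀, T.mem⟩ ^ b := rfl
    rw [e, map_sub, map_pow, map_pow]
    exact sub_eq_zero.mpr h
  have h1 := mem_nonunits_of_residue_eq_zero hmem h0
  have he := Levels.sq_sub_one_pos p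
  have hpe := Levels.not_dvd_sq_sub_one p
  have h2 : ξ₀ ^ a = ξ₀ ^ b :=
    Loc.Basic.rootInj p P hP (ξ₀ ^ a) (ξ₀ ^ b) (p ^ 2 - 1) he hpe
      (by rw [← pow_mul, mul_comm, pow_mul, T.hξ₀.pow_eq_one, one_pow])
      (by rw [← pow_mul, mul_comm, pow_mul, T.hξ₀.pow_eq_one, one_pow]) h1
  have hξ0 : ξ₀ ≠ 0 := T.hξ₀.ne_zero he.ne'
  rcases Nat.le_total a b with hab | hab
  · have h3 : ξ₀ ^ (b - a) = 1 := by
      have : ξ₀ ^ a * ξ₀ ^ (b - a) = ξ₀ ^ a * 1 := by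
        rw [← pow_add, Nat.add_sub_cancel' hab, mul_one, h2]
      exact mul_left_cancel₀ (pow_ne_zero a hξ0) this
    exact (Nat.modEq_iff_dvd' hab).mpr (T.hξ₀.dvd_of_pow_eq_one _ h3)
  · have h3 : ξ₀ ^ (a - b) = 1 := by
      have : ξ₀ ^ b * ξ₀ ^ (a - b) = ξ₀ ^ b * 1 := by
        rw [← pow_add, Nat.add_sub_cancel' hab, mul_one, h2]
      exact mul_left_cancel₀ (pow_ne_zero b hξ0) this
    exact ((Nat.modEq_iff_dvd' hab).mpr (T.hξ₀.dvd_of_pow_eq_one _ h3)).symm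

theorem Tame.theta_pow_card (T : Tame p P ϖ τ₀ ξ₀ w) : T.theta ^ (p ^ 2 - 1) = 1 := by
  have e : (⟨ξ₀, T.mem⟩ : ↥P) ^ (p ^ 2 - 1) = 1 := Subtype.ext T.hξ₀.pow_eq_one
  rw [Tame.theta, ← map_pow, e, map_one]

/-- The cyclotomic exponent of `τ₀` is `θ₀ ^ (p + 1)` in the residue field. -/
theorem Tame.natCast_w (T : Tame p P ϖ τ₀ ξ₀ w) (hp2 : p ≠ 2) (hP : P.LiesOverPrime p)
    (hϖ : ϖ ^ (p ^ 2 - 1) = -(p : Qb)) : (w : ResidueField ↥P) = T.theta ^ (p + 1) := by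
  have h := cyclo_exponent_residue p hp2 P hP ϖ hϖ τ₀ T.hτ₀ ξ₀ T.hτ₀ϖ w T.hw
  have hw : (w : Qb) ∈ P := natCast_mem P w
  have hmem : (w : Qb) - ξ₀ ^ (p + 1) ∈ P := sub_mem hw (pow_mem T.mem _)
  have h0 := residue_eq_zero_of_mem_nonunits hmem h
  have e : (⟨(w : Qb) - ξ₀ ^ (p + 1), hmem⟩ : ↥P) = (w : ↥P) - ⟨ξ₀, T.mem⟩ ^ (p + 1) := rfl
  rw [e, map_sub, map_pow, map_natCast] at h0
  exact sub_eq_zero.mp h0

/-- The eigenvalue relation of the leading coefficients under `τ₀`. -/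
theorem lamFun_tau (S : Ctx rb p P ϖ lam) (T : Tame p P ϖ τ₀ ξ₀ w) {j : ℕ} (hv : Valid p j)
    {c : ↥(P.decompositionSubgroup ℚ) → Mat2 k} (hc : c ∈ LSS rb P p) (f : Mat2 k →ₗ[k] k)
    (mf : k) (hf : ∀ X, f (rb τ₀⁻¹ * X * rb τ₀) = mf * f X)
    (h : Lev P p ϖ lam j (dcomp f c)) (t : k) :
    lamFun h ((w : k) * mf * t) = T.theta ^ j * lamFun h t := by
  have h1 := lamFun_conj S hv h τ₀ T.decomp w T.hw ξ₀ T.mem T.hτ₀ϖ mf
    (fun σ hσ hσϖ => by rw [dcomp_conj S hc f τ₀ T.decomp σ hσ hσϖ, hf, dcomp_apply]) 1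
    (fun x hx => by rw [pow_one]; exact Loc.Basic.inertiaRes P τ₀ T.hτ₀ x hx) t
  rw [pow_one] at h1
  exact h1

/-! ### The diagonal family: every level passes -/

theorem pass_h (S : Ctx rb p P ϖ lam) (T : Tame p P ϖ τ₀ ξ₀ w) (f : Mat2 k →ₗ[k] k)
    (hf : ∀ X, f (rb τ₀⁻¹ * X * rb τ₀) = f X) {j : ℕ} (hv : Valid p j) :
    Pass rb p P ϖ lam f j := by
  intro c hc h
  refine lev_succ_of_lamFun_eq_zero S h fun t => ?_
  have e1 := lamFun_tau S T hv hc f 1 (fun X => by rw [hf, one_mul]) h t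
  have e2 := lamFun_natCast_mul S hv h w t
  rw [mul_one] at e1
  rw [e1, T.natCast_w S.hp2 S.hP S.hϖ] at e2
  by_contra hne
  have e3 : T.theta ^ j = T.theta ^ (p + 1) := mul_right_cancel₀ hne e2
  exact Arith.window_not_modEq_succ S.three_le hv.1 hv.2.1 (T.theta_pow_eq S.hP e3)

/-- The diagonal coordinate of a cocycle of `LSS` vanishes on `G_F`. -/
theorem h_zero (S : Ctx rb p P ϖ lam) (T : Tame p P ϖ τ₀ ξ₀ w) (f : Mat2 k →ₗ[k] k)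
    (hf : ∀ X, f (rb τ₀⁻¹ * X * rb τ₀) = f X) {c : ↥(P.decompositionSubgroup ℚ) → Mat2 k}
    (hc : c ∈ LSS rb P p) (σ : ↥(P.decompositionSubgroup ℚ))
    (hσ : (σ : GQ) ∈ P.inertiaSubgroupIn ℚ) (hσϖ : (σ : GQ) ϖ = ϖ) : f (c σ) = 0 :=
  eq_zero_of_lev_top S (lev_top_of_pass S f hc (p ^ 2 - 2) le_rfl (by omega)
    (fun i _ hv => pass_h S T f hf hv) (lev_base S hc f)) σ hσ hσϖ

/-! ### The off-diagonal family -/

theorem exists_eigen_of_not_pass (S : Ctx rb p P ϖ lam) (f : Mat2 k →ₗ[k] k) {j : ℕ}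
    (hnp : ¬ Pass rb p P ϖ lam f j) :
    ∃ (c : ↥(P.decompositionSubgroup ℚ) → Mat2 k) (_ : c ∈ LSS rb P p)
      (h : Lev P p ϖ lam j (dcomp f c)), ∃ t, lamFun h t ≠ 0 := by
  unfold Pass at hnp
  push Not at hnp
  obtain ⟨c, hc, h, hn⟩ := hnp
  refine ⟨c, hc, h, ?_⟩
  by_contra hall
  push Not at hall
  exact hn (lev_succ_of_lamFun_eq_zero S h hall)

theorem theta_pow_ne (S : Ctx rb p P ϖ lam) (T : Tame p P ϖ τ₀ ξ₀ w) (f : Mat2 k →ₗ[k] k)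
    (mf : k) (hf : ∀ X, f (rb τ₀⁻¹ * X * rb τ₀) = mf * f X) (hm1 : (w : k) * mf ≠ 1) {j : ℕ}
    (hv : Valid p j) (hnp : ¬ Pass rb p P ϖ lam f j) : (T.theta ^ j) ^ p ≠ T.theta ^ j := by
  intro heq
  rw [← pow_mul] at heq
  have h1 : p * j ≡ j [MOD p ^ 2 - 1] := by
    have := T.theta_pow_eq S.hP heq
    rwa [mul_comm] at this
  have hj := Arith.window_fixed S.three_le hv.1 hv.2.1 h1
  obtain ⟨c, hc, h, t, ht⟩ := exists_eigen_of_not_pass S f hnp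
  apply ht
  have hth : T.theta ^ j = 1 := by rw [hj, T.theta_pow_card]
  have h2 : ∀ t', lamFun h (((w : k) * mf - 1) * t') = 0 := by
    intro t'
    have e1 := lamFun_tau S T hv hc f mf hf h t'
    rw [hth, one_mul] at e1
    have e2 := lamFun_add S hv h (((w : k) * mf - 1) * t') t'
    have e3 : ((w : k) * mf - 1) * t' + t' = (w : k) * mf * t' := by ring
    rw [e3, e1] at e2
    exact add_eq_right.mp e2.symm
  have h3 := h2 (((w : k) * mf - 1)⁻¹ * t)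
  rwa [mul_inv_cancel_left₀ (sub_ne_zero.mpr hm1)] at h3

theorem not_pass_unique (S : Ctx rb p P ϖ lam) (T : Tame p P ϖ τ₀ ξ₀ w) (f : Mat2 k →ₗ[k] k)
    (mf : k) (hf : ∀ X, f (rb τ₀⁻¹ * X * rb τ₀) = mf * f X) (hm1 : (w : k) * mf ≠ 1)
    (hm2 : ((w : k) * mf) ^ (p ^ 2) = (w : k) * mf) {j j' : ℕ}
    (hv : Valid p j) (hv' : Valid p j') (hnp : ¬ Pass rb p P ϖ lam f j)
    (hnp' : ¬ Pass rb p P ϖ lam f j') : j' = j := by
  have hp : p.Prime := Fact.out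
  have : CharP k p := (CharP.charP_iff_prime_eq_zero hp).mpr S.hpk
  have : CharP (ResidueField ↥P) p := Away.charP_residueField_of_liesOverPrime P hp S.hP
  obtain ⟨c, hc, h, t, ht⟩ := exists_eigen_of_not_pass S f hnp
  obtain ⟨c', hc', h', t', ht'⟩ := exists_eigen_of_not_pass S f hnp'
  have key := theta_eq_or_eq_pow p ((w : k) * mf) hm2 (T.theta ^ j) (T.theta ^ j')
    (theta_pow_ne S T f mf hf hm1 hv hnp) (lamFun h) (lamFun h')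
    (lamFun_add S hv h) (lamFun_add S hv' h')
    (lamFun_tau S T hv hc f mf hf h) (lamFun_tau S T hv' hc' f mf hf h') ⟨t, ht⟩ ⟨t', ht'⟩
  refine Arith.window_unique S.three_le hv.1 hv.2.1 hv'.1 hv'.2.1 hv.2.2 hv'.2.2 ?_
  rcases key with key | key
  · exact Or.inl (T.theta_pow_eq S.hP key)
  · right
    rw [← pow_mul, mul_comm] at key
    exact T.theta_pow_eq S.hP key

/-- The square of a Frobenius element: it acts on the residue field by `x ↦ x ^ (p²)` and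
conjugation by `rb φ₂` does not change the coordinate `f`. -/
structure Frob2 (rb : GQ →* Mat2 k) (p : ℕ) (P : ValuationSubring Qb) (ϖ : Qb)
    (f : Mat2 k →ₗ[k] k) (φ₂ : GQ) (ξ₂ : Qb) (w₂ : ℕ) : Prop where
  hφ₂ : φ₂ ∈ P.decompositionSubgroup ℚ
  hξ₂ : ξ₂ ∈ P
  hφ₂ϖ : φ₂ ϖ = ξ₂ * ϖ
  hw₂ : ∀ μ : Qb, μ ^ p = 1 → φ₂ μ = μ ^ w₂
  hw₂k : (w₂ : k) ≠ 0
  hN : ∀ x ∈ P, φ₂ x - x ^ (p ^ 2) ∈ P.nonunits
  hf₂ : ∀ X, f (rb φ₂⁻¹ * X * rb φ₂) = f X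

/-- For two cocycles of `LSS` a nontrivial combination has the `f`-coordinate of top level. -/
theorem exists_comb_lev_top [Finite k] (S : Ctx rb p P ϖ lam) (T : Tame p P ϖ τ₀ ξ₀ w)
    (f : Mat2 k →ₗ[k] k) (mf : k) (hf : ∀ X, f (rb τ₀⁻¹ * X * rb τ₀) = mf * f X)
    (hm1 : (w : k) * mf ≠ 1) (hm2 : ((w : k) * mf) ^ (p ^ 2) = (w : k) * mf)
    {φ₂ : GQ} {ξ₂ : Qb} {w₂ : ℕ} (F : Frob2 rb p P ϖ f φ₂ ξ₂ w₂)
    {c₁ c₂ : ↥(P.decompositionSubgroup ℚ) → Mat2 k} (hc₁ : c₁ ∈ LSS rb P p)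
    (hc₂ : c₂ ∈ LSS rb P p) :
    ∃ a₁ a₂ : k, (a₁ ≠ 0 ∨ a₂ ≠ 0) ∧
      Lev P p ϖ lam (p ^ 2 + p + 1) (dcomp f (a₁ • c₁ + a₂ • c₂)) := by
  have hp : p.Prime := Fact.out
  have hp3 := S.three_le
  have : CharP k p := (CharP.charP_iff_prime_eq_zero hp).mpr S.hpk
  have : CharP (ResidueField ↥P) p := Away.charP_residueField_of_liesOverPrime P hp S.hP
  by_cases hall : ∀ j, Valid p j → Pass rb p P ϖ lam f j
  · refine ⟨1, 0, Or.inl one_ne_zero, ?_⟩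
    rw [one_smul, zero_smul, add_zero]
    exact lev_top_of_pass S f hc₁ (p ^ 2 - 2) le_rfl (by omega) (fun i _ hv => hall i hv)
      (lev_base S hc₁ f)
  · push Not at hall
    obtain ⟨j₀, hv₀, hnp₀⟩ := hall
    have hothers : ∀ i, Valid p i → i ≠ j₀ → Pass rb p P ϖ lam f i := by
      intro i hv hne
      by_contra hnp
      exact hne (not_pass_unique S T f mf hf hm1 hm2 hv₀ hv hnp₀ hnp)
    have hj₀1 := hv₀.1
    have hj₀2 := hv₀.2.1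
    have hreach : ∀ c ∈ LSS rb P p, Lev P p ϖ lam j₀ (dcomp f c) := by
      intro c hc
      refine reach f hc (p ^ 2 - 2) j₀ hv₀.1 (fun i hi hi' => ?_) (lev_base S hc f)
      by_cases hd : p ∣ i
      · exact pass_of_dvd S f hi (by omega) hd
      · exact hothers i ⟨hi, by omega, hd⟩ (ne_of_lt hi')
    have hW : ∀ c ∈ LSS rb P p, ∀ h : Lev P p ϖ lam j₀ (dcomp f c),
        (∀ s t, lamFun h (s + t) = lamFun h s + lamFun h t) ∧
        (∀ t, lamFun h ((w : k) * mf * t) = T.theta ^ j₀ * lamFun h t) ∧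
        ∀ t, lamFun h ((w₂ : k) * t) =
          residue ↥P ⟨ξ₂, F.hξ₂⟩ ^ j₀ * lamFun h t ^ (p ^ 2) := by
      intro c hc h
      refine ⟨lamFun_add S hv₀ h, lamFun_tau S T hv₀ hc f mf hf h, fun t => ?_⟩
      have h1 := lamFun_conj S hv₀ h φ₂ F.hφ₂ w₂ F.hw₂ ξ₂ F.hξ₂ F.hφ₂ϖ 1
        (fun σ hσ hσϖ => by
          rw [dcomp_conj S hc f φ₂ F.hφ₂ σ hσ hσϖ, F.hf₂, dcomp_apply, one_mul])
        (p ^ 2) F.hN t
      rwa [mul_one] at h1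
    have h₁ := hreach c₁ hc₁
    have h₂ := hreach c₂ hc₂
    obtain ⟨a₁, a₂, hne, hcomb⟩ := exists_comb_eq_zero p ((w : k) * mf) (w₂ : k) F.hw₂k
      (T.theta ^ j₀) (residue ↥P ⟨ξ₂, F.hξ₂⟩ ^ j₀)
      (theta_pow_ne S T f mf hf hm1 hv₀ hnp₀) (lamFun h₁) (lamFun h₂)
      (hW c₁ hc₁ h₁) (hW c₂ hc₂ h₂)
    refine ⟨a₁, a₂, hne, ?_⟩
    have hc' : a₁ • c₁ + a₂ • c₂ ∈ LSS rb P p :=
      add_mem (Submodule.smul_mem _ a₁ hc₁) (Submodule.smul_mem _ a₂ hc₂)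
    have hlev' : Lev P p ϖ lam (j₀ + 1) (dcomp f (a₁ • c₁ + a₂ • c₂)) := by
      rw [dcomp_add, dcomp_smul, dcomp_smul]
      refine lev_succ_of_isLam_zero S.hFV S.hP S.hϖ S.hpk fun t => ?_
      have e1 : IsLam P p ϖ lam j₀ (a₁ • dcomp f c₁) t (lamFun h₁ (t * a₁)) :=
        (isLam_smul_iff j₀ a₁ t _).mpr (isLam_lamFun h₁ _)
      have e2 : IsLam P p ϖ lam j₀ (a₂ • dcomp f c₂) t (lamFun h₂ (t * a₂)) :=
        (isLam_smul_iff j₀ a₂ t _).mpr (isLam_lamFun h₂ _)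
      have e3 := isLam_add_d S.hP S.hϖ (hv₀.one_le hp3) e1 e2
      have e4 : lamFun h₁ (t * a₁) + lamFun h₂ (t * a₂) = 0 := by
        rw [mul_comm t a₁, mul_comm t a₂]
        exact hcomb t
      rwa [e4] at e3
    exact lev_top_of_pass S f hc' (j₀ + 1) (by omega) (by omega)
      (fun i hi hv => hothers i hv (by omega)) hlev'

end Fermat.Agent.TW.Flat.SS
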