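/-
TW / FLAT — task 368 (FLAT-SS-PAIRS), helper32.  Pure linear algebra (Mathlib only).

If any two elements of `L` are linearly dependent modulo `B` over the finite field `k`, then
`L ⊔ B` is finite with at most `#k · #B` elements.  Consumer: helper41's `TW/Flat/SSCount.lean`.
-/
import Mathlib

set_option autoImplicit false

namespace Fermat.Agent.TW.Flat.SS

/-- **Pairwise dependence modulo `B` bounds `L ⊔ B`.** -/
theorem card_sup_le_of_pairs {k V : Type} [Field k] [Finite k] [AddCommGroup V] [Module k V]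
    (L B : Submodule k V) [Finite ↥B]
    (h : ∀ c₁ ∈ L, ∀ c₂ ∈ L, ∃ a₁ a₂ : k, (a₁ ≠ 0 ∨ a₂ ≠ 0) ∧ a₁ • c₁ + a₂ • c₂ ∈ B) :
    Finite ↥(L ⊔ B) ∧ Nat.card ↥(L ⊔ B) ≤ Nat.card k * Nat.card ↥B := by
  classical
  by_cases hLB : L ≤ B
  · have hsup : L ⊔ B = B := sup_eq_right.2 hLB
    rw [hsup]
    refine ⟨inferInstance, ?_⟩
    exact Nat.le_mul_of_pos_left _ Nat.card_pos
  · obtain ⟨c₀, hc₀L, hc₀B⟩ := SetLike.not_le_iff_exists.1 hLB
    let f : k × ↥B → V := fun x => x.1 • c₀ + (x.2 : V)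
    have hsub : ((L ⊔ B : Submodule k V) : Set V) ⊆ Set.range f := by
      intro v hv
      obtain ⟨c, hc, b, hb, rfl⟩ := Submodule.mem_sup.1 hv
      obtain ⟨a₁, a₂, hne, hmem⟩ := h c₀ hc₀L c hc
      have ha₂ : a₂ ≠ 0 := by
        rintro rfl
        have ha₁ : a₁ ≠ 0 := by
          rcases hne with h1 | h1
          · exact h1
          · exact absurd rfl h1
        rw [zero_smul, add_zero] at hmem
        have : c₀ ∈ B := by
          have := B.smul_mem a₁⁻¹ hmem
          rwa [smul_smul, inv_mul_cancel₀ ha₁, one_smul] at this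
        exact hc₀B this
      -- `c = (-(a₂⁻¹ * a₁)) • c₀ + a₂⁻¹ • (a₁ • c₀ + a₂ • c)`
      have hb' : a₂⁻¹ • (a₁ • c₀ + a₂ • c) + b ∈ B := B.add_mem (B.smul_mem _ hmem) hb
      refine ⟨(-(a₂⁻¹ * a₁), ⟨_, hb'⟩), ?_⟩
      simp only [f]
      rw [smul_add, smul_smul, smul_smul, inv_mul_cancel₀ ha₂, one_smul, neg_smul]
      abel
    have hfin : (Set.range f).Finite := Set.finite_range f
    have hfin' : ((L ⊔ B : Submodule k V) : Set V).Finite := hfin.subset hsub
    have hF : Finite ↥(L ⊔ B) := hfin'.to_subtype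
    refine ⟨hF, ?_⟩
    calc Nat.card ↥(L ⊔ B) = Nat.card (((L ⊔ B : Submodule k V) : Set V)) := rfl
      _ ≤ Nat.card (Set.range f) := Nat.card_mono hfin hsub
      _ ≤ Nat.card (k × ↥B) :=
        Nat.card_le_card_of_surjective (Set.rangeFactorization f) Set.rangeFactorization_surjective
      _ = Nat.card k * Nat.card ↥B := Nat.card_prod k ↥B

end Fermat.Agent.TW.Flat.SS
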