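/-
TW-FLAT, row 335 (FLAT-SS-COUNT), sub-row 366 FLAT-SS-EIGEN, step (S1).

`P` is a valuation subring of `Qb` over `p`, `D ⊇ I` its decomposition and inertia groups,
`ϖ ^ (p² − 1) = −p`, `G_F = {σ ∈ I | σ ϖ = ϖ}`.  In the irreducible case (`rb|D` has no stable
line) `rb` is trivial on `G_F` (`Loc.SSStruct`), so `rb(I)` is generated by `g₀ = rb τ₀` for any
`τ₀ ∈ I` with `τ₀ ϖ = ξ₀ ϖ`, `ξ₀` a primitive `(p² − 1)`-th root of unity, and

* `exists_eigen_structure` : in a suitable basis `rb τ₀ = diag(a₁, a₂)` with `a₁ ≠ a₂`,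
  `a₂ = a₁ ^ p`, `a₁ = a₂ ^ p`, and `rb φ` is antidiagonal for a Frobenius element `φ`;
* `cyclo_exponent_residue` : if `τ ∈ I` acts on the `p`-th roots of unity by `μ ↦ μ ^ w` and
  `τ ϖ = ξ ϖ`, then `w ≡ ξ ^ (p + 1)` modulo the maximal ideal of `P`.

The linear algebra is in the namespace `Eigen` (`Eigen.eigen_structure_aux`).
-/
import Mathlib
import Fermat.Agent.TW.Flat.Local.Basic
import Fermat.Agent.TW.Flat.SS.Levels
import Fermat.Agent.TW.Flat.SS.ResB1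
import Fermat.Agent.TW.Local.FrobGen

set_option autoImplicit false

namespace Fermat.Agent.TW.Flat.SS

open Fermat.Agent.S53 Fermat.Agent.TW Fermat.Agent.TW.Flat

local notation "Qb" => AlgebraicClosure ℚ

namespace Eigen

variable {k : Type} [Field k]

/-! ### Linear algebra of `2 × 2` matrices -/

/-- Powers act on an eigenvector by powers of the eigenvalue. -/
theorem pow_mulVec_eq (A : Mat2 k) (v : Fin 2 → k) (a : k) (h : A.mulVec v = a • v) (n : ℕ) :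
    (A ^ n).mulVec v = a ^ n • v := by
  induction n with
  | zero => simp
  | succ n ih =>
    rw [pow_succ, ← Matrix.mulVec_mulVec, h, Matrix.mulVec_smul, ih, smul_smul, pow_succ, mul_comm]

/-- A root of a split characteristic polynomial is an eigenvalue. -/
theorem det_sub_eq_zero_of_charpoly (A : Mat2 k) (α β : k)
    (h : A.charpoly = (Polynomial.X - Polynomial.C α) * (Polynomial.X - Polynomial.C β)) :
    (A - α • (1 : Mat2 k)).det = 0 := by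
  have h1 := congrArg (Polynomial.eval α) h
  rw [Matrix.charpoly_fin_two] at h1
  simp only [Polynomial.eval_mul, Polynomial.eval_sub, Polynomial.eval_X, Polynomial.eval_C,
    sub_self, zero_mul, Polynomial.eval_add, Polynomial.eval_pow] at h1
  rw [Matrix.det_fin_two]
  simp only [Matrix.sub_apply, Matrix.smul_apply, Matrix.one_apply_eq, smul_eq_mul, mul_one,
    Matrix.one_apply_ne (show (0 : Fin 2) ≠ 1 by decide),
    Matrix.one_apply_ne (show (1 : Fin 2) ≠ 0 by decide), mul_zero, sub_zero]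
  rw [Matrix.trace_fin_two, Matrix.det_fin_two] at h1
  linear_combination h1

/-- An eigenvector for a root of a split characteristic polynomial. -/
theorem exists_eigenvector (A : Mat2 k) (α β : k)
    (h : A.charpoly = (Polynomial.X - Polynomial.C α) * (Polynomial.X - Polynomial.C β)) :
    ∃ v : Fin 2 → k, v ≠ 0 ∧ A.mulVec v = α • v := by
  obtain ⟨u, hu, hu0⟩ :=
    Matrix.exists_mulVec_eq_zero_iff.mpr (det_sub_eq_zero_of_charpoly A α β h)
  refine ⟨u, hu, ?_⟩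
  rw [Matrix.sub_mulVec, Matrix.smul_mulVec, Matrix.one_mulVec, sub_eq_zero] at hu0
  exact hu0

/-- Powers of a scalar plus a square-zero matrix. -/
theorem smul_one_add_pow (N : Mat2 k) (hNN : N * N = 0) (α : k) (n : ℕ) :
    (α • (1 : Mat2 k) + N) ^ (n + 1) =
      α ^ (n + 1) • (1 : Mat2 k) + (((n + 1 : ℕ) : k) * α ^ n) • N := by
  induction n with
  | zero => simp
  | succ n ih =>
    rw [pow_succ, ih]
    simp only [add_mul, mul_add, Matrix.smul_mul, Matrix.mul_smul, Matrix.one_mul, Matrix.mul_one,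
      hNN, smul_zero, add_zero, smul_smul]
    push_cast
    module

/-- A matrix of finite order prime to the characteristic with a double eigenvalue is scalar. -/
theorem scalar_of_double (A : Mat2 k) (α : k)
    (h : A.charpoly = (Polynomial.X - Polynomial.C α) * (Polynomial.X - Polynomial.C α))
    (e : ℕ) (he : (e : k) ≠ 0) (hA : A ^ e = 1) : A = α • (1 : Mat2 k) := by
  obtain ⟨m, rfl⟩ : ∃ m, e = m + 1 := by
    refine ⟨e - 1, (Nat.sub_add_cancel (Nat.pos_of_ne_zero ?_)).symm⟩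
    rintro rfl
    exact he Nat.cast_zero
  have hNN : (A - α • (1 : Mat2 k)) * (A - α • (1 : Mat2 k)) = 0 := by
    have h1 := Matrix.aeval_self_charpoly A
    rw [h] at h1
    simpa [Algebra.algebraMap_eq_smul_one] using h1
  have hAN : A = α • (1 : Mat2 k) + (A - α • (1 : Mat2 k)) := by abel
  have hpow := smul_one_add_pow (A - α • (1 : Mat2 k)) hNN α m
  rw [← hAN, hA] at hpow
  set N : Mat2 k := A - α • (1 : Mat2 k) with hN
  set c : k := ((m + 1 : ℕ) : k) * α ^ m with hc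
  have h2 : (1 - α ^ (m + 1)) • (1 : Mat2 k) = c • N := by
    rw [sub_smul, one_smul]
    exact sub_eq_iff_eq_add'.mpr hpow
  have h3 : ((1 - α ^ (m + 1)) * (1 - α ^ (m + 1))) • (1 : Mat2 k) = 0 := by
    have : ((1 - α ^ (m + 1)) • (1 : Mat2 k)) * ((1 - α ^ (m + 1)) • (1 : Mat2 k)) =
        (c • N) * (c • N) := by rw [h2]
    rw [Matrix.smul_mul, Matrix.mul_smul, Matrix.smul_mul, Matrix.mul_smul, hNN, smul_zero,
      smul_zero, Matrix.one_mul, smul_smul] at this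
    exact this
  have h4 : α ^ (m + 1) = 1 := by
    have h5 := congrFun (congrFun h3 0) 0
    simp only [Matrix.smul_apply, Matrix.one_apply_eq, smul_eq_mul, mul_one,
      Matrix.zero_apply] at h5
    have h6 : 1 - α ^ (m + 1) = 0 := mul_self_eq_zero.mp h5
    exact (sub_eq_zero.mp h6).symm
  have hα0 : α ≠ 0 := by
    rintro rfl
    rw [zero_pow (Nat.succ_ne_zero m)] at h4
    exact zero_ne_one h4
  have hc0 : c ≠ 0 := mul_ne_zero he (pow_ne_zero m hα0)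
  have hN0 : N = 0 := by
    rw [h4, sub_self, zero_smul] at h2
    exact (smul_eq_zero.mp h2.symm).resolve_left hc0
  exact sub_eq_zero.mp hN0

/-- **The eigen-structure, linear algebra form.**  `g` of order prime to the characteristic,
`f g = g ^ p f`, split characteristic polynomials, no common eigenvector: in a suitable basis `g`
is diagonal with distinct eigenvalues exchanged by `x ↦ x ^ p` and `f` is antidiagonal. -/
theorem eigen_structure_aux (g f : Mat2 k) (p e : ℕ) (he : (e : k) ≠ 0) (hge : g ^ e = 1)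
    (hfg : f * g = g ^ p * f)
    (hg : ∃ α β : k,
      g.charpoly = (Polynomial.X - Polynomial.C α) * (Polynomial.X - Polynomial.C β))
    (hf : ∃ α β : k,
      f.charpoly = (Polynomial.X - Polynomial.C α) * (Polynomial.X - Polynomial.C β))
    (hno : ∀ v : Fin 2 → k, v ≠ 0 → (∃ a : k, g.mulVec v = a • v) →
      (∃ b : k, f.mulVec v = b • v) → False) :
    ∃ (Q Qi : Mat2 k) (a₁ a₂ b₁ b₂ : k), Q * Qi = 1 ∧ Qi * Q = 1 ∧ a₁ ≠ a₂ ∧ a₂ = a₁ ^ p ∧
      a₁ = a₂ ^ p ∧ b₁ ≠ 0 ∧ b₂ ≠ 0 ∧ Qi * g * Q = !![a₁, 0; 0, a₂] ∧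
      Qi * f * Q = !![0, b₁; b₂, 0] := by
  obtain ⟨α, β, hαβ⟩ := hg
  have hne : α ≠ β := by
    rintro rfl
    have hsc := scalar_of_double g α hαβ e he hge
    obtain ⟨γ, δ, hγδ⟩ := hf
    obtain ⟨v, hv, hfv⟩ := exists_eigenvector f γ δ hγδ
    exact hno v hv ⟨α, by rw [hsc, Matrix.smul_mulVec, Matrix.one_mulVec]⟩ ⟨γ, hfv⟩
  obtain ⟨v₁, hv₁, hgv₁⟩ := exists_eigenvector g α β hαβ
  obtain ⟨v₂, hv₂, hgv₂⟩ := exists_eigenvector g β α (by rw [hαβ, mul_comm])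
  have E1 : ∀ i, g i 0 * v₁ 0 + g i 1 * v₁ 1 = α * v₁ i := fun i => by
    have := congrFun hgv₁ i
    simpa [Matrix.mulVec, dotProduct, Fin.sum_univ_two] using this
  have E2 : ∀ i, g i 0 * v₂ 0 + g i 1 * v₂ 1 = β * v₂ i := fun i => by
    have := congrFun hgv₂ i
    simpa [Matrix.mulVec, dotProduct, Fin.sum_univ_two] using this
  set Q : Mat2 k := !![v₁ 0, v₂ 0; v₁ 1, v₂ 1] with hQ
  have hQ00 : Q 0 0 = v₁ 0 := rfl
  have hQ01 : Q 0 1 = v₂ 0 := rfl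
  have hQ10 : Q 1 0 = v₁ 1 := rfl
  have hQ11 : Q 1 1 = v₂ 1 := rfl
  have hQi0 : ∀ i, Q i 0 = v₁ i := fun i => by fin_cases i <;> rfl
  have hQi1 : ∀ i, Q i 1 = v₂ i := fun i => by fin_cases i <;> rfl
  have hdet : Q.det ≠ 0 := by
    intro hdet
    rw [Matrix.det_fin_two, hQ00, hQ01, hQ10, hQ11] at hdet
    -- `v₁ 0 * v₂ 1 - v₂ 0 * v₁ 1 = 0`
    have key : ∀ i j, v₁ i * v₂ j = v₂ i * v₁ j := by
      intro i j
      fin_cases i <;> fin_cases j
      · exact mul_comm _ _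
      · show v₁ 0 * v₂ 1 = v₂ 0 * v₁ 1
        linear_combination hdet
      · show v₁ 1 * v₂ 0 = v₂ 1 * v₁ 0
        linear_combination -hdet
      · exact mul_comm _ _
    have key2 : ∀ i i', β * (v₁ i' * v₂ i) = α * (v₂ i' * v₁ i) := by
      intro i i'
      linear_combination (-v₁ i') * E2 i + v₂ i' * E1 i + g i 0 * key i' 0 + g i 1 * key i' 1
    have hv₂' : ∀ i', v₁ i' ≠ 0 → v₂ = 0 := by
      intro i' hi'
      have h0 : v₂ i' = 0 := by
        have h1 : (β - α) * (v₁ i' * v₂ i') = 0 := by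
          linear_combination key2 i' i' - α * key i' i'
        rcases mul_eq_zero.mp h1 with h2 | h2
        · exact absurd (sub_eq_zero.mp h2).symm hne
        · exact (mul_eq_zero.mp h2).resolve_left hi'
      funext j
      have h1 := key i' j
      rw [h0, zero_mul] at h1
      exact (mul_eq_zero.mp h1).resolve_left hi'
    apply hv₁
    funext i'
    by_contra hi'
    exact hv₂ (hv₂' i' hi')
  have hQQi : Q * Q⁻¹ = 1 := Matrix.mul_nonsing_inv Q (isUnit_iff_ne_zero.mpr hdet)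
  have hQiQ : Q⁻¹ * Q = 1 := Matrix.nonsing_inv_mul Q (isUnit_iff_ne_zero.mpr hdet)
  set Dg : Mat2 k := !![α, 0; 0, β] with hDg
  have hgQ : g * Q = Q * Dg := by
    ext i j
    fin_cases j
    · show (g * Q) i 0 = (Q * Dg) i 0
      rw [Matrix.mul_apply, Matrix.mul_apply, Fin.sum_univ_two, Fin.sum_univ_two, hQ00, hQ10,
        hQi0, hQi1]
      simp only [hDg, Matrix.of_apply, Matrix.cons_val', Matrix.cons_val_zero,
        Matrix.cons_val_one, Matrix.cons_val_fin_one]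
      linear_combination E1 i
    · show (g * Q) i 1 = (Q * Dg) i 1
      rw [Matrix.mul_apply, Matrix.mul_apply, Fin.sum_univ_two, Fin.sum_univ_two, hQ01, hQ11,
        hQi0, hQi1]
      simp only [hDg, Matrix.of_apply, Matrix.cons_val', Matrix.cons_val_zero,
        Matrix.cons_val_one, Matrix.cons_val_fin_one]
      linear_combination E2 i
  have hQgQ : Q⁻¹ * g * Q = Dg := by rw [mul_assoc, hgQ, ← mul_assoc, hQiQ, one_mul]
  set M : Mat2 k := Q⁻¹ * f * Q with hM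
  have hfQ : f * Q = Q * M := by rw [hM, ← mul_assoc, ← mul_assoc, hQQi, one_mul]
  have hgpQ : ∀ n : ℕ, g ^ n * Q = Q * Dg ^ n := by
    intro n
    induction n with
    | zero => simp
    | succ n ih => rw [pow_succ, mul_assoc, hgQ, ← mul_assoc, ih, mul_assoc, ← pow_succ]
  have hMD : M * Dg = Dg ^ p * M := by
    calc M * Dg = Q⁻¹ * (f * (Q * Dg)) := by rw [hM]; simp only [mul_assoc]
      _ = Q⁻¹ * (f * g * Q) := by rw [← hgQ, mul_assoc]
      _ = Q⁻¹ * (g ^ p * (f * Q)) := by rw [hfg, mul_assoc]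
      _ = Q⁻¹ * (g ^ p * Q * M) := by rw [hfQ, mul_assoc]
      _ = Dg ^ p * M := by rw [hgpQ, mul_assoc Q, ← mul_assoc Q⁻¹, hQiQ, one_mul]
  have hDp : Dg ^ p = !![α ^ p, 0; 0, β ^ p] := by
    have hd : Dg = Matrix.diagonal ![α, β] := by
      ext i j
      fin_cases i <;> fin_cases j <;> simp [hDg]
    rw [hd, Matrix.diagonal_pow]
    ext i j
    fin_cases i <;> fin_cases j <;> simp
  rw [hDp] at hMD
  have h00 : M 0 0 * α = α ^ p * M 0 0 := by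
    have := congrFun (congrFun hMD 0) 0
    simpa [Matrix.mul_apply, Fin.sum_univ_two, hDg] using this
  have h01 : M 0 1 * β = α ^ p * M 0 1 := by
    have := congrFun (congrFun hMD 0) 1
    simpa [Matrix.mul_apply, Fin.sum_univ_two, hDg] using this
  have h10 : M 1 0 * α = β ^ p * M 1 0 := by
    have := congrFun (congrFun hMD 1) 0
    simpa [Matrix.mul_apply, Fin.sum_univ_two, hDg] using this
  have h11 : M 1 1 * β = β ^ p * M 1 1 := by
    have := congrFun (congrFun hMD 1) 1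
    simpa [Matrix.mul_apply, Fin.sum_univ_two, hDg] using this
  have hcol0 : ∀ i, f i 0 * v₁ 0 + f i 1 * v₁ 1 = v₁ i * M 0 0 + v₂ i * M 1 0 := by
    intro i
    have := congrFun (congrFun hfQ i) 0
    rw [Matrix.mul_apply, Matrix.mul_apply, Fin.sum_univ_two, Fin.sum_univ_two, hQ00, hQ10,
      hQi0, hQi1] at this
    exact this
  have hcol1 : ∀ i, f i 0 * v₂ 0 + f i 1 * v₂ 1 = v₁ i * M 0 1 + v₂ i * M 1 1 := by
    intro i
    have := congrFun (congrFun hfQ i) 1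
    rw [Matrix.mul_apply, Matrix.mul_apply, Fin.sum_univ_two, Fin.sum_univ_two, hQ01, hQ11,
      hQi0, hQi1] at this
    exact this
  have hM10 : M 1 0 ≠ 0 := by
    intro h0
    refine hno v₁ hv₁ ⟨α, hgv₁⟩ ⟨M 0 0, ?_⟩
    funext i
    have := hcol0 i
    rw [h0, mul_zero, add_zero] at this
    simp only [Matrix.mulVec, dotProduct, Fin.sum_univ_two, Pi.smul_apply, smul_eq_mul]
    linear_combination this
  have hM01 : M 0 1 ≠ 0 := by
    intro h0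
    refine hno v₂ hv₂ ⟨β, hgv₂⟩ ⟨M 1 1, ?_⟩
    funext i
    have := hcol1 i
    rw [h0, mul_zero, zero_add] at this
    simp only [Matrix.mulVec, dotProduct, Fin.sum_univ_two, Pi.smul_apply, smul_eq_mul]
    linear_combination this
  have ha2 : β = α ^ p := by
    have h1 : M 0 1 * (β - α ^ p) = 0 := by linear_combination h01
    exact sub_eq_zero.mp ((mul_eq_zero.mp h1).resolve_left hM01)
  have ha1 : α = β ^ p := by
    have h1 : M 1 0 * (α - β ^ p) = 0 := by linear_combination h10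
    exact sub_eq_zero.mp ((mul_eq_zero.mp h1).resolve_left hM10)
  have hM00 : M 0 0 = 0 := by
    have h1 : M 0 0 * (α - β) = 0 := by rw [ha2]; linear_combination h00
    exact (mul_eq_zero.mp h1).resolve_right (sub_ne_zero.mpr hne)
  have hM11 : M 1 1 = 0 := by
    have h1 : M 1 1 * (β - α) = 0 := by rw [ha1]; linear_combination h11
    exact (mul_eq_zero.mp h1).resolve_right (sub_ne_zero.mpr hne.symm)
  have hMeq : M = !![0, M 0 1; M 1 0, 0] := by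
    ext i j
    fin_cases i <;> fin_cases j
    · exact hM00
    · rfl
    · rfl
    · exact hM11
  exact ⟨Q, Q⁻¹, α, β, M 0 1, M 1 0, hQQi, hQiQ, hne, ha2, ha1, hM01, hM10, hQgQ, hMeq⟩

end Eigen

open Eigen

/-- **(S1) the eigen-structure of `rb` on the decomposition group in the irreducible case.** -/
theorem exists_eigen_structure {k : Type} [Field k] (hst : Loc.SSStruct k) (rb : GQ →* Mat2 k)
    (p : ℕ) [Fact p.Prime] (hp2 : p ≠ 2) (h : ResidualHyp rb p) (P : ValuationSubring Qb)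
    (hP : P.LiesOverPrime p) (hline : ¬ HasLine rb P) (ϖ : Qb)
    (hϖ : ϖ ^ (p ^ 2 - 1) = -(p : Qb))
    (τ₀ : GQ) (hτ₀ : τ₀ ∈ P.inertiaSubgroupIn ℚ) (ξ₀ : Qb)
    (hξ₀ : IsPrimitiveRoot ξ₀ (p ^ 2 - 1)) (hτ₀ϖ : τ₀ ϖ = ξ₀ * ϖ) (φ : GQ)
    (hφ : P.IsFrobeniusAt φ p) :
    ∃ (Q Qi : Mat2 k) (a₁ a₂ b₁ b₂ : k), Q * Qi = 1 ∧ Qi * Q = 1 ∧ a₁ ≠ a₂ ∧ a₂ = a₁ ^ p ∧
      a₁ = a₂ ^ p ∧ b₁ ≠ 0 ∧ b₂ ≠ 0 ∧ Qi * rb τ₀ * Q = !![a₁, 0; 0, a₂] ∧
      Qi * rb φ * Q = !![0, b₁; b₂, 0] := by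
  have hp : p.Prime := Fact.out
  have he0 : 0 < p ^ 2 - 1 := Levels.sq_sub_one_pos p
  have hpe : ¬ p ∣ p ^ 2 - 1 := Levels.not_dvd_sq_sub_one p
  have hϖ0 : ϖ ≠ 0 := Levels.varpi_ne_zero hϖ
  have hξe : ξ₀ ^ (p ^ 2 - 1) = 1 := hξ₀.pow_eq_one
  have hφD : φ ∈ P.decompositionSubgroup ℚ := hφ.mem_decompositionSubgroup
  -- inertia fixes the `(p² − 1)`-th roots of unity
  have hfix : ∀ σ ∈ P.inertiaSubgroupIn ℚ, ∀ ζ : Qb, ζ ^ (p ^ 2 - 1) = 1 → σ ζ = ζ :=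
    fun σ hσ ζ hζ => Fermat.Agent.PT.G.inertia_apply_root hp P hP hσ hpe hζ
  -- (1) powers of `τ₀`
  have h1a : ∀ n : ℕ, (τ₀ ^ n) ϖ = ξ₀ ^ n * ϖ := by
    intro n
    induction n with
    | zero => simp
    | succ n ih =>
      rw [pow_succ, AlgEquiv.mul_apply, hτ₀ϖ, map_mul, ih, hfix _ (pow_mem hτ₀ n) ξ₀ hξe,
        pow_succ]
      ring
  have hK : ∀ τ ∈ P.inertiaSubgroupIn ℚ, ∀ n : ℕ, τ ϖ = ξ₀ ^ n * ϖ → rb τ = rb τ₀ ^ n := by
    intro τ hτ n hτϖ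
    have hmem : (τ₀ ^ n)⁻¹ * τ ∈ P.inertiaSubgroupIn ℚ :=
      mul_mem (inv_mem (pow_mem hτ₀ n)) hτ
    have hfixϖ : ((τ₀ ^ n)⁻¹ * τ) ϖ = ϖ := by
      rw [AlgEquiv.mul_apply, hτϖ, ← h1a n]
      exact Away.gq_inv_apply_apply _ _
    have h1 := hst rb p hp2 h P hP hline ϖ hϖ _ hmem hfixϖ
    calc rb τ = rb (τ₀ ^ n * ((τ₀ ^ n)⁻¹ * τ)) := by rw [mul_inv_cancel_left]
      _ = rb τ₀ ^ n := by rw [map_mul, h1, mul_one, map_pow]
  have hge : rb τ₀ ^ (p ^ 2 - 1) = 1 := by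
    rw [← map_pow]
    exact hst rb p hp2 h P hP hline ϖ hϖ _ (pow_mem hτ₀ _) (by rw [h1a, hξe, one_mul])
  have h1b : ∀ τ ∈ P.inertiaSubgroupIn ℚ, ∃ n : ℕ, rb τ = rb τ₀ ^ n := by
    intro τ hτ
    have hr : (τ ϖ / ϖ) ^ (p ^ 2 - 1) = 1 := ResB1.ratio_pow p (p ^ 2 - 1) hpe ϖ hϖ τ
    have : NeZero (p ^ 2 - 1) := ⟨he0.ne'⟩
    obtain ⟨n, -, hn⟩ := hξ₀.eq_pow_of_pow_eq_one hr
    exact ⟨n, hK τ hτ n (by rw [hn, div_mul_cancel₀ _ hϖ0])⟩
  -- (2) conjugation by Frobenius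
  have h2 : rb φ * rb τ₀ = rb τ₀ ^ p * rb φ := by
    have hmem : φ * τ₀ * φ⁻¹ ∈ P.inertiaSubgroupIn ℚ :=
      Away.conj_mem_inertiaSubgroupIn P hφD hτ₀
    have hr : (φ⁻¹ ϖ / ϖ) ^ (p ^ 2 - 1) = 1 := ResB1.ratio_pow p (p ^ 2 - 1) hpe ϖ hϖ φ⁻¹
    have e1 : φ⁻¹ ϖ = (φ⁻¹ ϖ / ϖ) * ϖ := by rw [div_mul_cancel₀ _ hϖ0]
    have e2 : φ (φ⁻¹ ϖ) = ϖ := by
      show (φ * φ⁻¹) ϖ = ϖ
      rw [mul_inv_cancel]
      rfl
    have hconj : (φ * τ₀ * φ⁻¹) ϖ = ξ₀ ^ p * ϖ := by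
      have e3 : τ₀ (φ⁻¹ ϖ) = ξ₀ * φ⁻¹ ϖ := by
        conv_lhs => rw [e1]
        rw [map_mul, hfix τ₀ hτ₀ _ hr, hτ₀ϖ]
        conv_rhs => rw [e1]
        ring
      rw [AlgEquiv.mul_apply, AlgEquiv.mul_apply, e3, map_mul, e2,
        Fermat.Agent.PT.G.frobenius_apply_root hp P hP hφ hpe hξe]
    have h3 := hK _ hmem p hconj
    calc rb φ * rb τ₀ = rb (φ * τ₀ * φ⁻¹ * φ) := by rw [inv_mul_cancel_right, map_mul]
      _ = rb τ₀ ^ p * rb φ := by rw [map_mul, h3]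
  -- (3) procyclicity
  have h3 : ∀ σ ∈ P.decompositionSubgroup ℚ, ∃ j n : ℕ, rb σ = rb φ ^ j * rb τ₀ ^ n := by
    intro σ hσ
    obtain ⟨L, hLfin, hL⟩ := h.finiteLevel
    obtain ⟨j, τ, hτ, hjτ⟩ := Away.procyclicAt_of_isFrobeniusAt hp P hP φ hφ L hLfin σ hσ
    obtain ⟨n, hn⟩ := h1b τ hτ
    refine ⟨j, n, ?_⟩
    have h4 : rb ((φ ^ j * τ)⁻¹ * σ) = 1 := hL _ (fun y hy => by
      rw [AlgEquiv.mul_apply, hjτ y hy]
      exact Away.gq_inv_apply_apply _ _)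
    calc rb σ = rb ((φ ^ j * τ) * ((φ ^ j * τ)⁻¹ * σ)) := by rw [mul_inv_cancel_left]
      _ = rb φ ^ j * rb τ₀ ^ n := by rw [map_mul, h4, mul_one, map_mul, map_pow, hn]
  have hek : ((p ^ 2 - 1 : ℕ) : k) ≠ 0 :=
    ResB1.natCast_ne_zero_of_not_dvd p h.charP (p ^ 2 - 1) hpe
  -- no common eigenvector of `rb τ₀` and `rb φ`
  have hno : ∀ v : Fin 2 → k, v ≠ 0 → (∃ a : k, (rb τ₀).mulVec v = a • v) →
      (∃ b : k, (rb φ).mulVec v = b • v) → False := by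
    rintro v hv ⟨a, ha⟩ ⟨b, hb⟩
    refine hline ⟨v, hv, fun σ hσ => ?_⟩
    obtain ⟨j, n, hjn⟩ := h3 σ hσ
    refine ⟨b ^ j * a ^ n, ?_⟩
    rw [hjn, ← Matrix.mulVec_mulVec, pow_mulVec_eq _ v a ha n, Matrix.mulVec_smul,
      pow_mulVec_eq _ v b hb j, smul_smul, mul_comm]
  exact eigen_structure_aux (rb τ₀) (rb φ) p (p ^ 2 - 1) hek hge h2 (h.split τ₀) (h.split φ) hno

/-- **The cyclotomic exponent modulo the maximal ideal**: `w ≡ ξ ^ (p + 1)`. -/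
theorem cyclo_exponent_residue (p : ℕ) [Fact p.Prime] (hp2 : p ≠ 2) (P : ValuationSubring Qb)
    (hP : P.LiesOverPrime p) (ϖ : Qb) (hϖ : ϖ ^ (p ^ 2 - 1) = -(p : Qb)) (τ : GQ)
    (hτ : τ ∈ P.inertiaSubgroupIn ℚ) (ξ : Qb) (hτϖ : τ ϖ = ξ * ϖ) (w : ℕ)
    (hw : ∀ μ : Qb, μ ^ p = 1 → τ μ = μ ^ w) : (w : Qb) - ξ ^ (p + 1) ∈ P.nonunits := by
  have hp : p.Prime := Fact.out
  have hϖ0 : ϖ ≠ 0 := Levels.varpi_ne_zero hϖ
  have hp0 : (p : Qb) ≠ 0 := by exact_mod_cast hp.ne_zero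
  have : NeZero (p : ℚ) := ⟨by exact_mod_cast hp.ne_zero⟩
  have : NeZero p := ⟨hp.ne_zero⟩
  obtain ⟨ζ, hζprim⟩ := HasEnoughRootsOfUnity.exists_primitiveRoot Qb p
  have hζ : ζ ^ p = 1 := hζprim.pow_eq_one
  have hζ1 : ζ ≠ 1 := hζprim.ne_one hp.one_lt
  have hz0 : ζ - 1 ≠ 0 := sub_ne_zero.mpr hζ1
  have hϖp : ϖ ^ (p + 1) ≠ 0 := pow_ne_zero _ hϖ0
  -- `η = (ζ − 1) / ϖ^(p+1)` is a unit
  obtain ⟨η, hη⟩ : ∃ η : Qb, η = (ζ - 1) / ϖ ^ (p + 1) := ⟨_, rfl⟩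
  have hη0 : η ≠ 0 := by rw [hη]; exact div_ne_zero hz0 hϖp
  have hpp : (p + 1) * (p - 1) = p ^ 2 - 1 := by
    obtain ⟨m, rfl⟩ : ∃ m, p = m + 1 := ⟨p - 1, (Nat.sub_add_cancel hp.pos).symm⟩
    have : (m + 1) ^ 2 = (m + 1 + 1) * m + 1 := by ring
    rw [Nat.add_sub_cancel, this, Nat.add_sub_cancel]
  have hηpow : η ^ (p - 1) = -((ζ - 1) ^ (p - 1) / p) := by
    rw [hη, div_pow, ← pow_mul, hpp, hϖ, div_neg]
  have hηval : P.valuation η = 1 := by
    have hu := Loc.Basic.zetaUnit p P hP ζ hζ hζ1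
    rw [Levels.isPUnit_iff] at hu
    have h1 : P.valuation η ^ (p - 1) = 1 := by rw [← map_pow, hηpow, Valuation.map_neg, hu]
    have hp1 : p - 1 ≠ 0 := by
      have := hp.two_le
      omega
    rcases lt_trichotomy (P.valuation η) 1 with h2 | h2 | h2
    · exact absurd h1 (ne_of_lt (pow_lt_one₀ zero_le h2 hp1))
    · exact h2
    · exact absurd h1 (ne_of_gt (one_lt_pow₀ h2 hp1))
  have hηP : η ∈ P := (P.valuation_le_one_iff η).mp hηval.le
  -- `ξ` is a unit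
  have hξe : ξ ^ (p ^ 2 - 1) = 1 := by
    have := ResB1.ratio_pow p (p ^ 2 - 1) (Levels.not_dvd_sq_sub_one p) ϖ hϖ τ
    rwa [hτϖ, mul_div_cancel_right₀ _ hϖ0] at this
  have hξval : P.valuation ξ = 1 :=
    Levels.val_le_one_of_pow_eq_one (Levels.sq_sub_one_pos p) hξe
  -- (F3)
  have hF3 := Loc.Basic.inertia_zeta_sub_one_div p P hP ζ hζ hζ1 τ w (hw ζ hζ)
  have hz : ζ - 1 = η * ϖ ^ (p + 1) := by rw [hη, div_mul_cancel₀ _ hϖp]
  have hτz : τ (ζ - 1) = τ η * (ξ * ϖ) ^ (p + 1) := by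
    rw [hz, map_mul, map_pow, hτϖ]
  have e5 : τ (ζ - 1) / (ζ - 1) - ξ ^ (p + 1) = ξ ^ (p + 1) * ((τ η - η) / η) := by
    rw [hτz, hz, mul_pow]
    field_simp
  have hres : P.valuation (τ η - η) < 1 :=
    P.mem_nonunits_iff.mp (Loc.Basic.inertiaRes P τ hτ η hηP)
  have h5 : P.valuation (τ (ζ - 1) / (ζ - 1) - ξ ^ (p + 1)) < 1 := by
    rw [e5, map_mul, map_pow, hξval, one_pow, one_mul, map_div₀, hηval, div_one]
    exact hres
  rw [P.mem_nonunits_iff]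
  have e6 : (w : Qb) - ξ ^ (p + 1) =
      (τ (ζ - 1) / (ζ - 1) - ξ ^ (p + 1)) - (τ (ζ - 1) / (ζ - 1) - (w : Qb)) := by ring
  rw [e6]
  exact lt_of_le_of_lt (Valuation.map_sub _ _ _) (max_lt h5 (P.mem_nonunits_iff.mp hF3))

end Fermat.Agent.TW.Flat.SS
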