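/-
TW-FLAT, row 351 (FLAT-SS-LEVELS), top half: the level calculus in `F = Qb^{G_F}`,
`G_F = {σ ∈ I | σ ϖ = ϖ}`, `ϖ ^ (p² − 1) = −p`.  All three are unconditional:

* `gfMu : GFMu` : `G_F` fixes the `p`-th roots of unity;
* `k5 : K5`   : `u ≡ 1 mod ϖ^(p²+p+1)`, `u` fixed by `G_F`, `z^p = u` ⟹ `z` fixed by `G_F`;
* `k4' : K4'` : `u ≡ 1 mod ϖ^(p²+p)` fixed by `G_F` ⟹ `u / y^p ≡ 1 mod ϖ^(p²+p+1)` for some
  `y ≠ 0` fixed by `G_F` (Artin–Schreier).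
-/
import Mathlib
import Fermat.Agent.TW.Flat.SS.Defs
import Fermat.Agent.TW.Flat.Local.Basic
import Fermat.Agent.TW.Flat.Local.Tame
import Fermat.Agent.TW.Flat.Local.CloseRoot
import Fermat.Agent.Lib.TeichLift
import Fermat.Agent.Lib.FinFlat.Conn
import Fermat.Agent.PT.LevelTwist

set_option autoImplicit false

namespace Fermat.Agent.TW.Flat.SS.LevelsTop

open Fermat.Agent.S53 Fermat.Agent.TW Fermat.Agent.Lib.FinFlat Fermat.Agent.TW.Flat ExtCitation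

local notation "Qb" => AlgebraicClosure ℚ

variable {p : ℕ} [Fact p.Prime] {P : ValuationSubring Qb}

theorem e_pos : 0 < p ^ 2 - 1 := by
  have hp : p.Prime := Fact.out
  have h2 := hp.two_le
  have : 4 ≤ p ^ 2 := by nlinarith
  omega

theorem not_dvd_e : ¬ p ∣ p ^ 2 - 1 := by
  have hp : p.Prime := Fact.out
  intro h
  have h1 : p ∣ p ^ 2 := dvd_pow_self p (by norm_num)
  have h2 : 1 ≤ p ^ 2 := Nat.one_le_pow _ _ hp.pos
  have h3 : p ∣ p ^ 2 - (p ^ 2 - 1) := Nat.dvd_sub h1 h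
  have h4 : p ^ 2 - (p ^ 2 - 1) = 1 := by omega
  rw [h4] at h3
  exact hp.one_lt.ne' (Nat.dvd_one.mp h3)

theorem varpi_ne_zero {ϖ : Qb} (hϖ : ϖ ^ (p ^ 2 - 1) = -(p : Qb)) : ϖ ≠ 0 := by
  rintro rfl
  rw [zero_pow (e_pos (p := p)).ne'] at hϖ
  have hp : p.Prime := Fact.out
  have h0 : (p : Qb) = 0 := by
    have := congrArg (fun z : Qb => -z) hϖ
    simpa using this.symm
  exact hp.ne_zero (by exact_mod_cast h0)

omit [Fact p.Prime] in
theorem varpi_mem_nonunits (hP : P.LiesOverPrime p) {ϖ : Qb}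
    (hϖ : ϖ ^ (p ^ 2 - 1) = -(p : Qb)) : ϖ ∈ P.nonunits := by
  rw [ValuationSubring.mem_nonunits_iff]
  by_contra hcon
  rw [not_lt] at hcon
  have h1 : 1 ≤ P.valuation ϖ ^ (p ^ 2 - 1) := one_le_pow₀ hcon
  rw [← map_pow, hϖ, Valuation.map_neg] at h1
  have h2 : P.valuation (p : Qb) < 1 := (ValuationSubring.mem_nonunits_iff _).1 hP
  exact absurd h2 (not_lt.mpr h1)

theorem pow_mem_nonunits {x : Qb} (hx : x ∈ P.nonunits) {n : ℕ} (hn : n ≠ 0) :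
    x ^ n ∈ P.nonunits := by
  obtain ⟨k, rfl⟩ := Nat.exists_eq_succ_of_ne_zero hn
  rw [pow_succ]
  exact nonunits_mul_mem_left (pow_mem (mem_of_mem_nonunits hx) k) hx

/-- A non-unit fixed by `G_F` is divisible by `ϖ`. -/
theorem div_varpi_mem (hP : P.LiesOverPrime p) {ϖ : Qb}
    (hϖ : ϖ ^ (p ^ 2 - 1) = -(p : Qb)) {d : Qb}
    (hd : ∀ σ ∈ P.inertiaSubgroupIn ℚ, σ ϖ = ϖ → σ d = d) (hdn : d ∈ P.nonunits) :
    d / ϖ ∈ P := by
  by_cases hd0 : d = 0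
  · rw [hd0, zero_div]; exact P.zero_mem
  obtain ⟨m, hm0, hm1, hm2⟩ := Loc.Tame.fVal p P hP (p ^ 2 - 1) e_pos not_dvd_e ϖ hϖ d hd0 hd
  have hϖ0 := varpi_ne_zero hϖ
  have hϖP := mem_of_mem_nonunits (varpi_mem_nonunits hP hϖ)
  have hm : 1 ≤ m := by
    by_contra hcon
    rw [not_le] at hcon
    have h1 : d / ϖ ^ m = d * ϖ ^ (-m).toNat := by
      have h : ϖ ^ m = (ϖ ^ (-m).toNat)⁻¹ := by
        rw [← zpow_natCast, Int.toNat_of_nonneg (by omega), zpow_neg, inv_inv]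
      rw [h, div_inv_eq_mul]
    have h2 : d / ϖ ^ m ∈ P.nonunits := by
      rw [h1]; exact nonunits_mul_mem_right hdn (pow_mem hϖP _)
    have h3 : (1 : Qb) ∈ P.nonunits := by
      have := nonunits_mul_mem_right h2 hm2
      rwa [mul_inv_cancel₀ hm0] at this
    exact one_notMem_nonunits P h3
  have h1 : d / ϖ = d / ϖ ^ m * ϖ ^ (m - 1).toNat := by
    have h : ϖ ^ m = ϖ ^ (m - 1).toNat * ϖ := by
      rw [← zpow_natCast, Int.toNat_of_nonneg (by omega), ← zpow_add_one₀ hϖ0, sub_add_cancel]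
    rw [h]; field_simp
  rw [h1]
  exact P.mul_mem _ _ hm1 (pow_mem hϖP _)

/-- The binomial expansion of `(1 + x)^q` to second order: `1 + q x + x^q + q x² s`. -/
theorem exists_one_add_pow_prime_eq {R : Type*} [CommRing R] (x : R) {q : ℕ} (hq : q.Prime) :
    ∃ s : R, (1 + x) ^ q = 1 + (q : R) * x + x ^ q + (q : R) * x ^ 2 * s := by
  obtain ⟨r, hr⟩ := exists_add_pow_prime_eq hq (1 : Polynomial ℤ) Polynomial.X
  have hr2 : (1 + Polynomial.X : Polynomial ℤ) ^ q =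
      1 + Polynomial.X ^ q + Polynomial.C (q : ℤ) * (Polynomial.X * r) := by
    rw [hr, ← Polynomial.C_eq_natCast]
    simp only [one_pow]
    ring
  have hr0 : r.coeff 0 = 1 := by
    have h : ((1 + Polynomial.X : Polynomial ℤ) ^ q).coeff 1 =
        (1 + Polynomial.X ^ q + Polynomial.C (q : ℤ) * (Polynomial.X * r)).coeff 1 := by
      rw [hr2]
    rw [Polynomial.coeff_one_add_X_pow, Polynomial.coeff_add, Polynomial.coeff_add,
      Polynomial.coeff_one, Polynomial.coeff_X_pow, if_neg (by norm_num),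
      if_neg (fun h1 : 1 = q => hq.one_lt.ne h1), zero_add, zero_add,
      Polynomial.coeff_C_mul, Polynomial.coeff_X_mul, Nat.choose_one_right] at h
    have hq0 : ((q : ℕ) : ℤ) ≠ 0 := by exact_mod_cast hq.ne_zero
    have h' : ((q : ℕ) : ℤ) * r.coeff 0 = (q : ℤ) * 1 := by rw [mul_one]; exact_mod_cast h.symm
    exact mul_left_cancel₀ hq0 h'
  obtain ⟨s, hs⟩ : Polynomial.X ∣ r - 1 := by
    rw [Polynomial.X_dvd_iff]; simp [hr0]
  have hr' : r = 1 + Polynomial.X * s := by rw [← hs]; ring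
  refine ⟨Polynomial.aeval x s, ?_⟩
  have h := congrArg (Polynomial.aeval x) hr
  rw [hr'] at h
  simp only [map_pow, map_add, map_one, Polynomial.aeval_X, map_mul, map_natCast] at h
  rw [h]; ring

/-- A root of `X^p − X − t`, `t ∈ P`, lies in `P`. -/
theorem mem_of_artinSchreier {t b : Qb} (ht : t ∈ P) {n : ℕ} (hn : 1 < n)
    (hb : b ^ n - b - t = 0) : b ∈ P := by
  by_contra hcon
  have hv : 1 < P.valuation b := by
    rw [← ValuationSubring.valuation_le_one_iff, not_le] at hcon; exact hcon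
  have h1 : b ^ n = b + t := by linear_combination hb
  have h2 : P.valuation b ^ n ≤ max (P.valuation b) (P.valuation t) := by
    rw [← map_pow, h1]; exact Valuation.map_add _ _ _
  have h3 : P.valuation t ≤ 1 := (ValuationSubring.valuation_le_one_iff _ _).2 ht
  rw [max_eq_left (h3.trans hv.le)] at h2
  exact absurd h2 (not_le.mpr (lt_self_pow₀ hv hn))

/-- Artin–Schreier modulo the maximal ideal, with an inertia-fixed solution. -/
theorem exists_artinSchreier (hP : P.LiesOverPrime p) (t : Qb) (ht : t ∈ P) :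
    ∃ b : Qb, b ∈ P ∧ (∀ σ ∈ P.inertiaSubgroupIn ℚ, σ b = b) ∧
      b ^ p - b - t ∈ P.nonunits := by
  have hp : p.Prime := Fact.out
  obtain ⟨b₀, hb₀⟩ : ∃ b₀ : Qb, b₀ ^ p - b₀ - t = 0 := by
    have hdeg : (Polynomial.X ^ p - (Polynomial.X + Polynomial.C t) : Polynomial Qb).degree
        ≠ 0 := by
      rw [Polynomial.degree_sub_eq_left_of_degree_lt, Polynomial.degree_X_pow]
      · exact_mod_cast hp.ne_zero
      · rw [Polynomial.degree_X_add_C, Polynomial.degree_X_pow]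
        exact_mod_cast hp.one_lt
    obtain ⟨b₀, hb₀⟩ := IsAlgClosed.exists_root _ hdeg
    refine ⟨b₀, ?_⟩
    have := hb₀
    simp only [Polynomial.IsRoot, Polynomial.eval_sub, Polynomial.eval_pow, Polynomial.eval_X,
      Polynomial.eval_add, Polynomial.eval_C] at this
    linear_combination this
  have hb₀P : b₀ ∈ P := mem_of_artinSchreier ht hp.one_lt hb₀
  obtain ⟨a, ha, hfix⟩ := Fermat.Agent.Lib.TeichLift.exists_inertia_fixed_lift_Qbar P hp hP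
    (IsLocalRing.residue P ⟨b₀, hb₀P⟩)
  have hd : (a : Qb) - b₀ ∈ P.nonunits := by
    have h1 : IsLocalRing.residue P (a - ⟨b₀, hb₀P⟩) = 0 := by rw [map_sub, ha, sub_self]
    rw [IsLocalRing.residue_eq_zero_iff] at h1
    exact ValuationSubring.mem_nonunits_iff_exists_mem_maximalIdeal.2
      ⟨P.sub_mem a.2 hb₀P, h1⟩
  refine ⟨a, a.2, hfix, ?_⟩
  have hgeom := geom_sum₂_mul (a : Qb) b₀ p
  have hc : (∑ i ∈ Finset.range p, (a : Qb) ^ i * b₀ ^ (p - 1 - i)) ∈ P :=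
    sum_mem fun i _ => P.mul_mem _ _ (pow_mem a.2 _) (pow_mem hb₀P _)
  have h : (a : Qb) ^ p - a - t =
      (∑ i ∈ Finset.range p, (a : Qb) ^ i * b₀ ^ (p - 1 - i)) * ((a : Qb) - b₀)
        - ((a : Qb) - b₀) := by
    rw [hgeom]; linear_combination hb₀
  rw [h]
  exact nonunits_sub_mem (nonunits_mul_mem_left hc hd) hd

/-- An integer in the maximal ideal is divisible by `p`. -/
theorem intCast_dvd_of_mem_nonunits (hP : P.LiesOverPrime p) {n : ℤ}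
    (hn : (n : Qb) ∈ P.nonunits) : (p : ℤ) ∣ n := by
  have hp : p.Prime := Fact.out
  by_contra hcon
  have hcop : IsCoprime (p : ℤ) n :=
    ((Nat.prime_iff_prime_int.mp hp).irreducible.coprime_iff_not_dvd).2 hcon
  obtain ⟨x, y, hxy⟩ := hcop
  have h1 : (x : Qb) * (p : Qb) + (y : Qb) * (n : Qb) = 1 := by
    have := congrArg (fun z : ℤ => (z : Qb)) hxy
    push_cast at this
    exact this
  have h2 : (1 : Qb) ∈ P.nonunits := by
    rw [← h1]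
    exact nonunits_add_mem (nonunits_mul_mem_left (intCast_mem P x) hP)
      (nonunits_mul_mem_left (intCast_mem P y) hn)
  exact one_notMem_nonunits P h2

/-- `G_F` fixes the `p`-th roots of unity: `ℚ_p^{nr}(ζ_p) = ℚ_p^{nr}((−p)^{1/(p−1)})`. -/
theorem apply_eq_of_pow_eq_one (hP : P.LiesOverPrime p) {ϖ : Qb}
    (hϖ : ϖ ^ (p ^ 2 - 1) = -(p : Qb)) {ζ : Qb} (hζ : ζ ^ p = 1) {σ : GQ}
    (hσ : σ ∈ P.inertiaSubgroupIn ℚ) (hσϖ : σ ϖ = ϖ) : σ ζ = ζ := by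
  have hp : p.Prime := Fact.out
  have h2 := hp.two_le
  by_cases hζ1 : ζ = 1
  · rw [hζ1, map_one]
  have hπ0 : ζ - 1 ≠ 0 := sub_ne_zero.mpr hζ1
  have hϖ0 := varpi_ne_zero hϖ
  have hp0 : (p : Qb) ≠ 0 := by exact_mod_cast hp.ne_zero
  have hϖ' : (ϖ ^ (p + 1)) ^ (p - 1) = -(p : Qb) := by
    rw [← pow_mul, ← hϖ]
    congr 1
    obtain ⟨k, rfl⟩ : ∃ k, p = k + 1 := ⟨p - 1, by omega⟩
    have : (k + 1) ^ 2 = (k + 1 + 1) * k + 1 := by ring
    rw [this]; simp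
  obtain ⟨w, hw⟩ : ∃ w, w = (ζ - 1) / ϖ ^ (p + 1) := ⟨_, rfl⟩
  have hwpow : w ^ (p - 1) = -((ζ - 1) ^ (p - 1) / p) := by
    rw [hw, div_pow, hϖ']; field_simp
  have hU := Loc.Basic.zetaUnit p P hP ζ hζ hζ1
  rw [Loc.Basic.isPUnit_iff_valuation_eq_one] at hU
  have hvw : P.valuation w = 1 := by
    have h1 : P.valuation w ^ (p - 1) = 1 := by
      rw [← map_pow, hwpow, Valuation.map_neg, hU]
    have hk : p - 1 ≠ 0 := by omega
    rcases lt_trichotomy (P.valuation w) 1 with h | h | h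
    · exact absurd h1 (pow_lt_one₀ zero_le h hk).ne
    · exact h
    · exact absurd h1 (one_lt_pow₀ h hk).ne'
  obtain ⟨hw0, hwP, hwinv⟩ := (Loc.Basic.isPUnit_iff_valuation_eq_one P w).2 hvw
  have h3 : σ w - w ∈ P.nonunits := Loc.Basic.inertiaRes P σ hσ w hwP
  have hϖp0 : ϖ ^ (p + 1) ≠ 0 := pow_ne_zero _ hϖ0
  have h4 : σ (ζ - 1) / (ζ - 1) - 1 = (σ w - w) * w⁻¹ := by
    rw [hw, map_div₀, map_pow, hσϖ]; field_simp
  have h5 : σ (ζ - 1) / (ζ - 1) - 1 ∈ P.nonunits := by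
    rw [h4]; exact nonunits_mul_mem_right h3 hwinv
  have hspec := Fermat.Agent.PT.Levels.apply_eq_pow_cycloExp p σ ζ hζ
  have h6 := Loc.Basic.inertia_zeta_sub_one_div p P hP ζ hζ hζ1 σ (cycloExp p σ) hspec
  have h7 : ((((cycloExp p σ : ℕ) : ℤ) - 1 : ℤ) : Qb) ∈ P.nonunits := by
    have : ((((cycloExp p σ : ℕ) : ℤ) - 1 : ℤ) : Qb) = (σ (ζ - 1) / (ζ - 1) - 1) -
        (σ (ζ - 1) / (ζ - 1) - (cycloExp p σ : Qb)) := by
      push_cast; ring
    rw [this]; exact nonunits_sub_mem h5 h6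
  obtain ⟨k, hk⟩ := intCast_dvd_of_mem_nonunits hP h7
  have hζ0 : ζ ≠ 0 := by
    rintro rfl
    rw [zero_pow hp.ne_zero] at hζ
    exact zero_ne_one hζ
  have h8 : ((cycloExp p σ : ℕ) : ℤ) = 1 + (p : ℤ) * k := by linarith
  rw [hspec, ← zpow_natCast, h8, zpow_add₀ hζ0, zpow_one, zpow_mul, zpow_natCast, hζ, one_zpow,
    mul_one]

/-- `G_F` fixes the `p`-th roots of unity. -/
theorem gfMu : GFMu := by
  intro p _ P _ hP ϖ hϖ ζ hζ σ hσ hσϖ
  exact apply_eq_of_pow_eq_one hP hϖ hζ hσ hσϖ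

/-- (K5) `u ≡ 1 mod ϖ^(p²+p+1)` fixed by `G_F`: every `p`-th root of `u` is fixed by `G_F`. -/
theorem k5 : K5 := by
  intro p _ P _ hP ϖ hϖ u z hu h hz
  have hp : p.Prime := Fact.out
  have h2 := hp.two_le
  have hϖ0 := varpi_ne_zero hϖ
  have hϖn := varpi_mem_nonunits hP hϖ
  have hϖP := mem_of_mem_nonunits hϖn
  have hϖ₀ := hϖ
  obtain ⟨e, he⟩ : ∃ e, p ^ 2 = e + 1 := ⟨p ^ 2 - 1, by
    have := Nat.one_le_pow 2 p hp.pos; omega⟩
  have he' : p ^ 2 - 1 = e := by omega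
  rw [he'] at hϖ
  rw [he] at h
  obtain ⟨k, hk⟩ : ∃ k, p = k + 1 := ⟨p - 1, by omega⟩
  have hk0 : k ≠ 0 := by omega
  -- `c = ϖ^(p+2)`
  have hc1 : (ϖ ^ (p + 2)) ^ (p - 1) = p * (-(ϖ ^ k)) := by
    have hexp : (p + 2) * (p - 1) = e + k := by
      have h3 : p - 1 = k := by omega
      rw [h3]
      have h4 : (k + 1) ^ 2 = e + 1 := by rw [← hk]; exact he
      nlinarith
    rw [← pow_mul, hexp, pow_add, hϖ]; ring
  have hc2 : u - 1 = p * ϖ ^ (p + 2) * (-((u - 1) / ϖ ^ (e + 1 + p + 1))) := by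
    have hpϖ : (p : Qb) = -ϖ ^ e := by rw [hϖ, neg_neg]
    rw [hpϖ]
    field_simp
    ring
  obtain ⟨ζ, hζ, -, hfix⟩ := Loc.Close.closeRoot p P hP (ϖ ^ (p + 2)) u z (pow_mem hϖP _)
    ⟨-(ϖ ^ k), nonunits_neg_mem (pow_mem_nonunits hϖn hk0), hc1⟩
    ⟨_, P.neg_mem _ h, hc2⟩ hz
  intro σ hσ hσϖ
  have hσD : σ ∈ P.decompositionSubgroup ℚ := Loc.Basic.inertia_le_decomp P hσ
  have h5 := hfix σ hσD (hu σ hσ hσϖ)
  have hζ0 : ζ ≠ 0 := by
    rintro rfl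
    rw [zero_pow hp.ne_zero] at hζ
    exact zero_ne_one hζ
  have h6 : σ ζ = ζ := apply_eq_of_pow_eq_one hP hϖ₀ hζ hσ hσϖ
  rw [map_mul, h6] at h5
  exact mul_left_cancel₀ hζ0 h5

/-- (K4') Artin–Schreier step at the level `p² + p`. -/
theorem k4' : K4' := by
  intro p _ P _ hP ϖ hϖ u hu h
  have hp : p.Prime := Fact.out
  have hϖ0 := varpi_ne_zero hϖ
  have hϖn := varpi_mem_nonunits hP hϖ
  have hϖP := mem_of_mem_nonunits hϖn
  have hdiv := fun {d : Qb} => div_varpi_mem (d := d) hP hϖ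
  obtain ⟨e, he⟩ : ∃ e, p ^ 2 = e + 1 := ⟨p ^ 2 - 1, by
    have := Nat.one_le_pow 2 p hp.pos; omega⟩
  have he' : p ^ 2 - 1 = e := by omega
  rw [he'] at hϖ
  rw [he] at h ⊢
  have hpϖ : (p : Qb) = -ϖ ^ e := by rw [hϖ, neg_neg]
  obtain ⟨t, ht⟩ : ∃ t, t = (u - 1) / ϖ ^ (e + 1 + p) := ⟨_, rfl⟩
  rw [← ht] at h
  have htF : ∀ σ ∈ P.inertiaSubgroupIn ℚ, σ ϖ = ϖ → σ t = t := by
    intro σ hσ hσϖ
    rw [ht, map_div₀, map_sub, map_pow, map_one, hu σ hσ hσϖ, hσϖ]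
  have hu' : u = 1 + t * ϖ ^ (e + 1 + p) := by
    rw [ht]; field_simp; ring
  obtain ⟨b, hbP, hbI, hbt⟩ := exists_artinSchreier hP t h
  have hxn : b * ϖ ^ (p + 1) ∈ P.nonunits :=
    nonunits_mul_mem_left hbP (pow_mem_nonunits hϖn (Nat.succ_ne_zero p))
  have hxP := mem_of_mem_nonunits hxn
  have hyP : 1 + b * ϖ ^ (p + 1) ∈ P := P.add_mem _ _ P.one_mem hxP
  have hyn : 1 + b * ϖ ^ (p + 1) ∉ P.nonunits := fun hcon => one_notMem_nonunits P (by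
    have := nonunits_sub_mem hcon hxn
    rwa [add_sub_cancel_right] at this)
  have hy0 : 1 + b * ϖ ^ (p + 1) ≠ 0 := fun h0 => hyn (h0 ▸ nonunits_zero_mem P)
  have hyinv : (1 + b * ϖ ^ (p + 1))⁻¹ ∈ P := inv_mem_of_notMem_nonunits hyP hyn
  refine ⟨1 + b * ϖ ^ (p + 1), hy0, ?_, ?_⟩
  · intro σ hσ hσϖ
    rw [map_add, map_one, map_mul, map_pow, hσϖ, hbI σ hσ]
  · obtain ⟨s, hs⟩ := exists_one_add_pow_prime_eq (⟨b * ϖ ^ (p + 1), hxP⟩ : P) hp
    have hs' : (1 + b * ϖ ^ (p + 1)) ^ p = 1 + (p : Qb) * (b * ϖ ^ (p + 1)) +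
        (b * ϖ ^ (p + 1)) ^ p + (p : Qb) * (b * ϖ ^ (p + 1)) ^ 2 * (s : Qb) := by
      have := congrArg (algebraMap P Qb) hs
      simpa [ValuationSubring.algebraMap_apply] using this
    have hpow : (ϖ ^ (p + 1)) ^ p = ϖ ^ (e + 1 + p) := by
      rw [← pow_mul]; congr 1; nlinarith [he]
    rw [mul_pow b (ϖ ^ (p + 1)) p, hpow] at hs'
    have hdF : ∀ σ ∈ P.inertiaSubgroupIn ℚ, σ ϖ = ϖ → σ (t - b ^ p + b) = t - b ^ p + b := by
      intro σ hσ hσϖ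
      rw [map_add, map_sub, map_pow, htF σ hσ hσϖ, hbI σ hσ]
    have hdn : t - b ^ p + b ∈ P.nonunits := by
      have : t - b ^ p + b = -(b ^ p - b - t) := by ring
      rw [this]; exact nonunits_neg_mem hbt
    have hd := hdiv hdF hdn
    have hyp0 : (1 + b * ϖ ^ (p + 1)) ^ p ≠ 0 := pow_ne_zero _ hy0
    have key : u - (1 + b * ϖ ^ (p + 1)) ^ p =
        ϖ ^ (e + 1 + p + 1) * ((t - b ^ p + b) / ϖ + b ^ 2 * (s : Qb) * ϖ ^ p) := by
      rw [hu', hs', hpϖ]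
      field_simp
      ring
    have hfin : (u / (1 + b * ϖ ^ (p + 1)) ^ p - 1) / ϖ ^ (e + 1 + p + 1) =
        ((t - b ^ p + b) / ϖ + b ^ 2 * (s : Qb) * ϖ ^ p) * ((1 + b * ϖ ^ (p + 1))⁻¹) ^ p := by
      have h1 : u / (1 + b * ϖ ^ (p + 1)) ^ p - 1 =
          (u - (1 + b * ϖ ^ (p + 1)) ^ p) / (1 + b * ϖ ^ (p + 1)) ^ p := by
        field_simp
      rw [h1, key, inv_pow]
      field_simp
    rw [hfin]
    exact P.mul_mem _ _ (P.add_mem _ _ hd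
      (P.mul_mem _ _ (P.mul_mem _ _ (pow_mem hbP 2) s.2) (pow_mem hϖP p))) (pow_mem hyinv p)

end Fermat.Agent.TW.Flat.SS.LevelsTop
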