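/-
TW-FLAT, row 351 (FLAT-SS-LEVELS): the five level-calculus statements of `SS/Defs.lean` as
UNCONDITIONAL theorems (no toolkit hypothesis left):

`k3 : K3`, `k4 : K4`, `k4' : K4'`, `k5 : K5`, `gfMu : GFMu`.

`K3`, `K4` are helper30's `k3_of`, `k4_of` (SS/Levels.lean) applied to the toolkit theorems
`Loc.Tame.fVal`, `Loc.Basic.teich`, `Loc.Basic.rootFix`; `K4'`, `K5`, `GFMu` are the direct proofs
of SS/LevelsTop.lean (no `Loc.TameKum`).
-/
import Mathlib
import Fermat.Agent.TW.Flat.SS.Levels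
import Fermat.Agent.TW.Flat.SS.LevelsTop
import Fermat.Agent.TW.Flat.Local.Teich

set_option autoImplicit false

namespace Fermat.Agent.TW.Flat.SS.LevelsInst

open Fermat.Agent.TW.Flat

theorem k3 : K3 := k3_of Loc.Tame.fVal

theorem k4 : K4 := k4_of Loc.Basic.teich Loc.Basic.rootFix Loc.Tame.fVal

theorem k4' : K4' := LevelsTop.k4'

theorem k5 : K5 := LevelsTop.k5

theorem gfMu : GFMu := LevelsTop.gfMu

end Fermat.Agent.TW.Flat.SS.LevelsInst
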