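/-
TW-FLAT, row 335 (FLAT-SS-COUNT): the reduction of the count to the restrictions to `G_F`.

`ϖ ^ e = -p` (`p ∤ e`), `G_F = {σ ∈ I | σ ϖ = ϖ}`, and `rb` is trivial on `G_F` (`Loc.SSStruct` for
`e = p² − 1`).  For a space `L` of cocycles of the decomposition group `D`:

  `#(L ⊔ B1On) ≤ #{c|G_F : c ∈ L} · #B1On`

because coboundaries vanish on `G_F` and a cocycle vanishing on `G_F` is a coboundary
(`ResB1.mem_B1On_of_eq_zero_on_GF`).

* `card_sup_le_of_restrict` : the abstract counting lemma;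
* `GFSet`, `resGF` : `G_F` as a set of elements of `D` and the restriction map;
* `card_sup_B1On_le` : the inequality above;
* `ssCount_of_card_res_le` : `#{c|G_F : c ∈ LSS} ≤ #k` gives the two clauses of `SSCount`.
-/
import Mathlib
import Fermat.Agent.TW.Flat.SS.ResB1

set_option autoImplicit false

namespace Fermat.Agent.TW.Flat.SS.ResCount

open Fermat.Agent.S53 Fermat.Agent.TW Fermat.Agent.TW.Flat Fermat.Agent.TW.Away

local notation "Qb" => AlgebraicClosure ℚ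

/-- Abstract counting: if `r` kills `B` and every element of `L ⊔ B` killed by `r` lies in `B`,
then `#(L ⊔ B) ≤ #r(L) · #B`. -/
theorem card_sup_le_of_restrict {k V V' : Type*} [Field k] [AddCommGroup V] [Module k V]
    [AddCommGroup V'] [Module k V'] (L B : Submodule k V) (r : V →ₗ[k] V')
    (hB : ∀ b ∈ B, r b = 0) (hker : ∀ c ∈ L ⊔ B, r c = 0 → c ∈ B)
    (hBfin : Finite ↥B) (hfin : Finite ↥(L.map r)) :
    Finite ↥(L ⊔ B) ∧ Nat.card ↥(L ⊔ B) ≤ Nat.card ↥(L.map r) * Nat.card ↥B := by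
  classical
  have hr : ∀ m : ↥(L ⊔ B), r (m : V) ∈ L.map r := by
    intro m
    obtain ⟨l, hl, b, hb, hlb⟩ := Submodule.mem_sup.mp m.2
    rw [← hlb, map_add, hB b hb, add_zero]
    exact Submodule.mem_map_of_mem hl
  have hs : ∀ y : ↥(L.map r), ∃ m : ↥(L ⊔ B), r (m : V) = y := by
    intro y
    obtain ⟨l, hl, hly⟩ := Submodule.mem_map.mp y.2
    exact ⟨⟨l, Submodule.mem_sup_left hl⟩, hly⟩
  choose s hs' using hs
  have hdiff : ∀ m : ↥(L ⊔ B), (m : V) - (s ⟨r m, hr m⟩ : V) ∈ B := by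
    intro m
    apply hker _ (Submodule.sub_mem _ m.2 (s _).2)
    rw [map_sub, hs', sub_self]
  let f : ↥(L ⊔ B) → ↥(L.map r) × ↥B := fun m => (⟨r m, hr m⟩, ⟨_, hdiff m⟩)
  have hf : Function.Injective f := by
    intro m m' h
    have h1 : r (m : V) = r (m' : V) := congrArg (fun x => (x.1 : V')) h
    have h2 : (m : V) - s ⟨r m, hr m⟩ = (m' : V) - s ⟨r m', hr m'⟩ :=
      congrArg (fun x => (x.2 : V)) h
    have h3 : (⟨r m, hr m⟩ : ↥(L.map r)) = ⟨r m', hr m'⟩ := Subtype.ext h1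
    rw [h3] at h2
    exact Subtype.ext (sub_left_injective h2)
  refine ⟨Finite.of_injective f hf, ?_⟩
  calc Nat.card ↥(L ⊔ B) ≤ Nat.card (↥(L.map r) × ↥B) := Nat.card_le_card_of_injective f hf
    _ = Nat.card ↥(L.map r) * Nat.card ↥B := Nat.card_prod _ _

variable {k : Type} [Field k]

/-- `G_F = {σ ∈ I | σ ϖ = ϖ}` as a set of elements of the decomposition group. -/
def GFSet (P : ValuationSubring Qb) (ϖ : Qb) : Set ↥(P.decompositionSubgroup ℚ) :=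
  {σ | (σ : GQ) ∈ P.inertiaSubgroupIn ℚ ∧ (σ : GQ) ϖ = ϖ}

theorem mem_GFSet (P : ValuationSubring Qb) (ϖ : Qb) (σ : ↥(P.decompositionSubgroup ℚ)) :
    σ ∈ GFSet P ϖ ↔ (σ : GQ) ∈ P.inertiaSubgroupIn ℚ ∧ (σ : GQ) ϖ = ϖ := Iff.rfl

/-- Restriction of functions on the decomposition group to `G_F`. -/
def resGF (P : ValuationSubring Qb) (ϖ : Qb) :
    (↥(P.decompositionSubgroup ℚ) → Mat2 k) →ₗ[k] (↥(GFSet P ϖ) → Mat2 k) where
  toFun c σ := c σ
  map_add' _ _ := rfl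
  map_smul' _ _ := rfl

theorem resGF_apply (P : ValuationSubring Qb) (ϖ : Qb)
    (c : ↥(P.decompositionSubgroup ℚ) → Mat2 k) (σ : ↥(GFSet P ϖ)) :
    resGF P ϖ c σ = c σ := rfl

theorem resGF_eq_zero_iff (P : ValuationSubring Qb) (ϖ : Qb)
    (c : ↥(P.decompositionSubgroup ℚ) → Mat2 k) :
    resGF P ϖ c = 0 ↔ ∀ σ : ↥(P.decompositionSubgroup ℚ), (σ : GQ) ∈ P.inertiaSubgroupIn ℚ →
      (σ : GQ) ϖ = ϖ → c σ = 0 := by
  constructor
  · intro h σ hσ hσϖ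
    exact congrFun h ⟨σ, hσ, hσϖ⟩
  · intro h
    funext σ
    exact h σ σ.2.1 σ.2.2

/-- Coboundaries vanish on `G_F` when `rb` is trivial on `G_F`. -/
theorem resGF_B1On (rb : GQ →* Mat2 k) (P : ValuationSubring Qb) (ϖ : Qb)
    (hst : ∀ σ ∈ P.inertiaSubgroupIn ℚ, σ ϖ = ϖ → rb σ = 1)
    (b : ↥(P.decompositionSubgroup ℚ) → Mat2 k)
    (hb : b ∈ B1On (P.decompositionSubgroup ℚ) rb 1) : resGF P ϖ b = 0 := by
  obtain ⟨X, -, hX⟩ := (mem_B1On _ _ _ _).mp hb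
  rw [resGF_eq_zero_iff]
  intro σ hσ hσϖ
  rw [hX σ, adAct_eq_of_rb_eq_one rb 1 σ (hst σ hσ hσϖ) rfl, sub_self]

theorem finite_B1On [Finite k] (D : Subgroup GQ) (rb : GQ →* Mat2 k) :
    Finite ↥(B1On D rb 1) := by
  have : Finite (Mat2 k) := inferInstance
  have hs : (↑(B1On D rb 1) : Set (↥D → Mat2 k)).Finite := by
    have : (↑(B1On D rb 1) : Set (↥D → Mat2 k)) =
        ((resOn D).comp (cob rb 1)) '' (↑(sl2 k) : Set (Mat2 k)) := rfl
    rw [this]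
    exact (Set.toFinite _).image _
  exact hs.to_subtype

/-- **The reduction to `G_F`.**  In the irreducible case, with `rb` trivial on `G_F`, a space `L`
of cocycles of `D` satisfies `#(L ⊔ B1On) ≤ #{c|G_F : c ∈ L} · #B1On`. -/
theorem card_sup_B1On_le [Finite k] (rb : GQ →* Mat2 k) (p : ℕ) [Fact p.Prime] (hp2 : p ≠ 2)
    (h : ResidualHyp rb p) (P : ValuationSubring Qb) (hP : P.LiesOverPrime p)
    (hline : ¬ HasLine rb P) (e : ℕ) (he : 0 < e) (hpe : ¬ p ∣ e) (ϖ : Qb)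
    (hϖ : ϖ ^ e = -(p : Qb)) (hst : ∀ σ ∈ P.inertiaSubgroupIn ℚ, σ ϖ = ϖ → rb σ = 1)
    (L : Submodule k (↥(P.decompositionSubgroup ℚ) → Mat2 k))
    (hL : L ≤ Z1On (P.decompositionSubgroup ℚ) rb 1)
    (hfin : Finite ↥(L.map (resGF P ϖ))) :
    Finite ↥(L ⊔ B1On (P.decompositionSubgroup ℚ) rb 1) ∧
      Nat.card ↥(L ⊔ B1On (P.decompositionSubgroup ℚ) rb 1) ≤
        Nat.card ↥(L.map (resGF P ϖ)) * Nat.card ↥(B1On (P.decompositionSubgroup ℚ) rb 1) := by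
  refine card_sup_le_of_restrict L _ (resGF P ϖ) (resGF_B1On rb P ϖ hst) (fun c hc hc0 => ?_)
    (finite_B1On _ rb) hfin
  have hcZ : c ∈ Z1On (P.decompositionSubgroup ℚ) rb 1 :=
    (sup_le hL (B1On_le_Z1On _ h.finiteLevel')) hc
  exact ResB1.mem_B1On_of_eq_zero_on_GF rb p hp2 h P hP hline e he hpe ϖ hϖ c hcZ
    ((resGF_eq_zero_iff P ϖ c).mp hc0)

/-- The two clauses of `SSCount` from the bound `#{c|G_F : c ∈ LSS} ≤ #k` (for one uniformiser
`ϖ`, `ϖ ^ (p² − 1) = -p`, with `rb` trivial on `G_F`). -/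
theorem ssCount_of_card_res_le [Finite k] (rb : GQ →* Mat2 k) (p : ℕ) [Fact p.Prime]
    (hp2 : p ≠ 2) (h : ResidualHyp rb p) (P : ValuationSubring Qb) (hP : P.LiesOverPrime p)
    (hline : ¬ HasLine rb P) (ϖ : Qb) (hϖ : ϖ ^ (p ^ 2 - 1) = -(p : Qb))
    (hst : ∀ σ ∈ P.inertiaSubgroupIn ℚ, σ ϖ = ϖ → rb σ = 1)
    (hfin : Finite ↥((LSS rb P p).map (resGF P ϖ)))
    (hcard : Nat.card ↥((LSS rb P p).map (resGF P ϖ)) ≤ Nat.card k) :
    Finite ↥(LSS rb P p ⊔ B1On (P.decompositionSubgroup ℚ) rb 1) ∧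
      Nat.card ↥(LSS rb P p ⊔ B1On (P.decompositionSubgroup ℚ) rb 1) ≤
        Nat.card k * Nat.card ↥(B1On (P.decompositionSubgroup ℚ) rb 1) := by
  have hp : p.Prime := Fact.out
  have hp2' : 2 ≤ p := hp.two_le
  have he : 0 < p ^ 2 - 1 := by
    have : 4 ≤ p ^ 2 := by nlinarith
    omega
  have hpe : ¬ p ∣ p ^ 2 - 1 := by
    intro hdvd
    have h1 : p ∣ p ^ 2 := dvd_pow_self p (by norm_num)
    have h2 : p ∣ 1 := by
      have := Nat.dvd_sub h1 hdvd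
      rwa [Nat.sub_sub_self (by nlinarith : 1 ≤ p ^ 2)] at this
    exact hp.one_lt.ne' (Nat.dvd_one.mp h2)
  obtain ⟨hf, hc⟩ := card_sup_B1On_le rb p hp2 h P hP hline (p ^ 2 - 1) he hpe ϖ hϖ hst
    (LSS rb P p) (fun c hc => hc.1) hfin
  exact ⟨hf, hc.trans (Nat.mul_le_mul_right _ hcard)⟩

end Fermat.Agent.TW.Flat.SS.ResCount
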