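/-
TW-FLAT, row 335 (FLAT-SS-COUNT), assembly (shadow `CountB`): the supersingular count

  `CountB.ssCount : SSCount k`   (`k` a finite field).

`ϖ ^ (p² − 1) = −p`, `G_F = {σ ∈ I | σ ϖ = ϖ}`, `τ₀ ∈ I` with `τ₀ ϖ = ξ₀ ϖ` (`ξ₀` a primitive
`(p² − 1)`-th root of unity), `φ` a Frobenius element, `φ₂ = φ²`.  In a basis in which
`rb τ₀ = diag(a₁, a₂)` and `rb φ` is antidiagonal (`Eigen.exists_eigen_structure`) a cocycle `c`
which vanishes on `G_F` is a coboundary (`ResB1`), and the coordinates of `c|G_F` are scalar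
functions `d` with `d (τ⁻¹ σ τ) = m · d σ`:

* the diagonal coordinate (`m = 1`) is dead at every level of the window `[p² − 2, p² + p)`;
* the `(1,2)`-coordinate (`m = a₂ / a₁`) is dead at every level except `p² + 1`, where the leading
  coefficient is an additive map with two semilinear constraints, so that two of them are
  `k`-dependent (`WCount.exists_comb_eq_zero`);
* the `(2,1)`-coordinate is the `φ`-conjugate of the `(1,2)`-coordinate.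

Hence any two elements of `LSS` are `k`-dependent modulo `B1On`, and `PairsCard` gives the count.
-/
import Mathlib
import Fermat.Agent.TW.Flat.SS.Witness
import Fermat.Agent.TW.Flat.SS.Equivar
import Fermat.Agent.TW.Flat.SS.Eigen
import Fermat.Agent.TW.Flat.SS.WCount
import Fermat.Agent.TW.Flat.SS.PairsCard
import Fermat.Agent.TW.Flat.SS.ResB1
import Fermat.Agent.TW.Flat.SS.ResCount
import Fermat.Agent.TW.Flat.SS.LevelsInst
import Fermat.Agent.TW.Flat.Local.Tame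
import Fermat.Agent.TW.Flat.SSStructFinal
import Fermat.Agent.Lib.FinFlat.Dual
import Fermat.Agent.PT.G.CycloField
import Fermat.Agent.TW.Local.StrictOrd

set_option autoImplicit false

namespace Fermat.Agent.TW.Flat.SS.CountB

open Fermat.Agent.S53 Fermat.Agent.TW Fermat.Agent.TW.Flat

local notation "Qb" => AlgebraicClosure ℚ

/-! ### Additive maps with a multiplier -/

section Alg

variable {k κ : Type} [Field k] [Field κ]

theorem alg_zero (b : k → κ) (hadd : ∀ s t, b (s + t) = b s + b t) : b 0 = 0 := by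
  have h := hadd 0 0
  rw [add_zero] at h
  exact left_eq_add.mp h

theorem alg_natCast (b : k → κ) (hadd : ∀ s t, b (s + t) = b s + b t) (n : ℕ) (t : k) :
    b ((n : k) * t) = (n : κ) * b t := by
  induction n with
  | zero => rw [Nat.cast_zero, zero_mul, Nat.cast_zero, zero_mul, alg_zero b hadd]
  | succ n ih => rw [Nat.cast_succ, add_mul, one_mul, hadd, ih, Nat.cast_succ, add_mul, one_mul]

theorem alg_sub (b : k → κ) (hadd : ∀ s t, b (s + t) = b s + b t) (s t : k) :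
    b (s - t) = b s - b t := by
  have h := hadd (s - t) t
  rw [sub_add_cancel] at h
  rw [h, add_sub_cancel_right]

/-- (H) a multiplier different from the natural one kills the map. -/
theorem alg_dead_H (b : k → κ) (hadd : ∀ s t, b (s + t) = b s + b t) (W : ℕ) (θ : κ)
    (hθ : θ ≠ (W : κ)) (hb : ∀ t, b ((W : k) * t) = θ * b t) (t : k) : b t = 0 := by
  have h1 := alg_natCast b hadd W t
  rw [hb t] at h1
  have h2 : (θ - (W : κ)) * b t = 0 := by rw [sub_mul, h1, sub_self]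
  exact (mul_eq_zero.mp h2).resolve_left (sub_ne_zero.mpr hθ)

/-- (E1) invariance under a multiplier `M ≠ 1` kills the map. -/
theorem alg_dead_E1 (b : k → κ) (hadd : ∀ s t, b (s + t) = b s + b t) (M : k) (hM : M ≠ 1)
    (hb : ∀ t, b (M * t) = b t) (t : k) : b t = 0 := by
  have hM' : M - 1 ≠ 0 := sub_ne_zero.mpr hM
  have h1 : t = M * (t / (M - 1)) - t / (M - 1) := by
    field_simp
  rw [h1, alg_sub b hadd, hb, sub_self]

theorem alg_pow (b : k → κ) (M : k) (θ : κ) (hb : ∀ t, b (M * t) = θ * b t) (n : ℕ) (t : k) :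
    b (M ^ n * t) = θ ^ n * b t := by
  induction n generalizing t with
  | zero => rw [pow_zero, one_mul, pow_zero, one_mul]
  | succ n ih => rw [pow_succ, mul_assoc, ih, hb, pow_succ, mul_assoc]

/-- (E2) iterate the eigen-equation `n` times. -/
theorem alg_dead_E2 (b : k → κ) (hadd : ∀ s t, b (s + t) = b s + b t) (M : k) (W : ℕ) (n : ℕ)
    (hM : M ^ n = (W : k) ^ 2) (θ : κ) (hθ : θ ^ n ≠ (W : κ) ^ 2)
    (hb : ∀ t, b (M * t) = θ * b t) (t : k) : b t = 0 := by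
  have h1 := alg_pow b M θ hb n t
  rw [hM, pow_two, mul_assoc, alg_natCast b hadd, alg_natCast b hadd, ← mul_assoc, ← pow_two]
    at h1
  have h2 : (θ ^ n - (W : κ) ^ 2) * b t = 0 := by rw [sub_mul, h1, sub_self]
  exact (mul_eq_zero.mp h2).resolve_left (sub_ne_zero.mpr hθ)

theorem dvd_sub_of_pow_eq {ρ : κ} {e : ℕ} (hρ : IsPrimitiveRoot ρ e) (he : 0 < e) {a b : ℕ}
    (hab : b ≤ a) (h : ρ ^ a = ρ ^ b) : e ∣ a - b := by
  have hρ0 : ρ ≠ 0 := hρ.ne_zero he.ne'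
  have h1 : ρ ^ b * ρ ^ (a - b) = ρ ^ b * 1 := by
    rw [← pow_add, Nat.add_sub_cancel' hab, mul_one, h]
  exact (hρ.pow_eq_one_iff_dvd _).mp (mul_left_cancel₀ (pow_ne_zero _ hρ0) h1)

end Alg

/-! ### The window arithmetic -/

section Arith

theorem ar_sq (n : ℕ) : (n + 1) ^ 2 = n * n + 2 * n + 1 := by ring

/-- (H) no level of the window is `≡ p + 1` modulo `p² − 1`. -/
theorem ar_H {p j : ℕ} (hp3 : 3 ≤ p) (h1 : p ^ 2 - 2 ≤ j) (h2 : j < p ^ 2 + p) :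
    p + 1 ≤ j ∧ ¬ (p ^ 2 - 1 ∣ j - (p + 1)) := by
  obtain ⟨n, rfl⟩ : ∃ n, p = n + 1 := ⟨p - 1, by omega⟩
  rw [ar_sq] at *
  have h3 : 2 * n ≤ n * n := Nat.mul_le_mul_right n (by omega)
  refine ⟨by omega, Nat.not_dvd_of_pos_of_lt (by omega) (by omega)⟩

/-- (E) the levels of the window with `j (p + 1) ≡ 2 (p + 1)` modulo `p² − 1`. -/
theorem ar_E {p j : ℕ} (hp : p.Prime) (hp3 : 3 ≤ p) (h1 : p ^ 2 - 2 ≤ j) (h2 : j < p ^ 2 + p)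
    (hd : p ^ 2 - 1 ∣ j * (p + 1) - 2 * (p + 1)) : j = p ^ 2 + 1 ∨ j = p ^ 2 - 1 := by
  obtain ⟨n, rfl⟩ : ∃ n, p = n + 1 := ⟨p - 1, by omega⟩
  have hn : 2 ≤ n := by omega
  have e1 : (n + 1) ^ 2 - 1 = (n + 1 + 1) * n := by
    rw [ar_sq]
    have : (n + 1 + 1) * n = n * n + 2 * n := by ring
    omega
  have e2 : j * (n + 1 + 1) - 2 * (n + 1 + 1) = (n + 1 + 1) * (j - 2) := by
    rw [← Nat.sub_mul, mul_comm]
  rw [e1, e2] at hd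
  obtain ⟨c, hc⟩ := Nat.dvd_of_mul_dvd_mul_left (by omega : 0 < n + 1 + 1) hd
  rw [ar_sq] at *
  have h3 : 2 * n ≤ n * n := Nat.mul_le_mul_right n hn
  -- `n + 1 ≤ c ≤ n + 2`
  have hc1 : n + 1 ≤ c := by
    by_contra hlt
    have h4 : n * c ≤ n * n := Nat.mul_le_mul_left n (by omega)
    omega
  have hc2 : c ≤ n + 2 := by
    by_contra hlt
    have h4 : n * (n + 3) ≤ n * c := Nat.mul_le_mul_left n (by omega)
    have h5 : n * (n + 3) = n * n + 3 * n := by ring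
    omega
  rcases Nat.lt_or_ge c (n + 2) with h | h
  · have hcn : c = n + 1 := by omega
    subst hcn
    have h5 : n * (n + 1) = n * n + n := by ring
    have hn3 : n = 2 ∨ n = 3 := by omega
    rcases hn3 with rfl | rfl
    · right
      omega
    · exact absurd hp (by norm_num)
  · have hcn : c = n + 2 := by omega
    subst hcn
    have h5 : n * (n + 2) = n * n + 2 * n := by ring
    left
    omega

/-- the eigenvalue at the live level is not in the prime field. -/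
theorem ar_theta {p : ℕ} (hp3 : 3 ≤ p) : 2 ≤ 2 * p ∧ ¬ (p ^ 2 - 1 ∣ 2 * p - 2) := by
  obtain ⟨n, rfl⟩ : ∃ n, p = n + 1 := ⟨p - 1, by omega⟩
  rw [ar_sq]
  have h3 : 2 * n ≤ n * n := Nat.mul_le_mul_right n (by omega)
  refine ⟨by omega, Nat.not_dvd_of_pos_of_lt (by omega) (by omega)⟩

/-- a multiple of `p` in the window is `p²` or `p² + p`. -/
theorem ar_dvd {p i : ℕ} (hp3 : 3 ≤ p) (h1 : p ^ 2 - 2 ≤ p * i) (h2 : p * i ≤ p ^ 2 + p) :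
    i = p ∨ i = p + 1 := by
  rw [pow_two] at h1 h2
  have hi1 : p ≤ i := by
    by_contra hlt
    have h4 : p * i ≤ p * (p - 1) := Nat.mul_le_mul_left p (by omega)
    have h5 : p * (p - 1) + p = p * p := by
      obtain ⟨n, rfl⟩ : ∃ n, p = n + 1 := ⟨p - 1, by omega⟩
      simp only [Nat.add_sub_cancel]
      ring
    omega
  have hi2 : i ≤ p + 1 := by
    by_contra hlt
    have h4 : p * (p + 2) ≤ p * i := Nat.mul_le_mul_left p (by omega)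
    have h5 : p * (p + 2) = p * p + 2 * p := by ring
    omega
  omega

theorem ar_not_dvd_succ {p : ℕ} (hp : p.Prime) : ¬ p ∣ p ^ 2 + 1 := by
  intro h
  have h1 : p ∣ p ^ 2 := dvd_pow_self p (by norm_num)
  exact hp.one_lt.ne' (Nat.dvd_one.mp ((Nat.dvd_add_right h1).mp h))

end Arith

/-! ### The frame: `τ₀`, `φ₂` and the conjugation relations -/

/-- The standing data: `ϖ`, a non-trivial additive character `lam`, the tame generator `τ₀`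
(`τ₀ ϖ = ξ₀ ϖ`, cyclotomic exponent `w`) and the square `φ₂` of a Frobenius (`φ₂ ϖ = ξ₂ ϖ`,
cyclotomic exponent `w₂`). -/
structure Frame (k : Type) [Field k] (p : ℕ) (P : ValuationSubring Qb) (ϖ : Qb)
    (lam : AddChar k Qb) (τ₀ : GQ) (ξ₀ : Qb) (w : ℕ) (φ₂ : GQ) (ξ₂ : Qb) (w₂ : ℕ) : Prop where
  hp2 : p ≠ 2
  hP : P.LiesOverPrime p
  hϖ : ϖ ^ (p ^ 2 - 1) = -(p : Qb)
  hpk : (p : k) = 0
  hlam : ∃ x : k, lam x ≠ 1
  hτ₀ : τ₀ ∈ P.inertiaSubgroupIn ℚ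
  hξ₀ : IsPrimitiveRoot ξ₀ (p ^ 2 - 1)
  hτ₀ϖ : τ₀ ϖ = ξ₀ * ϖ
  hw : ∀ μ : Qb, μ ^ p = 1 → τ₀ μ = μ ^ w
  hφ₂ : φ₂ ∈ P.decompositionSubgroup ℚ
  hξ₂ : ξ₂ ∈ P
  hφ₂ϖ : φ₂ ϖ = ξ₂ * ϖ
  hw₂ : ∀ μ : Qb, μ ^ p = 1 → φ₂ μ = μ ^ w₂
  hN₂ : ∀ x ∈ P, φ₂ x - x ^ (p ^ 2) ∈ P.nonunits
  hw₂k : (w₂ : k) ≠ 0

/-- The scalar function `d` has multiplier `m` under conjugation by `τ`: `d (τ⁻¹ σ τ) = m · d σ`
on `G_F`. -/
def Conj {k : Type} [Field k] (P : ValuationSubring Qb) (ϖ : Qb) (τ : GQ)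
    (d : ↥(P.decompositionSubgroup ℚ) → k) (m : k) : Prop :=
  ∀ (hτ : τ ∈ P.decompositionSubgroup ℚ) (σ : ↥(P.decompositionSubgroup ℚ)),
    (σ : GQ) ∈ P.inertiaSubgroupIn ℚ → (σ : GQ) ϖ = ϖ →
      d ((⟨τ, hτ⟩ : ↥(P.decompositionSubgroup ℚ))⁻¹ * σ * ⟨τ, hτ⟩) = m * d σ

theorem Conj.comb {k : Type} [Field k] {P : ValuationSubring Qb} {ϖ : Qb} {τ : GQ}
    {d₁ d₂ : ↥(P.decompositionSubgroup ℚ) → k} {m : k} (h₁ : Conj P ϖ τ d₁ m)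
    (h₂ : Conj P ϖ τ d₂ m) (α₁ α₂ : k) : Conj P ϖ τ (α₁ • d₁ + α₂ • d₂) m := by
  intro hτ σ hσ hσϖ
  simp only [Pi.add_apply, Pi.smul_apply, smul_eq_mul]
  rw [h₁ hτ σ hσ hσϖ, h₂ hτ σ hσ hσϖ]
  ring

namespace Frame

variable {k : Type} [Field k] {p : ℕ} [Fact p.Prime] {P : ValuationSubring Qb} {ϖ : Qb}
  {lam : AddChar k Qb} {τ₀ : GQ} {ξ₀ : Qb} {w : ℕ} {φ₂ : GQ} {ξ₂ : Qb} {w₂ : ℕ}

theorem three_le (F : Frame k p P ϖ lam τ₀ ξ₀ w φ₂ ξ₂ w₂) : 3 ≤ p := by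
  have h2 := (Fact.out : p.Prime).two_le
  have h3 := F.hp2
  omega

theorem setting (F : Frame k p P ϖ lam τ₀ ξ₀ w φ₂ ξ₂ w₂) : SSLev.Setting p P ϖ :=
  ⟨Fact.out, F.hp2, F.hP, F.hϖ⟩

theorem xi0_mem (F : Frame k p P ϖ lam τ₀ ξ₀ w φ₂ ξ₂ w₂) : ξ₀ ∈ P :=
  (SSLev.xi_isPUnit F.setting F.hτ₀ϖ).2.1

omit [Fact p.Prime] in
theorem tau0_mem (F : Frame k p P ϖ lam τ₀ ξ₀ w φ₂ ξ₂ w₂) : τ₀ ∈ P.decompositionSubgroup ℚ :=
  Loc.Basic.inertia_le_decomp P F.hτ₀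

theorem charκ (F : Frame k p P ϖ lam τ₀ ξ₀ w φ₂ ξ₂ w₂) :
    CharP (IsLocalRing.ResidueField ↥P) p :=
  Fermat.Agent.PT.G.charP_residueField Fact.out P F.hP

theorem chark (F : Frame k p P ϖ lam τ₀ ξ₀ w φ₂ ξ₂ w₂) : CharP k p :=
  (CharP.charP_iff_prime_eq_zero Fact.out).mpr F.hpk

/-- The residue class of `ξ₀` is a primitive `(p² − 1)`-th root of unity. -/
theorem rho_prim (F : Frame k p P ϖ lam τ₀ ξ₀ w φ₂ ξ₂ w₂) :
    IsPrimitiveRoot (SSLev.res P ξ₀) (p ^ 2 - 1) := by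
  rw [IsPrimitiveRoot.iff_def]
  refine ⟨?_, fun l hl => ?_⟩
  · rw [← SSLev.res_pow P F.xi0_mem, F.hξ₀.pow_eq_one, SSLev.res_one]
  · rw [← SSLev.res_pow P F.xi0_mem, ← SSLev.res_one P,
      SSLev.res_eq_iff P (pow_mem F.xi0_mem l) P.one_mem] at hl
    have h1 : ξ₀ ^ l = 1 :=
      Loc.Basic.rootInj p P F.hP (ξ₀ ^ l) 1 (p ^ 2 - 1) (Levels.sq_sub_one_pos p)
        (Levels.not_dvd_sq_sub_one p)
        (by rw [← pow_mul, mul_comm, pow_mul, F.hξ₀.pow_eq_one, one_pow]) (one_pow _) hl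
    exact (F.hξ₀.pow_eq_one_iff_dvd l).mp h1

/-- `w ≡ ξ₀ ^ (p + 1)` in the residue field. -/
theorem w_res (F : Frame k p P ϖ lam τ₀ ξ₀ w φ₂ ξ₂ w₂) :
    (w : IsLocalRing.ResidueField ↥P) = SSLev.res P ξ₀ ^ (p + 1) := by
  have h1 := cyclo_exponent_residue p F.hp2 P F.hP ϖ F.hϖ τ₀ F.hτ₀ ξ₀ F.hτ₀ϖ w F.hw
  have hwP : (w : Qb) ∈ P := natCast_mem P w
  rw [← SSLev.res_eq_iff P hwP (pow_mem F.xi0_mem _), SSLev.res_pow P F.xi0_mem] at h1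
  rw [← h1, SSLev.res_eq P hwP]
  have h2 : (⟨(w : Qb), hwP⟩ : ↥P) = (w : ↥P) := Subtype.ext (by simp)
  rw [h2, map_natCast]

/-- The `τ₀`-relation of a leading-coefficient function. -/
theorem rel₀ (F : Frame k p P ϖ lam τ₀ ξ₀ w φ₂ ξ₂ w₂)
    {d : ↥(P.decompositionSubgroup ℚ) → k} {m : k} (hd : Conj P ϖ τ₀ d m) {j : ℕ}
    (hj1 : 1 ≤ j) (hjp : ¬ p ∣ j) (hj : j < p ^ 2 + p) {b : k → IsLocalRing.ResidueField ↥P}
    (hb : ∀ t, IsLam P p ϖ lam j d t (b t)) (t : k) :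
    b ((w : k) * m * t) = SSLev.res P ξ₀ ^ j * b t := by
  have hN : ∀ x ∈ P, τ₀ x - x ^ 1 ∈ P.nonunits := fun x hx => by
    rw [pow_one]
    exact Loc.Basic.inertiaRes P τ₀ F.hτ₀ x hx
  have h1 := isLam_conj F.hP F.hϖ F.hpk j τ₀ F.tau0_mem w F.hw ξ₀ F.xi0_mem F.hτ₀ϖ m
    (hd F.tau0_mem) 1 hN (hb t)
  rw [pow_one, ← SSLev.res_eq P F.xi0_mem] at h1
  exact isLam_unique LevelsInst.k3 F.hp2 F.hP F.hϖ F.hpk hj1 hjp hj (hb _) h1

/-- The `φ₂`-relation of a leading-coefficient function. -/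
theorem rel₂ (F : Frame k p P ϖ lam τ₀ ξ₀ w φ₂ ξ₂ w₂)
    {d : ↥(P.decompositionSubgroup ℚ) → k} (hd : Conj P ϖ φ₂ d 1) {j : ℕ}
    (hj1 : 1 ≤ j) (hjp : ¬ p ∣ j) (hj : j < p ^ 2 + p) {b : k → IsLocalRing.ResidueField ↥P}
    (hb : ∀ t, IsLam P p ϖ lam j d t (b t)) (t : k) :
    b ((w₂ : k) * 1 * t) = SSLev.res P ξ₂ ^ j * b t ^ (p ^ 2) := by
  have h1 := isLam_conj F.hP F.hϖ F.hpk j φ₂ F.hφ₂ w₂ F.hw₂ ξ₂ F.hξ₂ F.hφ₂ϖ 1
    (hd F.hφ₂) (p ^ 2) F.hN₂ (hb t)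
  rw [← SSLev.res_eq P F.hξ₂] at h1
  exact isLam_unique LevelsInst.k3 F.hp2 F.hP F.hϖ F.hpk hj1 hjp hj (hb _) h1

/-- Additivity of a leading-coefficient function. -/
theorem rel_add (F : Frame k p P ϖ lam τ₀ ξ₀ w φ₂ ξ₂ w₂)
    {d : ↥(P.decompositionSubgroup ℚ) → k} {j : ℕ}
    (hj1 : 1 ≤ j) (hjp : ¬ p ∣ j) (hj : j < p ^ 2 + p) {b : k → IsLocalRing.ResidueField ↥P}
    (hb : ∀ t, IsLam P p ϖ lam j d t (b t)) (s t : k) : b (s + t) = b s + b t :=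
  isLam_unique LevelsInst.k3 F.hp2 F.hP F.hϖ F.hpk hj1 hjp hj (hb _)
    (isLam_add_t F.hP F.hϖ hj1 (hb s) (hb t))

/-- (H) a coordinate with multiplier `1` is dead at every level of the window. -/
theorem dead_H (F : Frame k p P ϖ lam τ₀ ξ₀ w φ₂ ξ₂ w₂)
    {d : ↥(P.decompositionSubgroup ℚ) → k} (hd : Conj P ϖ τ₀ d 1) {j : ℕ}
    (h1 : p ^ 2 - 2 ≤ j) (hj : j < p ^ 2 + p) (hjp : ¬ p ∣ j)
    {b : k → IsLocalRing.ResidueField ↥P} (hb : ∀ t, IsLam P p ϖ lam j d t (b t)) (t : k) :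
    b t = 0 := by
  have hp3 := F.three_le
  obtain ⟨h2, h3⟩ := ar_H hp3 h1 hj
  have hj1 : 1 ≤ j := by omega
  refine alg_dead_H b (F.rel_add hj1 hjp hj hb) w (SSLev.res P ξ₀ ^ j) ?_ (fun t => ?_) t
  · rw [F.w_res]
    intro h
    exact h3 (dvd_sub_of_pow_eq F.rho_prim (Levels.sq_sub_one_pos p) h2 h)
  · have := F.rel₀ hd hj1 hjp hj hb t
    rwa [mul_one] at this

/-- (E) a coordinate with multiplier `m`, `(w m) ^ (p + 1) = w²`, `w m ≠ 1`, is dead at every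
level of the window except `p² + 1`. -/
theorem dead_E (F : Frame k p P ϖ lam τ₀ ξ₀ w φ₂ ξ₂ w₂) {m : k}
    (hM : ((w : k) * m) ^ (p + 1) = (w : k) ^ 2) (hM1 : (w : k) * m ≠ 1)
    {d : ↥(P.decompositionSubgroup ℚ) → k} (hd : Conj P ϖ τ₀ d m) {j : ℕ}
    (h1 : p ^ 2 - 2 ≤ j) (hj : j < p ^ 2 + p) (hjp : ¬ p ∣ j) (hlive : j ≠ p ^ 2 + 1)
    {b : k → IsLocalRing.ResidueField ↥P} (hb : ∀ t, IsLam P p ϖ lam j d t (b t)) (t : k) :
    b t = 0 := by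
  have hp : p.Prime := Fact.out
  have hp3 := F.three_le
  have hj1 : 1 ≤ j := (ar_H hp3 h1 hj).1.trans' (by omega)
  have hj2 : 2 ≤ j := (ar_H hp3 h1 hj).1.trans' (by omega)
  have hadd := F.rel_add hj1 hjp hj hb
  have hrel := F.rel₀ hd hj1 hjp hj hb
  by_cases hj' : j = p ^ 2 - 1
  · refine alg_dead_E1 b hadd _ hM1 (fun t => ?_) t
    rw [hrel t, hj', F.rho_prim.pow_eq_one, one_mul]
  · refine alg_dead_E2 b hadd _ w (p + 1) hM (SSLev.res P ξ₀ ^ j) ?_ hrel t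
    rw [F.w_res, ← pow_mul, ← pow_mul]
    intro h
    have h4 : (p + 1) * 2 ≤ j * (p + 1) := by
      rw [mul_comm]
      exact Nat.mul_le_mul_right _ hj2
    have h5 := dvd_sub_of_pow_eq F.rho_prim (Levels.sq_sub_one_pos p) h4 h
    rw [mul_comm (p + 1) 2] at h5
    rcases ar_E hp hp3 h1 hj h5 with h6 | h6
    · exact hlive h6
    · exact hj' h6

/-- One step of the climb: at a level of the window which is a multiple of `p`, or at which the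
coordinate is dead, the level can be raised. -/
theorem lev_step (F : Frame k p P ϖ lam τ₀ ξ₀ w φ₂ ξ₂ w₂)
    {d : ↥(P.decompositionSubgroup ℚ) → k} {j : ℕ} (h1 : p ^ 2 - 2 ≤ j) (h2 : j ≤ p ^ 2 + p)
    (hdead : ¬ p ∣ j → j < p ^ 2 + p → ∀ b : k → IsLocalRing.ResidueField ↥P,
      (∀ t, IsLam P p ϖ lam j d t (b t)) → ∀ t, b t = 0)
    (h : Lev P p ϖ lam j d) : Lev P p ϖ lam (j + 1) d := by
  have hp : p.Prime := Fact.out
  have hp3 := F.three_le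
  by_cases hpj : p ∣ j
  · obtain ⟨i, rfl⟩ := hpj
    rcases ar_dvd hp3 h1 h2 with rfl | rfl
    · exact lev_succ_of_dvd LevelsInst.k4 F.hp2 F.hP F.hϖ F.hpk hp.one_le le_rfl h
    · have e : p * (p + 1) = p ^ 2 + p := by ring
      rw [e] at h ⊢
      exact lev_succ_top LevelsInst.k4' F.hp2 F.hP F.hϖ F.hpk h
  · have hlt : j < p ^ 2 + p := by
      rcases Nat.lt_or_ge j (p ^ 2 + p) with h3 | h3
      · exact h3
      · exfalso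
        have h4 : j = p ^ 2 + p := le_antisymm h2 h3
        apply hpj
        rw [h4, pow_two]
        exact Dvd.intro (p + 1) (by ring)
    choose b hb using fun t => Lev.exists_isLam h t
    have hb0 := hdead hpj hlt b hb
    refine lev_succ_of_isLam_zero Loc.Tame.fVal F.hP F.hϖ F.hpk (fun t => ?_)
    rw [← hb0 t]
    exact hb t

/-- The climb from `j₀` to `j₁` through dead levels. -/
theorem lev_climb (F : Frame k p P ϖ lam τ₀ ξ₀ w φ₂ ξ₂ w₂)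
    {d : ↥(P.decompositionSubgroup ℚ) → k} {j₀ j₁ : ℕ} (h1 : p ^ 2 - 2 ≤ j₀) (h01 : j₀ ≤ j₁)
    (h2 : j₁ ≤ p ^ 2 + p + 1)
    (hdead : ∀ j, j₀ ≤ j → j < j₁ → ¬ p ∣ j → j < p ^ 2 + p →
      ∀ b : k → IsLocalRing.ResidueField ↥P, (∀ t, IsLam P p ϖ lam j d t (b t)) → ∀ t, b t = 0)
    (h : Lev P p ϖ lam j₀ d) : Lev P p ϖ lam j₁ d := by
  have key : ∀ n, j₀ ≤ n → n ≤ p ^ 2 + p + 1 →
      (∀ j, j₀ ≤ j → j < n → ¬ p ∣ j → j < p ^ 2 + p →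
        ∀ b : k → IsLocalRing.ResidueField ↥P, (∀ t, IsLam P p ϖ lam j d t (b t)) →
          ∀ t, b t = 0) → Lev P p ϖ lam n d := by
    intro n hn
    induction n, hn using Nat.le_induction with
    | base => exact fun _ _ => h
    | succ n hn ih =>
      intro h2 hdead
      exact F.lev_step (le_trans h1 hn) (by omega)
        (fun hpj hlt => hdead n hn (Nat.lt_succ_self n) hpj hlt)
        (ih (by omega) (fun j hj0 hjn => hdead j hj0 (Nat.lt_succ_of_lt hjn)))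
  exact key j₁ h01 h2 hdead

/-- Beyond the top level the coordinate vanishes on `G_F`. -/
theorem eq_zero_of_lev_top (F : Frame k p P ϖ lam τ₀ ξ₀ w φ₂ ξ₂ w₂)
    {d : ↥(P.decompositionSubgroup ℚ) → k} (h : Lev P p ϖ lam (p ^ 2 + p + 1) d)
    (σ : ↥(P.decompositionSubgroup ℚ)) (hσ : (σ : GQ) ∈ P.inertiaSubgroupIn ℚ)
    (hσϖ : (σ : GQ) ϖ = ϖ) : d σ = 0 := by
  by_contra hne
  obtain ⟨x, hx⟩ := F.hlam
  apply hx
  have h1 := lam_eq_one_of_lev_top LevelsInst.k5 F.hp2 F.hP F.hϖ F.hpk h (x / d σ) σ hσ hσϖ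
  rwa [div_mul_cancel₀ x hne] at h1

/-- (H) a coordinate with multiplier `1` of level `≥ p² − 2` vanishes on `G_F`. -/
theorem eq_zero_of_H (F : Frame k p P ϖ lam τ₀ ξ₀ w φ₂ ξ₂ w₂)
    {d : ↥(P.decompositionSubgroup ℚ) → k} (hd : Conj P ϖ τ₀ d 1)
    (h : Lev P p ϖ lam (p ^ 2 - 2) d)
    (σ : ↥(P.decompositionSubgroup ℚ)) (hσ : (σ : GQ) ∈ P.inertiaSubgroupIn ℚ)
    (hσϖ : (σ : GQ) ϖ = ϖ) : d σ = 0 :=
  F.eq_zero_of_lev_top
    (F.lev_climb le_rfl (by omega) le_rfl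
      (fun _ hj0 _ hpj hlt _ hb => F.dead_H hd hj0 hlt hpj hb) h) σ hσ hσϖ

/-- (E) two coordinates with multiplier `m` of level `≥ p² − 2` are `k`-dependent on `G_F`. -/
theorem exists_comb_E [Finite k] (F : Frame k p P ϖ lam τ₀ ξ₀ w φ₂ ξ₂ w₂) {m : k}
    (hM : ((w : k) * m) ^ (p + 1) = (w : k) ^ 2) (hM1 : (w : k) * m ≠ 1)
    {d₁ d₂ : ↥(P.decompositionSubgroup ℚ) → k}
    (hd₁ : Conj P ϖ τ₀ d₁ m) (hd₁' : Conj P ϖ φ₂ d₁ 1)
    (hd₂ : Conj P ϖ τ₀ d₂ m) (hd₂' : Conj P ϖ φ₂ d₂ 1)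
    (h₁ : Lev P p ϖ lam (p ^ 2 - 2) d₁) (h₂ : Lev P p ϖ lam (p ^ 2 - 2) d₂) :
    ∃ α₁ α₂ : k, (α₁ ≠ 0 ∨ α₂ ≠ 0) ∧ ∀ σ : ↥(P.decompositionSubgroup ℚ),
      (σ : GQ) ∈ P.inertiaSubgroupIn ℚ → (σ : GQ) ϖ = ϖ → α₁ * d₁ σ + α₂ * d₂ σ = 0 := by
  have hp : p.Prime := Fact.out
  have hp3 := F.three_le
  have hL : ∀ d : ↥(P.decompositionSubgroup ℚ) → k, Conj P ϖ τ₀ d m →
      Lev P p ϖ lam (p ^ 2 - 2) d → Lev P p ϖ lam (p ^ 2 + 1) d := fun d hd h =>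
    F.lev_climb le_rfl (by omega) (by omega)
      (fun j hj0 hj1 hpj hlt _ hb => F.dead_E hM hM1 hd hj0 hlt hpj (by omega) hb) h
  have hL₁ := hL d₁ hd₁ h₁
  have hL₂ := hL d₂ hd₂ h₂
  choose b₁ hb₁ using fun t => Lev.exists_isLam hL₁ t
  choose b₂ hb₂ using fun t => Lev.exists_isLam hL₂ t
  have hj1 : 1 ≤ p ^ 2 + 1 := by omega
  have hjp : ¬ p ∣ p ^ 2 + 1 := ar_not_dvd_succ hp
  have hj : p ^ 2 + 1 < p ^ 2 + p := by omega
  have := F.charκ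
  have := F.chark
  have hc₀ : (w₂ : k) * 1 ≠ 0 := by
    rw [mul_one]
    exact F.hw₂k
  have hθ : (SSLev.res P ξ₀ ^ (p ^ 2 + 1)) ^ p ≠ SSLev.res P ξ₀ ^ (p ^ 2 + 1) := by
    have e : SSLev.res P ξ₀ ^ (p ^ 2 + 1) = SSLev.res P ξ₀ ^ 2 := by
      have e1 : p ^ 2 + 1 = (p ^ 2 - 1) + 2 := by
        have := Levels.sq_sub_one_pos p
        omega
      rw [e1, pow_add, F.rho_prim.pow_eq_one, one_mul]
    rw [e, ← pow_mul]
    intro h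
    exact (ar_theta hp3).2 (dvd_sub_of_pow_eq F.rho_prim (Levels.sq_sub_one_pos p)
      (ar_theta hp3).1 h)
  obtain ⟨α₁, α₂, hα, hcomb⟩ := exists_comb_eq_zero p ((w : k) * m) ((w₂ : k) * 1) hc₀
    (SSLev.res P ξ₀ ^ (p ^ 2 + 1)) (SSLev.res P ξ₂ ^ (p ^ 2 + 1)) hθ b₁ b₂
    ⟨F.rel_add hj1 hjp hj hb₁, fun t => F.rel₀ hd₁ hj1 hjp hj hb₁ t,
      fun t => F.rel₂ hd₁' hj1 hjp hj hb₁ t⟩
    ⟨F.rel_add hj1 hjp hj hb₂, fun t => F.rel₀ hd₂ hj1 hjp hj hb₂ t,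
      fun t => F.rel₂ hd₂' hj1 hjp hj hb₂ t⟩
  have hd := hd₁.comb hd₂ α₁ α₂
  have hzero : ∀ t : k, IsLam P p ϖ lam (p ^ 2 + 1) (α₁ • d₁ + α₂ • d₂) t 0 := by
    intro t
    have e1 : IsLam P p ϖ lam (p ^ 2 + 1) (α₁ • d₁) t (b₁ (α₁ * t)) :=
      (isLam_smul_iff _ α₁ t _).mpr (by rw [mul_comm]; exact hb₁ _)
    have e2 : IsLam P p ϖ lam (p ^ 2 + 1) (α₂ • d₂) t (b₂ (α₂ * t)) :=
      (isLam_smul_iff _ α₂ t _).mpr (by rw [mul_comm]; exact hb₂ _)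
    have e3 := isLam_add_d F.hP F.hϖ hj1 e1 e2
    rwa [hcomb t] at e3
  have hL' : Lev P p ϖ lam (p ^ 2 + 1 + 1) (α₁ • d₁ + α₂ • d₂) :=
    lev_succ_of_isLam_zero Loc.Tame.fVal F.hP F.hϖ F.hpk hzero
  have hT : Lev P p ϖ lam (p ^ 2 + p + 1) (α₁ • d₁ + α₂ • d₂) :=
    F.lev_climb (by omega) (by omega) le_rfl
      (fun j hj0 _ hpj hlt _ hb => F.dead_E hM hM1 hd (by omega) hlt hpj (by omega) hb) hL'
  refine ⟨α₁, α₂, hα, fun σ hσ hσϖ => ?_⟩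
  have h0 := F.eq_zero_of_lev_top hT σ hσ hσϖ
  simpa only [Pi.add_apply, Pi.smul_apply, smul_eq_mul] using h0

end Frame

/-! ### Cocycles on `G_F` and their coordinates -/

section Coord

variable {k : Type} [Field k]

theorem adAct_one_apply (rb : GQ →* Mat2 k) (g : GQ) (X : Mat2 k) :
    adAct rb 1 g X = rb g * X * rb g⁻¹ := by
  rw [adAct_apply, MonoidHom.one_apply, Units.val_one, one_smul]

theorem rb_mul_inv (rb : GQ →* Mat2 k) (g : GQ) : rb g * rb g⁻¹ = 1 := by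
  rw [← map_mul, mul_inv_cancel, map_one]

theorem rb_inv_mul (rb : GQ →* Mat2 k) (g : GQ) : rb g⁻¹ * rb g = 1 := by
  rw [← map_mul, inv_mul_cancel, map_one]

/-- For a cocycle `c`, `σ` with `rb σ = 1` and any `τ`: `c (τ⁻¹ σ τ) = rb(τ)⁻¹ c(σ) rb(τ)`. -/
theorem cocycle_conj {rb : GQ →* Mat2 k} {D : Subgroup GQ} {c : ↥D → Mat2 k}
    (hc : c ∈ Z1On D rb 1) (σ τ : ↥D) (hσ : rb (σ : GQ) = 1) :
    c (τ⁻¹ * σ * τ) = rb (τ : GQ)⁻¹ * c σ * rb (τ : GQ) := by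
  obtain ⟨-, hcoc, -⟩ := hc
  have h1 : c 1 = 0 := by
    have h := hcoc 1 1
    rw [mul_one, adAct_one_apply, Subgroup.coe_one, inv_one, map_one, one_mul, mul_one] at h
    exact left_eq_add.mp h
  have h2 : c τ⁻¹ + rb (τ : GQ)⁻¹ * c τ * rb (τ : GQ) = 0 := by
    have h := hcoc τ⁻¹ τ
    rw [inv_mul_cancel, h1, adAct_one_apply, Subgroup.coe_inv, inv_inv] at h
    exact h.symm
  have hσ' : rb (σ : GQ)⁻¹ = 1 := by
    have h := rb_inv_mul rb (σ : GQ)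
    rwa [hσ, mul_one] at h
  rw [mul_assoc, hcoc, adAct_one_apply, hcoc σ τ, adAct_one_apply, hσ, hσ', one_mul, mul_one,
    Subgroup.coe_inv, inv_inv, mul_add, add_mul, ← add_assoc, add_right_comm, h2, zero_add]

/-- The conjugation relation in the basis `Q`. -/
theorem conj_coord {rb : GQ →* Mat2 k} {D : Subgroup GQ} {c : ↥D → Mat2 k}
    (hc : c ∈ Z1On D rb 1) {Q Qi : Mat2 k} (hQ : Q * Qi = 1) (σ τ : ↥D)
    (hσ : rb (σ : GQ) = 1) :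
    (Qi * rb (τ : GQ) * Q) * (Qi * c (τ⁻¹ * σ * τ) * Q) =
      (Qi * c σ * Q) * (Qi * rb (τ : GQ) * Q) := by
  rw [cocycle_conj hc σ τ hσ]
  calc (Qi * rb (τ : GQ) * Q) * (Qi * (rb (τ : GQ)⁻¹ * c σ * rb (τ : GQ)) * Q)
      = Qi * (rb (τ : GQ) * ((Q * Qi) * (rb (τ : GQ)⁻¹ * (c σ * (rb (τ : GQ) * Q))))) := by
        simp only [mul_assoc]
    _ = Qi * ((rb (τ : GQ) * rb (τ : GQ)⁻¹) * (c σ * (rb (τ : GQ) * Q))) := by
        rw [hQ, one_mul, mul_assoc]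
    _ = Qi * (c σ * ((Q * Qi) * (rb (τ : GQ) * Q))) := by
        rw [rb_mul_inv, one_mul, hQ, one_mul]
    _ = (Qi * c σ * Q) * (Qi * rb (τ : GQ) * Q) := by
        simp only [mul_assoc]

theorem diag_entries {a₁ a₂ : k} {X X' : Mat2 k}
    (h : !![a₁, 0; 0, a₂] * X' = X * !![a₁, 0; 0, a₂]) :
    a₁ * X' 0 0 = X 0 0 * a₁ ∧ a₁ * X' 0 1 = X 0 1 * a₂ := by
  constructor
  · have h' := congrFun (congrFun h 0) 0
    simpa [Matrix.mul_apply, Fin.sum_univ_two] using h'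
  · have h' := congrFun (congrFun h 0) 1
    simpa [Matrix.mul_apply, Fin.sum_univ_two] using h'

theorem anti_entries {b₁ b₂ : k} {X X' : Mat2 k}
    (h : !![0, b₁; b₂, 0] * X' = X * !![0, b₁; b₂, 0]) : b₂ * X' 0 1 = X 1 0 * b₁ := by
  have h' := congrFun (congrFun h 1) 1
  simpa [Matrix.mul_apply, Fin.sum_univ_two] using h'

/-- The `(i, j)`-coordinate in the basis `Q`. -/
def coordHom (Q Qi : Mat2 k) (i j : Fin 2) : Mat2 k →+ k where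
  toFun M := (Qi * M * Q) i j
  map_zero' := by simp
  map_add' M N := by simp [mul_add, add_mul]

theorem coordHom_apply (Q Qi : Mat2 k) (i j : Fin 2) (M : Mat2 k) :
    coordHom Q Qi i j M = (Qi * M * Q) i j := rfl

theorem coordHom_comb (Q Qi : Mat2 k) (i j : Fin 2) (α₁ α₂ : k) (M₁ M₂ : Mat2 k) :
    coordHom Q Qi i j (α₁ • M₁ + α₂ • M₂) =
      α₁ * coordHom Q Qi i j M₁ + α₂ * coordHom Q Qi i j M₂ := by
  simp [coordHom_apply, mul_add, add_mul]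

/-- The coordinates of a function of Kummer level `≥ p² − 2` have level `≥ p² − 2`. -/
theorem lev_coord {p : ℕ} {P : ValuationSubring Qb} {ϖ : Qb}
    (hϖ : ϖ ^ (p ^ 2 - 1) = -(p : Qb)) (lam : AddChar k Qb) (f : Mat2 k →+ k)
    {c : ↥(P.decompositionSubgroup ℚ) → Mat2 k} (hc : IsFlSS P p c) :
    Lev P p ϖ lam (p ^ 2 - 2) (fun σ => f (c σ)) := by
  intro t
  obtain ⟨z, hz0, -, hz1, hz2⟩ :=
    hc ϖ hϖ (lam.compAddMonoidHom ((AddMonoidHom.mulLeft t).comp f))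
  exact ⟨z, hz0, hz1, fun σ hσ hσϖ => by rw [hz2 σ hσ hσϖ]; rfl⟩

/-- Conjugation by an element acting diagonally in the basis `Q`. -/
theorem conj_diag {rb : GQ →* Mat2 k} {P : ValuationSubring Qb} {ϖ : Qb}
    (hGF : ∀ σ ∈ P.inertiaSubgroupIn ℚ, σ ϖ = ϖ → rb σ = 1)
    {c : ↥(P.decompositionSubgroup ℚ) → Mat2 k} (hc : c ∈ Z1On (P.decompositionSubgroup ℚ) rb 1)
    {Q Qi : Mat2 k} (hQ : Q * Qi = 1) {τ : GQ} {a₁ a₂ : k} (ha₁ : a₁ ≠ 0)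
    (hT : Qi * rb τ * Q = !![a₁, 0; 0, a₂]) :
    Conj P ϖ τ (fun σ => coordHom Q Qi 0 0 (c σ)) 1 ∧
      Conj P ϖ τ (fun σ => coordHom Q Qi 0 1 (c σ)) (a₂ / a₁) := by
  have key : ∀ (hτ : τ ∈ P.decompositionSubgroup ℚ) (σ : ↥(P.decompositionSubgroup ℚ)),
      (σ : GQ) ∈ P.inertiaSubgroupIn ℚ → (σ : GQ) ϖ = ϖ →
      !![a₁, 0; 0, a₂] * (Qi * c ((⟨τ, hτ⟩ : ↥(P.decompositionSubgroup ℚ))⁻¹ * σ * ⟨τ, hτ⟩) * Q) =
        (Qi * c σ * Q) * !![a₁, 0; 0, a₂] := by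
    intro hτ σ hσ hσϖ
    have h := conj_coord hc hQ σ ⟨τ, hτ⟩ (hGF σ hσ hσϖ)
    rw [← hT]
    exact h
  refine ⟨fun hτ σ hσ hσϖ => ?_, fun hτ σ hσ hσϖ => ?_⟩
  · have h := (diag_entries (key hτ σ hσ hσϖ)).1
    simp only [coordHom_apply]
    rw [one_mul]
    exact mul_left_cancel₀ ha₁ (h.trans (mul_comm _ _))
  · have h := (diag_entries (key hτ σ hσ hσϖ)).2
    simp only [coordHom_apply]
    rw [div_mul_eq_mul_div, eq_div_iff ha₁]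
    linear_combination h

/-- A cocycle whose `(1,1)`- and `(1,2)`-coordinates vanish on `G_F` vanishes on `G_F`, if some
`φ` normalising `G_F` acts antidiagonally. -/
theorem eq_zero_on_GF {p : ℕ} [Fact p.Prime] {rb : GQ →* Mat2 k} {P : ValuationSubring Qb}
    {ϖ : Qb} (hP : P.LiesOverPrime p) (hϖ : ϖ ^ (p ^ 2 - 1) = -(p : Qb))
    (hGF : ∀ σ ∈ P.inertiaSubgroupIn ℚ, σ ϖ = ϖ → rb σ = 1)
    {c : ↥(P.decompositionSubgroup ℚ) → Mat2 k} (hc : c ∈ Z1On (P.decompositionSubgroup ℚ) rb 1)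
    {Q Qi : Mat2 k} (hQ : Q * Qi = 1) {φ : GQ} (hφ : φ ∈ P.decompositionSubgroup ℚ) {ξ : Qb}
    (hφϖ : φ ϖ = ξ * ϖ) {b₁ b₂ : k} (hb₁ : b₁ ≠ 0) (hT : Qi * rb φ * Q = !![0, b₁; b₂, 0])
    (h00 : ∀ σ : ↥(P.decompositionSubgroup ℚ), (σ : GQ) ∈ P.inertiaSubgroupIn ℚ →
      (σ : GQ) ϖ = ϖ → coordHom Q Qi 0 0 (c σ) = 0)
    (h01 : ∀ σ : ↥(P.decompositionSubgroup ℚ), (σ : GQ) ∈ P.inertiaSubgroupIn ℚ →
      (σ : GQ) ϖ = ϖ → coordHom Q Qi 0 1 (c σ) = 0)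
    (σ : ↥(P.decompositionSubgroup ℚ)) (hσ : (σ : GQ) ∈ P.inertiaSubgroupIn ℚ)
    (hσϖ : (σ : GQ) ϖ = ϖ) : c σ = 0 := by
  obtain ⟨hm1, hm2⟩ := Equivar.conj_mem_GF hP hϖ hφ hφϖ hσ hσϖ
  have h := conj_coord hc hQ σ ⟨φ, hφ⟩ (hGF σ hσ hσϖ)
  have h' : !![0, b₁; b₂, 0] *
      (Qi * c ((⟨φ, hφ⟩ : ↥(P.decompositionSubgroup ℚ))⁻¹ * σ * ⟨φ, hφ⟩) * Q) =
        (Qi * c σ * Q) * !![0, b₁; b₂, 0] := by
    rw [← hT]
    exact h
  have e01 := h01 ((⟨φ, hφ⟩ : ↥(P.decompositionSubgroup ℚ))⁻¹ * σ * ⟨φ, hφ⟩) hm1 hm2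
  rw [coordHom_apply] at e01
  have e10 : (Qi * c σ * Q) 1 0 = 0 := by
    have h3 := anti_entries h'
    rw [e01, mul_zero] at h3
    exact (mul_eq_zero.mp h3.symm).resolve_right hb₁
  have e00 : (Qi * c σ * Q) 0 0 = 0 := h00 σ hσ hσϖ
  have e01' : (Qi * c σ * Q) 0 1 = 0 := h01 σ hσ hσϖ
  have e11 : (Qi * c σ * Q) 1 1 = 0 := by
    have htr : (Qi * c σ * Q).trace = 0 := by
      rw [Matrix.trace_mul_comm, ← mul_assoc, hQ, one_mul]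
      exact hc.1 σ
    rw [Matrix.trace_fin_two, e00, zero_add] at htr
    exact htr
  have hX : Qi * c σ * Q = 0 := by
    ext i j
    fin_cases i <;> fin_cases j
    · exact e00
    · exact e01'
    · exact e10
    · exact e11
  have e : c σ = Q * (Qi * c σ * Q) * Qi := by
    calc c σ = (Q * Qi) * c σ * (Q * Qi) := by rw [hQ, one_mul, mul_one]
      _ = Q * (Qi * c σ * Q) * Qi := by simp only [mul_assoc]
  rw [e, hX, mul_zero, zero_mul]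

end Coord

/-! ### The count -/

section Final

variable {k : Type} [Field k] [Finite k]

/-- Any two elements of `LSS` are `k`-dependent modulo coboundaries. -/
theorem exists_comb_mem_B1On (rb : GQ →* Mat2 k) (p : ℕ) [Fact p.Prime] (hp2 : p ≠ 2)
    (h : ResidualHyp rb p) (P : ValuationSubring Qb) (hP : P.LiesOverPrime p)
    (hline : ¬ HasLine rb P) (c₁ : ↥(P.decompositionSubgroup ℚ) → Mat2 k)
    (hc₁ : c₁ ∈ LSS rb P p) (c₂ : ↥(P.decompositionSubgroup ℚ) → Mat2 k)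
    (hc₂ : c₂ ∈ LSS rb P p) :
    ∃ α₁ α₂ : k, (α₁ ≠ 0 ∨ α₂ ≠ 0) ∧
      α₁ • c₁ + α₂ • c₂ ∈ B1On (P.decompositionSubgroup ℚ) rb 1 := by
  have hp : p.Prime := Fact.out
  have he : 0 < p ^ 2 - 1 := Levels.sq_sub_one_pos p
  have hnd : ¬ p ∣ p ^ 2 - 1 := Levels.not_dvd_sq_sub_one p
  obtain ⟨ϖ, hϖ, -, -⟩ := Loc.Basic.exists_root_neg_p p P hP (p ^ 2 - 1) he
  have S : SSLev.Setting p P ϖ := ⟨hp, hp2, hP, hϖ⟩
  have : NeZero ((p ^ 2 - 1 : ℕ) : ℚ) := ⟨by exact_mod_cast he.ne'⟩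
  have : NeZero (p ^ 2 - 1) := ⟨he.ne'⟩
  obtain ⟨ξ₀, hξ₀⟩ := HasEnoughRootsOfUnity.exists_primitiveRoot Qb (p ^ 2 - 1)
  obtain ⟨τ₀, hτ₀, hτ₀ϖ⟩ := Loc.Tame.fConj p P hP (p ^ 2 - 1) he hnd ϖ hϖ ξ₀ hξ₀.pow_eq_one
  obtain ⟨w, hw⟩ := Fermat.Agent.TW.StrictOrd.exists_cyclo_exponent p τ₀
  obtain ⟨φ, hφF, hφD, hφN, -, -⟩ := Loc.Basic.exists_frobenius p P hP
  obtain ⟨w₂, hw₂⟩ := Fermat.Agent.TW.StrictOrd.exists_cyclo_exponent p (φ * φ)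
  have hφ₂D : φ * φ ∈ P.decompositionSubgroup ℚ := mul_mem hφD hφD
  have hφ₂ϖ : (φ * φ) ϖ = ((φ * φ) ϖ / ϖ) * ϖ := SSLev.apply_varpi S (φ * φ)
  have hξ₂ : (φ * φ) ϖ / ϖ ∈ P := (SSLev.xi_isPUnit S hφ₂ϖ).2.1
  have hφϖ : φ ϖ = (φ ϖ / ϖ) * ϖ := SSLev.apply_varpi S φ
  have hN₂ : ∀ x ∈ P, (φ * φ) x - x ^ (p ^ 2) ∈ P.nonunits := by
    intro x hx
    have hφx : φ x ∈ P := (Loc.Basic.decompMem P φ hφD x).mpr hx
    have hφφx : φ (φ x) ∈ P := (Loc.Basic.decompMem P φ hφD (φ x)).mpr hφx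
    have e1 : SSLev.res P (φ x) = SSLev.res P x ^ p := by
      rw [← SSLev.res_pow P hx, SSLev.res_eq_iff P hφx (pow_mem hx p)]
      exact hφN x hx
    have e2 : SSLev.res P (φ (φ x)) = SSLev.res P (φ x) ^ p := by
      rw [← SSLev.res_pow P hφx, SSLev.res_eq_iff P hφφx (pow_mem hφx p)]
      exact hφN (φ x) hφx
    rw [AlgEquiv.mul_apply, ← SSLev.res_eq_iff P hφφx (pow_mem hx _), e2, e1,
      SSLev.res_pow P hx, ← pow_mul, pow_two]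
  obtain ⟨lam, hlam⟩ :=
    Fermat.Agent.Lib.FinFlat.exists_addChar_ne_one (V := k) (v := 1) one_ne_zero
  have hw₂k : (w₂ : k) ≠ 0 := by
    rw [← h.detCyc (φ * φ) w₂ hw₂]
    exact Fermat.Agent.TW.StrictOrd.det_rb_ne_zero rb (φ * φ)
  have F : Frame k p P ϖ lam τ₀ ξ₀ w (φ * φ) ((φ * φ) ϖ / ϖ) w₂ :=
    ⟨hp2, hP, hϖ, h.charP, ⟨1, hlam⟩, hτ₀, hξ₀, hτ₀ϖ, hw, hφ₂D, hξ₂, hφ₂ϖ, hw₂, hN₂, hw₂k⟩
  have hGF : ∀ σ ∈ P.inertiaSubgroupIn ℚ, σ ϖ = ϖ → rb σ = 1 :=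
    SSStructProof.ssStruct_final rb p hp2 h P hP hline ϖ hϖ
  obtain ⟨Q, Qi, a₁, a₂, b₁, b₂, hQ, -, ha, ha₂, ha₁, hb₁, hb₂, hT₀, hTφ⟩ :=
    exists_eigen_structure SSStructProof.ssStruct_final rb p hp2 h P hP hline ϖ hϖ τ₀ hτ₀ ξ₀ hξ₀
      hτ₀ϖ φ hφF
  have ha₁0 : a₁ ≠ 0 := by
    rintro rfl
    apply ha
    rw [ha₂, zero_pow hp.ne_zero]
  have hs : b₁ * b₂ ≠ 0 := mul_ne_zero hb₁ hb₂
  have hT₂ : Qi * rb (φ * φ) * Q = !![b₁ * b₂, 0; 0, b₁ * b₂] := by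
    have e : Qi * rb (φ * φ) * Q = (Qi * rb φ * Q) * (Qi * rb φ * Q) := by
      calc Qi * rb (φ * φ) * Q = Qi * (rb φ * (1 * (rb φ * Q))) := by
            rw [map_mul, one_mul]
            simp only [mul_assoc]
        _ = Qi * (rb φ * ((Q * Qi) * (rb φ * Q))) := by rw [hQ]
        _ = (Qi * rb φ * Q) * (Qi * rb φ * Q) := by simp only [mul_assoc]
    rw [e, hTφ]
    ext i j
    fin_cases i <;> fin_cases j <;> simp [Matrix.mul_apply, Fin.sum_univ_two, mul_comm]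
  -- the multiplier of the `(1,2)`-coordinate
  have hdet : (rb τ₀).det = a₁ * a₂ := by
    have h1 : (Qi * rb τ₀ * Q).det = a₁ * a₂ := by
      rw [hT₀, Matrix.det_fin_two_of]
      ring
    rw [Matrix.det_mul, Matrix.det_mul, mul_comm, ← mul_assoc, ← Matrix.det_mul, hQ,
      Matrix.det_one, one_mul] at h1
    exact h1
  have hwk : (w : k) = a₁ * a₂ := (h.detCyc τ₀ w hw).symm.trans hdet
  have hwm : (w : k) * (a₂ / a₁) = a₂ ^ 2 := by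
    rw [hwk]
    field_simp
  have hM : ((w : k) * (a₂ / a₁)) ^ (p + 1) = (w : k) ^ 2 := by
    rw [hwm, hwk, ha₁]
    ring
  have hM1 : (w : k) * (a₂ / a₁) ≠ 1 := by
    rw [hwm]
    intro h1
    obtain ⟨q, hq⟩ := hp.eq_two_or_odd'.resolve_left hp2
    apply ha
    rw [ha₁, hq, pow_succ, pow_mul, h1, one_pow, one_mul]
  obtain ⟨hc₁Z, hc₁F⟩ := (mem_LSS rb P p c₁).mp hc₁
  obtain ⟨hc₂Z, hc₂F⟩ := (mem_LSS rb P p c₂).mp hc₂
  have hE : ∀ c ∈ Z1On (P.decompositionSubgroup ℚ) rb 1,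
      Conj P ϖ τ₀ (fun σ => coordHom Q Qi 0 1 (c σ)) (a₂ / a₁) ∧
        Conj P ϖ (φ * φ) (fun σ => coordHom Q Qi 0 1 (c σ)) 1 := by
    intro c hc
    refine ⟨(conj_diag hGF hc hQ ha₁0 hT₀).2, ?_⟩
    have h2 := (conj_diag hGF hc hQ hs hT₂).2
    rwa [div_self hs] at h2
  obtain ⟨α₁, α₂, hα, hcomb⟩ := F.exists_comb_E hM hM1 (hE c₁ hc₁Z).1 (hE c₁ hc₁Z).2
    (hE c₂ hc₂Z).1 (hE c₂ hc₂Z).2 (lev_coord hϖ lam _ hc₁F) (lev_coord hϖ lam _ hc₂F)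
  refine ⟨α₁, α₂, hα, ?_⟩
  have hcL : α₁ • c₁ + α₂ • c₂ ∈ LSS rb P p :=
    add_mem (Submodule.smul_mem _ _ hc₁) (Submodule.smul_mem _ _ hc₂)
  obtain ⟨hcZ, hcF⟩ := (mem_LSS rb P p _).mp hcL
  refine ResB1.mem_B1On_of_eq_zero_on_GF rb p hp2 h P hP hline (p ^ 2 - 1) he hnd ϖ hϖ _ hcZ ?_
  refine eq_zero_on_GF hP hϖ hGF hcZ hQ hφD hφϖ hb₁ hTφ ?_ ?_
  · intro σ hσ hσϖ
    exact F.eq_zero_of_H (conj_diag hGF hcZ hQ ha₁0 hT₀).1 (lev_coord hϖ lam _ hcF) σ hσ hσϖ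
  · intro σ hσ hσϖ
    rw [Pi.add_apply, Pi.smul_apply, Pi.smul_apply, coordHom_comb]
    exact hcomb σ hσ hσϖ

/-- **FLAT-SS-COUNT** (row 335): in the irreducible case the supersingular condition has
dimension `≤ 1` modulo coboundaries. -/
theorem ssCount : SSCount k := by
  intro rb p _ hp2 h P hP hline
  have := ResCount.finite_B1On (P.decompositionSubgroup ℚ) rb
  exact card_sup_le_of_pairs (LSS rb P p) (B1On (P.decompositionSubgroup ℚ) rb 1)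
    (exists_comb_mem_B1On rb p hp2 h P hP hline)

end Final

end Fermat.Agent.TW.Flat.SS.CountB
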