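/-
TW-FLAT, row 335 (FLAT-SS-COUNT): the LEVEL FILTRATION of the supersingular condition, in witness
form.

`ϖ ^ (p² − 1) = -p`, `G_F = {σ ∈ I | σ ϖ = ϖ}`.  For a function `c` on the decomposition group:

* `Wit P p ϖ j c ψ z` : `z` is a Kummer witness of level `≥ j` for `(c, ψ)`: `z ≠ 0`,
  `z ^ p ≡ 1 mod ϖ ^ j`, and `σ z = ψ (c σ) · z` on `G_F` (`SSWitness` is the case `j = p² − 2`);
* `Lev P p ϖ j c` : every additive character has a witness of level `≥ j`;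
* `LevSub rb P p ϖ j` : the cocycles of level `≥ j`, a submodule;
* `lev_succ_of_mul` (K4), `lev_succ_top` (K4'), `eq_zero_of_lev_top` (K5): the trivial steps of
  the filtration and its end;
* `lam P p ϖ j c ψ` : the leading coefficient (residue of `(z ^ p − 1) / ϖ ^ j`), well defined for
  `p ∤ j`, `1 ≤ j < p² + p` (`lam_eq`, from K3), additive in `ψ` and in `c`
  (`lam_mul_char`, `lam_add`), compatible with scalars (`lam_smul`), and with kernel the next step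
  of the filtration (`lev_succ_of_lam_eq_zero`, from F-VAL);
* `card_res_LSS_le` : the counting skeleton: `#{c|G_F : c ∈ LSS} ≤ ∏_j n_j` if the image of
  `c ↦ lam j c` on the cocycles of level `≥ j` has at most `n_j` elements for each valid level `j`.
-/
import Mathlib
import Fermat.Agent.TW.Flat.SS.Levels
import Fermat.Agent.TW.Flat.SS.ResCount
import Fermat.Agent.Lib.FinFlat.Dual

set_option autoImplicit false

namespace Fermat.Agent.TW.Flat.SS.Filt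

open Fermat.Agent.S53 Fermat.Agent.TW Fermat.Agent.TW.Flat Fermat.Agent.TW.Flat.SS

local notation "Qb" => AlgebraicClosure ℚ

variable {k : Type} [Field k]

/-! ### Witnesses of level `≥ j` -/

/-- A Kummer witness of level `≥ j` for `(c, ψ)`: `z ≠ 0`, `z ^ p ∈ P`, `z ^ p ≡ 1 mod ϖ ^ j`, and
`σ z = ψ (c σ) · z` for `σ ∈ G_F = {σ ∈ I | σ ϖ = ϖ}`. -/
def Wit (P : ValuationSubring Qb) (p : ℕ) (ϖ : Qb) (j : ℕ)
    (c : ↥(P.decompositionSubgroup ℚ) → Mat2 k) (ψ : AddChar (Mat2 k) Qb) (z : Qb) : Prop :=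
  z ≠ 0 ∧ z ^ p ∈ P ∧ (z ^ p - 1) / ϖ ^ j ∈ P ∧
    ∀ σ : ↥(P.decompositionSubgroup ℚ), (σ : GQ) ∈ P.inertiaSubgroupIn ℚ → (σ : GQ) ϖ = ϖ →
      (σ : GQ) z = ψ (c σ) * z

/-- Every additive character has a witness of level `≥ j`. -/
def Lev (P : ValuationSubring Qb) (p : ℕ) (ϖ : Qb) (j : ℕ)
    (c : ↥(P.decompositionSubgroup ℚ) → Mat2 k) : Prop :=
  ∀ ψ : AddChar (Mat2 k) Qb, ∃ z : Qb, Wit P p ϖ j c ψ z

theorem ssWitness_iff (P : ValuationSubring Qb) (p : ℕ) (ϖ : Qb)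
    (c : ↥(P.decompositionSubgroup ℚ) → Mat2 k) (ψ : AddChar (Mat2 k) Qb) (z : Qb) :
    SSWitness P p ϖ c ψ z ↔ Wit P p ϖ (p ^ 2 - 2) c ψ z := Iff.rfl

theorem lev_of_isFlSS {P : ValuationSubring Qb} {p : ℕ} {ϖ : Qb}
    (hϖ : ϖ ^ (p ^ 2 - 1) = -(p : Qb)) {c : ↥(P.decompositionSubgroup ℚ) → Mat2 k}
    (h : IsFlSS P p c) : Lev P p ϖ (p ^ 2 - 2) c := fun ψ => h ϖ hϖ ψ

theorem wit_zero (P : ValuationSubring Qb) (p : ℕ) (ϖ : Qb) (j : ℕ) (ψ : AddChar (Mat2 k) Qb) :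
    Wit P p ϖ j (0 : ↥(P.decompositionSubgroup ℚ) → Mat2 k) ψ 1 := by
  refine ⟨one_ne_zero, by rw [one_pow]; exact P.one_mem, ?_, fun σ _ _ => ?_⟩
  · rw [one_pow, sub_self, zero_div]; exact P.zero_mem
  · simp

theorem Wit.add {P : ValuationSubring Qb} {p : ℕ} {ϖ : Qb} {j : ℕ}
    {c c' : ↥(P.decompositionSubgroup ℚ) → Mat2 k} {ψ : AddChar (Mat2 k) Qb} {z z' : Qb}
    (h : Wit P p ϖ j c ψ z) (h' : Wit P p ϖ j c' ψ z') : Wit P p ϖ j (c + c') ψ (z * z') := by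
  obtain ⟨hz0, hzP, hz1, hz2⟩ := h
  obtain ⟨hw0, hwP, hw1, hw2⟩ := h'
  refine ⟨mul_ne_zero hz0 hw0, by rw [mul_pow]; exact P.mul_mem _ _ hzP hwP, ?_,
    fun σ hσ hσϖ => ?_⟩
  · have e : ((z * z') ^ p - 1) / ϖ ^ j =
        (z ^ p - 1) / ϖ ^ j * z' ^ p + (z' ^ p - 1) / ϖ ^ j := by
      rw [mul_pow]; ring
    rw [e]
    exact P.add_mem _ _ (P.mul_mem _ _ hz1 hwP) hw1
  · rw [map_mul, hz2 σ hσ hσϖ, hw2 σ hσ hσϖ, Pi.add_apply, AddChar.map_add_eq_mul]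
    ring

theorem Wit.mul_char {P : ValuationSubring Qb} {p : ℕ} {ϖ : Qb} {j : ℕ}
    {c : ↥(P.decompositionSubgroup ℚ) → Mat2 k} {ψ ψ' : AddChar (Mat2 k) Qb} {z z' : Qb}
    (h : Wit P p ϖ j c ψ z) (h' : Wit P p ϖ j c ψ' z') : Wit P p ϖ j c (ψ * ψ') (z * z') := by
  obtain ⟨hz0, hzP, hz1, hz2⟩ := h
  obtain ⟨hw0, hwP, hw1, hw2⟩ := h'
  refine ⟨mul_ne_zero hz0 hw0, by rw [mul_pow]; exact P.mul_mem _ _ hzP hwP, ?_,
    fun σ hσ hσϖ => ?_⟩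
  · have e : ((z * z') ^ p - 1) / ϖ ^ j =
        (z ^ p - 1) / ϖ ^ j * z' ^ p + (z' ^ p - 1) / ϖ ^ j := by
      rw [mul_pow]; ring
    rw [e]
    exact P.add_mem _ _ (P.mul_mem _ _ hz1 hwP) hw1
  · rw [map_mul, hz2 σ hσ hσϖ, hw2 σ hσ hσϖ, AddChar.mul_apply]
    ring

theorem wit_smul_iff {P : ValuationSubring Qb} {p : ℕ} {ϖ : Qb} {j : ℕ}
    {c : ↥(P.decompositionSubgroup ℚ) → Mat2 k} {ψ : AddChar (Mat2 k) Qb} {z : Qb} (a : k) :
    Wit P p ϖ j (a • c) ψ z ↔ Wit P p ϖ j c (smulChar a ψ) z := Iff.rfl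

theorem Lev.add {P : ValuationSubring Qb} {p : ℕ} {ϖ : Qb} {j : ℕ}
    {c c' : ↥(P.decompositionSubgroup ℚ) → Mat2 k} (h : Lev P p ϖ j c) (h' : Lev P p ϖ j c') :
    Lev P p ϖ j (c + c') := fun ψ => by
  obtain ⟨z, hz⟩ := h ψ
  obtain ⟨z', hz'⟩ := h' ψ
  exact ⟨z * z', hz.add hz'⟩

theorem Lev.smul {P : ValuationSubring Qb} {p : ℕ} {ϖ : Qb} {j : ℕ}
    {c : ↥(P.decompositionSubgroup ℚ) → Mat2 k} (a : k) (h : Lev P p ϖ j c) :
    Lev P p ϖ j (a • c) := fun ψ => by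
  obtain ⟨z, hz⟩ := h (smulChar a ψ)
  exact ⟨z, (wit_smul_iff a).mpr hz⟩

theorem lev_zero (P : ValuationSubring Qb) (p : ℕ) (ϖ : Qb) (j : ℕ) :
    Lev P p ϖ j (0 : ↥(P.decompositionSubgroup ℚ) → Mat2 k) := fun ψ => ⟨1, wit_zero P p ϖ j ψ⟩

/-- The cocycles of level `≥ j`. -/
def LevSub (rb : GQ →* Mat2 k) (P : ValuationSubring Qb) (p : ℕ) (ϖ : Qb) (j : ℕ) :
    Submodule k (↥(P.decompositionSubgroup ℚ) → Mat2 k) where
  carrier := {c | c ∈ Z1On (P.decompositionSubgroup ℚ) rb 1 ∧ Lev P p ϖ j c}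
  add_mem' := by
    rintro c c' ⟨h1, h2⟩ ⟨h1', h2'⟩
    exact ⟨add_mem h1 h1', h2.add h2'⟩
  zero_mem' := ⟨zero_mem _, lev_zero P p ϖ j⟩
  smul_mem' := by
    rintro a c ⟨h1, h2⟩
    exact ⟨Submodule.smul_mem _ a h1, h2.smul a⟩

theorem mem_LevSub (rb : GQ →* Mat2 k) (P : ValuationSubring Qb) (p : ℕ) (ϖ : Qb) (j : ℕ)
    (c : ↥(P.decompositionSubgroup ℚ) → Mat2 k) :
    c ∈ LevSub rb P p ϖ j ↔ c ∈ Z1On (P.decompositionSubgroup ℚ) rb 1 ∧ Lev P p ϖ j c := Iff.rfl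

theorem LSS_le_LevSub (rb : GQ →* Mat2 k) (P : ValuationSubring Qb) (p : ℕ) {ϖ : Qb}
    (hϖ : ϖ ^ (p ^ 2 - 1) = -(p : Qb)) : LSS rb P p ≤ LevSub rb P p ϖ (p ^ 2 - 2) :=
  fun _ hc => ⟨hc.1, lev_of_isFlSS hϖ hc.2⟩

/-! ### Steps of the filtration -/

section Steps

variable {p : ℕ} [Fact p.Prime] {P : ValuationSubring Qb} {ϖ : Qb}

theorem varpi_mem (hP : P.LiesOverPrime p) (hϖ : ϖ ^ (p ^ 2 - 1) = -(p : Qb)) : ϖ ∈ P :=
  (P.valuation_le_one_iff ϖ).mp (Levels.val_varpi_lt_one hP hϖ).le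

theorem mem_of_div_pow_mem (hP : P.LiesOverPrime p) (hϖ : ϖ ^ (p ^ 2 - 1) = -(p : Qb)) {u : Qb}
    {j : ℕ} (h : (u - 1) / ϖ ^ j ∈ P) : u ∈ P := by
  have hϖ0 : ϖ ≠ 0 := Levels.varpi_ne_zero hϖ
  have e : u = 1 + ϖ ^ j * ((u - 1) / ϖ ^ j) := by
    field_simp
    ring
  rw [e]
  exact P.add_mem _ _ P.one_mem (P.mul_mem _ _ (pow_mem (varpi_mem hP hϖ) j) h)

theorem Wit.mono (hP : P.LiesOverPrime p) (hϖ : ϖ ^ (p ^ 2 - 1) = -(p : Qb)) {j j' : ℕ}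
    (hjj : j ≤ j') {c : ↥(P.decompositionSubgroup ℚ) → Mat2 k} {ψ : AddChar (Mat2 k) Qb} {z : Qb}
    (h : Wit P p ϖ j' c ψ z) : Wit P p ϖ j c ψ z := by
  refine ⟨h.1, h.2.1, ?_, h.2.2.2⟩
  have hϖ0 : ϖ ≠ 0 := Levels.varpi_ne_zero hϖ
  have h1 := (Levels.div_pow_mem_iff hϖ0 _ _).mp h.2.2.1
  exact (Levels.div_pow_mem_iff hϖ0 _ _).mpr (h1.trans (Levels.pow_le_pow_varpi hP hϖ hjj))

theorem Lev.mono (hP : P.LiesOverPrime p) (hϖ : ϖ ^ (p ^ 2 - 1) = -(p : Qb)) {j j' : ℕ}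
    (hjj : j ≤ j') {c : ↥(P.decompositionSubgroup ℚ) → Mat2 k} (h : Lev P p ϖ j' c) :
    Lev P p ϖ j c := fun ψ => by
  obtain ⟨z, hz⟩ := h ψ
  exact ⟨z, hz.mono hP hϖ hjj⟩

omit [Fact p.Prime] in
theorem addChar_pow_p (hpk : (p : k) = 0) (ψ : AddChar (Mat2 k) Qb) (Y : Mat2 k) :
    ψ Y ^ p = 1 := by
  rw [← AddChar.map_nsmul_eq_pow, ← Nat.cast_smul_eq_nsmul k, hpk, zero_smul,
    AddChar.map_zero_eq_one]

theorem addChar_ne_zero (hpk : (p : k) = 0) (ψ : AddChar (Mat2 k) Qb) (Y : Mat2 k) :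
    ψ Y ≠ 0 := by
  intro h
  have h1 := addChar_pow_p hpk ψ Y
  rw [h, zero_pow (Fact.out : p.Prime).ne_zero] at h1
  exact zero_ne_one h1

omit [Fact p.Prime] in
theorem Wit.gfFixed_pow (hpk : (p : k) = 0) {j : ℕ}
    {c : ↥(P.decompositionSubgroup ℚ) → Mat2 k} {ψ : AddChar (Mat2 k) Qb} {z : Qb}
    (h : Wit P p ϖ j c ψ z) : GFFixed P ϖ (z ^ p) := by
  intro σ hσ hσϖ
  rw [map_pow, h.2.2.2 ⟨σ, Levels.inertia_le_decomp P hσ⟩ hσ hσϖ, mul_pow, addChar_pow_p hpk,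
    one_mul]

/-- Dividing a witness by a `G_F`-fixed element. -/
theorem Wit.div_fixed (hP : P.LiesOverPrime p) (hϖ : ϖ ^ (p ^ 2 - 1) = -(p : Qb)) {j j' : ℕ}
    {c : ↥(P.decompositionSubgroup ℚ) → Mat2 k} {ψ : AddChar (Mat2 k) Qb} {z y : Qb}
    (h : Wit P p ϖ j c ψ z) (hy0 : y ≠ 0) (hy : GFFixed P ϖ y)
    (hlev : (z ^ p / y ^ p - 1) / ϖ ^ j' ∈ P) : Wit P p ϖ j' c ψ (z / y) := by
  refine ⟨div_ne_zero h.1 hy0, ?_, ?_, fun σ hσ hσϖ => ?_⟩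
  · rw [div_pow]
    exact mem_of_div_pow_mem hP hϖ hlev
  · rw [div_pow]
    exact hlev
  · rw [map_div₀, h.2.2.2 σ hσ hσϖ, hy (σ : GQ) hσ hσϖ, mul_div_assoc]

/-- (K4) at a level `p · i`, `1 ≤ i ≤ p`, the filtration does not jump. -/
theorem lev_succ_of_mul (hK4 : K4) (hp2 : p ≠ 2) (hpk : (p : k) = 0) (hP : P.LiesOverPrime p)
    (hϖ : ϖ ^ (p ^ 2 - 1) = -(p : Qb)) {i : ℕ} (hi1 : 1 ≤ i) (hi : i ≤ p)
    {c : ↥(P.decompositionSubgroup ℚ) → Mat2 k} (h : Lev P p ϖ (p * i) c) :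
    Lev P p ϖ (p * i + 1) c := fun ψ => by
  obtain ⟨z, hz⟩ := h ψ
  obtain ⟨y, hy0, hy, hlev⟩ :=
    hK4 p P hp2 hP ϖ hϖ (z ^ p) (hz.gfFixed_pow hpk) i hi1 hi hz.2.2.1
  exact ⟨z / y, hz.div_fixed hP hϖ hy0 hy hlev⟩

/-- (K4') the filtration does not jump at the level `p² + p`. -/
theorem lev_succ_top (hK4' : K4') (hp2 : p ≠ 2) (hpk : (p : k) = 0) (hP : P.LiesOverPrime p)
    (hϖ : ϖ ^ (p ^ 2 - 1) = -(p : Qb))
    {c : ↥(P.decompositionSubgroup ℚ) → Mat2 k} (h : Lev P p ϖ (p ^ 2 + p) c) :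
    Lev P p ϖ (p ^ 2 + p + 1) c := fun ψ => by
  obtain ⟨z, hz⟩ := h ψ
  obtain ⟨y, hy0, hy, hlev⟩ :=
    hK4' p P hp2 hP ϖ hϖ (z ^ p) (hz.gfFixed_pow hpk) hz.2.2.1
  exact ⟨z / y, hz.div_fixed hP hϖ hy0 hy hlev⟩

/-- (K5) a function of level `≥ p² + p + 1` vanishes on `G_F`. -/
theorem eq_zero_of_lev_top [Finite k] (hK5 : K5) (hp2 : p ≠ 2) (hpk : (p : k) = 0)
    (hP : P.LiesOverPrime p) (hϖ : ϖ ^ (p ^ 2 - 1) = -(p : Qb))
    {c : ↥(P.decompositionSubgroup ℚ) → Mat2 k} (h : Lev P p ϖ (p ^ 2 + p + 1) c)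
    (σ : ↥(P.decompositionSubgroup ℚ)) (hσ : (σ : GQ) ∈ P.inertiaSubgroupIn ℚ)
    (hσϖ : (σ : GQ) ϖ = ϖ) : c σ = 0 := by
  by_contra hne
  have : Finite (Mat2 k) := inferInstance
  obtain ⟨ψ, hψ⟩ := Fermat.Agent.Lib.FinFlat.exists_addChar_ne_one hne
  obtain ⟨z, hz⟩ := h ψ
  have hfix : GFFixed P ϖ z :=
    hK5 p P hp2 hP ϖ hϖ (z ^ p) z (hz.gfFixed_pow hpk) hz.2.2.1 rfl
  have h1 := hz.2.2.2 σ hσ hσϖ
  rw [hfix (σ : GQ) hσ hσϖ] at h1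
  apply hψ
  have h2 : (ψ (c σ) - 1) * z = 0 := by linear_combination -h1
  rcases mul_eq_zero.mp h2 with h3 | h3
  · exact sub_eq_zero.mp h3
  · exact absurd h3 hz.1

end Steps

/-! ### Leading coefficients -/

/-- The residue of an element of `Qb` modulo the maximal ideal of `P` (zero outside `P`). -/
noncomputable def resP (P : ValuationSubring Qb) (w : Qb) : IsLocalRing.ResidueField P :=
  open Classical in if h : w ∈ P then IsLocalRing.residue P ⟨w, h⟩ else 0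

theorem resP_of_mem (P : ValuationSubring Qb) {w : Qb} (h : w ∈ P) :
    resP P w = IsLocalRing.residue P ⟨w, h⟩ := dif_pos h

theorem resP_add (P : ValuationSubring Qb) {w w' : Qb} (h : w ∈ P) (h' : w' ∈ P) :
    resP P (w + w') = resP P w + resP P w' := by
  rw [resP_of_mem P h, resP_of_mem P h', resP_of_mem P (P.add_mem _ _ h h'), ← map_add]
  rfl

theorem resP_mul (P : ValuationSubring Qb) {w w' : Qb} (h : w ∈ P) (h' : w' ∈ P) :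
    resP P (w * w') = resP P w * resP P w' := by
  rw [resP_of_mem P h, resP_of_mem P h', resP_of_mem P (P.mul_mem _ _ h h'), ← map_mul]
  rfl

theorem resP_eq_zero_iff (P : ValuationSubring Qb) {w : Qb} (h : w ∈ P) :
    resP P w = 0 ↔ P.valuation w < 1 := by
  rw [resP_of_mem P h, IsLocalRing.residue_eq_zero_iff, ValuationSubring.valuation_lt_one_iff]

theorem resP_sub (P : ValuationSubring Qb) {w w' : Qb} (h : w ∈ P) (h' : w' ∈ P) :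
    resP P (w - w') = resP P w - resP P w' := by
  have h1 := resP_add P (sub_mem h h') h'
  rw [sub_add_cancel] at h1
  rw [h1, add_sub_cancel_right]

open Classical in
/-- The leading coefficient at the level `j` of `(c, ψ)`: the residue of `(z ^ p − 1) / ϖ ^ j` for
a witness `z` of level `≥ j` (zero if there is none). -/
noncomputable def lam (P : ValuationSubring Qb) (p : ℕ) (ϖ : Qb) (j : ℕ)
    (c : ↥(P.decompositionSubgroup ℚ) → Mat2 k) (ψ : AddChar (Mat2 k) Qb) :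
    IsLocalRing.ResidueField P :=
  if h : ∃ z : Qb, Wit P p ϖ j c ψ z then resP P ((h.choose ^ p - 1) / ϖ ^ j) else 0

section Lam

variable {p : ℕ} [Fact p.Prime] {P : ValuationSubring Qb} {ϖ : Qb}

/-- A level-`j` unit (`j ≥ 1`) is a unit. -/
theorem inv_mem_of_lev (hP : P.LiesOverPrime p) (hϖ : ϖ ^ (p ^ 2 - 1) = -(p : Qb)) {j : ℕ}
    (hj1 : 1 ≤ j) {u : Qb} (h : (u - 1) / ϖ ^ j ∈ P) : u⁻¹ ∈ P := by
  have hϖ0 : ϖ ≠ 0 := Levels.varpi_ne_zero hϖ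
  have h1 : P.valuation (u - 1) < 1 := by
    have h2 := (Levels.div_pow_mem_iff hϖ0 _ _).mp h
    have h3 := Levels.pow_le_pow_varpi hP hϖ (m := j) (n := 1) hj1
    rw [pow_one] at h3
    exact lt_of_le_of_lt (h2.trans h3) (Levels.val_varpi_lt_one hP hϖ)
  have h4 : P.valuation u = 1 := by
    have := Valuation.map_one_add_of_lt (v := P.valuation) h1
    rwa [add_sub_cancel] at this
  rw [← P.valuation_le_one_iff, map_inv₀, h4, inv_one]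

/-- The leading coefficient is additive on level-`j` units (`j ≥ 1`). -/
theorem resP_lev_mul (hP : P.LiesOverPrime p) (hϖ : ϖ ^ (p ^ 2 - 1) = -(p : Qb)) {j : ℕ}
    (hj1 : 1 ≤ j) {u u' : Qb} (h : (u - 1) / ϖ ^ j ∈ P) (h' : (u' - 1) / ϖ ^ j ∈ P) :
    resP P ((u * u' - 1) / ϖ ^ j) = resP P ((u - 1) / ϖ ^ j) + resP P ((u' - 1) / ϖ ^ j) := by
  have hϖ0 : ϖ ≠ 0 := Levels.varpi_ne_zero hϖ
  have hϖP : ϖ ∈ P := varpi_mem hP hϖ
  have e : (u * u' - 1) / ϖ ^ j = (u - 1) / ϖ ^ j + (u' - 1) / ϖ ^ j +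
      ϖ ^ j * ((u - 1) / ϖ ^ j) * ((u' - 1) / ϖ ^ j) := by
    field_simp
    ring
  have hm : ϖ ^ j * ((u - 1) / ϖ ^ j) * ((u' - 1) / ϖ ^ j) ∈ P :=
    P.mul_mem _ _ (P.mul_mem _ _ (pow_mem hϖP j) h) h'
  have h0 : resP P (ϖ ^ j * ((u - 1) / ϖ ^ j) * ((u' - 1) / ϖ ^ j)) = 0 := by
    rw [resP_eq_zero_iff P hm, map_mul, map_mul, map_pow]
    have h3 := Levels.pow_le_pow_varpi hP hϖ (m := j) (n := 1) hj1
    rw [pow_one] at h3
    calc P.valuation ϖ ^ j * P.valuation ((u - 1) / ϖ ^ j) * P.valuation ((u' - 1) / ϖ ^ j)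
        ≤ P.valuation ϖ * 1 * 1 :=
          mul_le_mul' (mul_le_mul' h3 ((P.valuation_le_one_iff _).mpr h))
            ((P.valuation_le_one_iff _).mpr h')
      _ = P.valuation ϖ := by rw [mul_one, mul_one]
      _ < 1 := Levels.val_varpi_lt_one hP hϖ
  rw [e, resP_add P (P.add_mem _ _ h h') hm, resP_add P h h', h0, add_zero]

/-- Two witnesses of `(c, ψ)` at a level `j` with `p ∤ j`, `1 ≤ j < p² + p`, have the same leading
coefficient (K3). -/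
theorem resP_eq_of_wit (hK3 : K3) (hp2 : p ≠ 2) (hpk : (p : k) = 0) (hP : P.LiesOverPrime p)
    (hϖ : ϖ ^ (p ^ 2 - 1) = -(p : Qb)) {j : ℕ} (hj1 : 1 ≤ j) (hpj : ¬ p ∣ j)
    (hj : j < p ^ 2 + p) {c : ↥(P.decompositionSubgroup ℚ) → Mat2 k}
    {ψ : AddChar (Mat2 k) Qb} {z z' : Qb} (h : Wit P p ϖ j c ψ z) (h' : Wit P p ϖ j c ψ z') :
    resP P ((z ^ p - 1) / ϖ ^ j) = resP P ((z' ^ p - 1) / ϖ ^ j) := by
  have hϖ0 : ϖ ≠ 0 := Levels.varpi_ne_zero hϖ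
  have hϖP : ϖ ∈ P := varpi_mem hP hϖ
  have hz'0 : z' ^ p ≠ 0 := pow_ne_zero p h'.1
  have hinv : (z' ^ p)⁻¹ ∈ P := inv_mem_of_lev hP hϖ hj1 h'.2.2.1
  -- `y = z / z'` is fixed by `G_F`
  have hy : GFFixed P ϖ (z / z') := by
    intro σ hσ hσϖ
    rw [map_div₀, h.2.2.2 ⟨σ, Levels.inertia_le_decomp P hσ⟩ hσ hσϖ,
      h'.2.2.2 ⟨σ, Levels.inertia_le_decomp P hσ⟩ hσ hσϖ,
      mul_div_mul_left _ _ (addChar_ne_zero hpk ψ _)]
  have e1 : ((z / z') ^ p - 1) / ϖ ^ j =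
      ((z ^ p - 1) / ϖ ^ j - (z' ^ p - 1) / ϖ ^ j) * (z' ^ p)⁻¹ := by
    rw [div_pow]
    field_simp
    ring
  have hlev : ((z / z') ^ p - 1) / ϖ ^ j ∈ P := by
    rw [e1]
    exact P.mul_mem _ _ (sub_mem h.2.2.1 h'.2.2.1) hinv
  have hnext := hK3 p P hp2 hP ϖ hϖ (z / z') hy j hj1 hpj hj hlev
  have e2 : (z ^ p - 1) / ϖ ^ j - (z' ^ p - 1) / ϖ ^ j =
      ϖ * (z' ^ p * (((z / z') ^ p - 1) / ϖ ^ (j + 1))) := by
    rw [div_pow, pow_succ]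
    field_simp
    ring
  have hd : resP P ((z ^ p - 1) / ϖ ^ j - (z' ^ p - 1) / ϖ ^ j) = 0 := by
    have hm : z' ^ p * (((z / z') ^ p - 1) / ϖ ^ (j + 1)) ∈ P := P.mul_mem _ _ h'.2.1 hnext
    rw [resP_eq_zero_iff P (sub_mem h.2.2.1 h'.2.2.1), e2, map_mul]
    calc P.valuation ϖ * P.valuation (z' ^ p * (((z / z') ^ p - 1) / ϖ ^ (j + 1)))
        ≤ P.valuation ϖ * 1 := mul_le_mul_right ((P.valuation_le_one_iff _).mpr hm) _
      _ = P.valuation ϖ := mul_one _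
      _ < 1 := Levels.val_varpi_lt_one hP hϖ
  rw [resP_sub P h.2.2.1 h'.2.2.1] at hd
  exact sub_eq_zero.mp hd

/-- The leading coefficient is computed by any witness. -/
theorem lam_eq (hK3 : K3) (hp2 : p ≠ 2) (hpk : (p : k) = 0) (hP : P.LiesOverPrime p)
    (hϖ : ϖ ^ (p ^ 2 - 1) = -(p : Qb)) {j : ℕ} (hj1 : 1 ≤ j) (hpj : ¬ p ∣ j)
    (hj : j < p ^ 2 + p) {c : ↥(P.decompositionSubgroup ℚ) → Mat2 k}
    {ψ : AddChar (Mat2 k) Qb} {z : Qb} (h : Wit P p ϖ j c ψ z) :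
    lam P p ϖ j c ψ = resP P ((z ^ p - 1) / ϖ ^ j) := by
  have hex : ∃ z : Qb, Wit P p ϖ j c ψ z := ⟨z, h⟩
  unfold lam
  rw [dif_pos hex]
  exact resP_eq_of_wit hK3 hp2 hpk hP hϖ hj1 hpj hj hex.choose_spec h

/-- Additivity of the leading coefficient in the character. -/
theorem lam_mul_char (hK3 : K3) (hp2 : p ≠ 2) (hpk : (p : k) = 0) (hP : P.LiesOverPrime p)
    (hϖ : ϖ ^ (p ^ 2 - 1) = -(p : Qb)) {j : ℕ} (hj1 : 1 ≤ j) (hpj : ¬ p ∣ j)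
    (hj : j < p ^ 2 + p) {c : ↥(P.decompositionSubgroup ℚ) → Mat2 k} (hc : Lev P p ϖ j c)
    (ψ ψ' : AddChar (Mat2 k) Qb) :
    lam P p ϖ j c (ψ * ψ') = lam P p ϖ j c ψ + lam P p ϖ j c ψ' := by
  obtain ⟨z, hz⟩ := hc ψ
  obtain ⟨z', hz'⟩ := hc ψ'
  rw [lam_eq hK3 hp2 hpk hP hϖ hj1 hpj hj (hz.mul_char hz'),
    lam_eq hK3 hp2 hpk hP hϖ hj1 hpj hj hz, lam_eq hK3 hp2 hpk hP hϖ hj1 hpj hj hz', mul_pow]
  exact resP_lev_mul hP hϖ hj1 hz.2.2.1 hz'.2.2.1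

/-- Additivity of the leading coefficient in the cocycle. -/
theorem lam_add (hK3 : K3) (hp2 : p ≠ 2) (hpk : (p : k) = 0) (hP : P.LiesOverPrime p)
    (hϖ : ϖ ^ (p ^ 2 - 1) = -(p : Qb)) {j : ℕ} (hj1 : 1 ≤ j) (hpj : ¬ p ∣ j)
    (hj : j < p ^ 2 + p) {c c' : ↥(P.decompositionSubgroup ℚ) → Mat2 k} (hc : Lev P p ϖ j c)
    (hc' : Lev P p ϖ j c') (ψ : AddChar (Mat2 k) Qb) :
    lam P p ϖ j (c + c') ψ = lam P p ϖ j c ψ + lam P p ϖ j c' ψ := by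
  obtain ⟨z, hz⟩ := hc ψ
  obtain ⟨z', hz'⟩ := hc' ψ
  rw [lam_eq hK3 hp2 hpk hP hϖ hj1 hpj hj (hz.add hz'),
    lam_eq hK3 hp2 hpk hP hϖ hj1 hpj hj hz, lam_eq hK3 hp2 hpk hP hϖ hj1 hpj hj hz', mul_pow]
  exact resP_lev_mul hP hϖ hj1 hz.2.2.1 hz'.2.2.1

omit [Fact p.Prime] in
/-- Scalars: `lam (a • c) ψ = lam c (ψ ∘ a)`. -/
theorem lam_smul (j : ℕ) (a : k) (c : ↥(P.decompositionSubgroup ℚ) → Mat2 k)
    (ψ : AddChar (Mat2 k) Qb) :
    lam P p ϖ j (a • c) ψ = lam P p ϖ j c (smulChar a ψ) := rfl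

/-- If all leading coefficients at the level `j` vanish, the level is `≥ j + 1` (F-VAL). -/
theorem lev_succ_of_lam_eq_zero (hK3 : K3) (hFV : Loc.FVal) (hp2 : p ≠ 2) (hpk : (p : k) = 0)
    (hP : P.LiesOverPrime p) (hϖ : ϖ ^ (p ^ 2 - 1) = -(p : Qb)) {j : ℕ} (hj1 : 1 ≤ j)
    (hpj : ¬ p ∣ j) (hj : j < p ^ 2 + p) {c : ↥(P.decompositionSubgroup ℚ) → Mat2 k}
    (hc : Lev P p ϖ j c) (h0 : ∀ ψ : AddChar (Mat2 k) Qb, lam P p ϖ j c ψ = 0) :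
    Lev P p ϖ (j + 1) c := fun ψ => by
  have hϖ0 : ϖ ≠ 0 := Levels.varpi_ne_zero hϖ
  obtain ⟨z, hz⟩ := hc ψ
  refine ⟨z, hz.1, hz.2.1, ?_, hz.2.2.2⟩
  have h1 := h0 ψ
  rw [lam_eq hK3 hp2 hpk hP hϖ hj1 hpj hj hz, resP_eq_zero_iff P hz.2.2.1] at h1
  have hfix : GFFixed P ϖ ((z ^ p - 1) / ϖ ^ j) :=
    Levels.gfFixed_div (Levels.gfFixed_sub (hz.gfFixed_pow hpk) Levels.gfFixed_one)
      (Levels.gfFixed_pow Levels.gfFixed_self j)
  have h2 := Levels.fval_le hFV hP hϖ hfix h1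
  have e : (z ^ p - 1) / ϖ ^ (j + 1) = (z ^ p - 1) / ϖ ^ j / ϖ ^ 1 := by
    rw [pow_succ, pow_one, div_div]
  rw [e, Levels.div_pow_mem_iff hϖ0, pow_one]
  exact h2

end Lam

/-! ### The counting skeleton -/

/-- Abstract step of the count: if `f g = f g'` forces `g - g' ∈ G'` on `G`, then
`#r(G) ≤ #f(G) · #r(G')`. -/
theorem ncard_image_le_mul {V H R : Type*} [AddCommGroup V] [AddCommGroup R] (G G' : Set V)
    (f : V → H) (r : V →+ R) (hf : ∀ g ∈ G, ∀ g' ∈ G, f g = f g' → g - g' ∈ G')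
    (hfin1 : (f '' G).Finite) (hfin2 : (r '' G').Finite) :
    (r '' G).Finite ∧ (r '' G).ncard ≤ (f '' G).ncard * (r '' G').ncard := by
  classical
  -- a preimage in `G` of every element of `r '' G`, and of every element of `f '' G`
  have hg : ∀ y : R, ∃ g : V, y ∈ r '' G → g ∈ G ∧ r g = y := by
    intro y
    by_cases hy : y ∈ r '' G
    · obtain ⟨g, hgG, hgy⟩ := hy
      exact ⟨g, fun _ => ⟨hgG, hgy⟩⟩
    · exact ⟨0, fun h => absurd h hy⟩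
  choose gy hgy using hg
  have hs : ∀ h : H, ∃ g : V, h ∈ f '' G → g ∈ G ∧ f g = h := by
    intro h
    by_cases hh : h ∈ f '' G
    · obtain ⟨g, hgG, hgh⟩ := hh
      exact ⟨g, fun _ => ⟨hgG, hgh⟩⟩
    · exact ⟨0, fun h' => absurd h' hh⟩
  choose sh hsh using hs
  let φ : R → H × R := fun y => (f (gy y), r (gy y - sh (f (gy y))))
  have hmaps : Set.MapsTo φ (r '' G) ((f '' G) ×ˢ (r '' G')) := by
    intro y hy
    obtain ⟨h1, -⟩ := hgy y hy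
    have hfm : f (gy y) ∈ f '' G := ⟨gy y, h1, rfl⟩
    obtain ⟨h2, h3⟩ := hsh _ hfm
    exact ⟨hfm, ⟨_, hf _ h1 _ h2 h3.symm, rfl⟩⟩
  have hinj : Set.InjOn φ (r '' G) := by
    intro y hy y' hy' hφ
    obtain ⟨-, h1⟩ := hgy y hy
    obtain ⟨-, h1'⟩ := hgy y' hy'
    have e1 : f (gy y) = f (gy y') := congrArg Prod.fst hφ
    have e2 : r (gy y - sh (f (gy y))) = r (gy y' - sh (f (gy y'))) := congrArg Prod.snd hφ
    rw [e1, map_sub, map_sub, h1, h1'] at e2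
    exact sub_left_injective e2
  have hfin : ((f '' G) ×ˢ (r '' G')).Finite := hfin1.prod hfin2
  refine ⟨Set.Finite.of_injOn hmaps hinj hfin, ?_⟩
  calc (r '' G).ncard ≤ ((f '' G) ×ˢ (r '' G')).ncard :=
        Set.ncard_le_ncard_of_injOn φ hmaps hinj hfin
    _ = (f '' G).ncard * (r '' G').ncard := Set.ncard_prod

section Count

variable {p : ℕ} [Fact p.Prime] {P : ValuationSubring Qb} {ϖ : Qb}

/-- The set of leading-coefficient functions `ψ ↦ lam j c ψ` of the cocycles of level `≥ j`. -/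
def lamImage (rb : GQ →* Mat2 k) (P : ValuationSubring Qb) (p : ℕ) (ϖ : Qb) (j : ℕ) :
    Set (AddChar (Mat2 k) Qb → IsLocalRing.ResidueField P) :=
  (fun c => lam P p ϖ j c) '' (LevSub rb P p ϖ j : Set (↥(P.decompositionSubgroup ℚ) → Mat2 k))

/-- The weight of a level in the count: `1` at the multiples of `p`, `n j` otherwise. -/
def levWeight (p : ℕ) (n : ℕ → ℕ) (j : ℕ) : ℕ := if p ∣ j then 1 else n j

/-- The restrictions to `G_F` of the cocycles of level `≥ j`. -/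
def resLev (rb : GQ →* Mat2 k) (P : ValuationSubring Qb) (p : ℕ) (ϖ : Qb) (j : ℕ) :
    Set (↥(ResCount.GFSet P ϖ) → Mat2 k) :=
  ResCount.resGF P ϖ '' (LevSub rb P p ϖ j : Set (↥(P.decompositionSubgroup ℚ) → Mat2 k))

/-- One step of the filtration: the restrictions to `G_F` of the cocycles of level `≥ a`. -/
theorem ncard_res_LevSub_step [Finite k] (hK3 : K3) (hK4 : K4) (hFV : Loc.FVal)
    (rb : GQ →* Mat2 k) (hp2 : p ≠ 2) (hpk : (p : k) = 0) (hP : P.LiesOverPrime p)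
    (hϖ : ϖ ^ (p ^ 2 - 1) = -(p : Qb)) (n : ℕ → ℕ) (a : ℕ) (ha1 : 1 ≤ a) (ha : a < p ^ 2 + p)
    (hn : ¬ p ∣ a → (lamImage rb P p ϖ a).Finite ∧ (lamImage rb P p ϖ a).ncard ≤ n a)
    (hnext : (resLev rb P p ϖ (a + 1)).Finite) :
    (resLev rb P p ϖ a).Finite ∧
      (resLev rb P p ϖ a).ncard ≤ levWeight p n a *
        (resLev rb P p ϖ (a + 1)).ncard := by
  have hp : p.Prime := Fact.out
  by_cases hpa : p ∣ a
  · -- no jump at the multiples of `p` (K4)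
    obtain ⟨i, rfl⟩ := hpa
    have hi1 : 1 ≤ i := by
      rcases Nat.eq_zero_or_pos i with rfl | h
      · simp at ha1
      · exact h
    have hi : i ≤ p := by
      by_contra hcon
      rw [not_le] at hcon
      have : p * (p + 1) ≤ p * i := Nat.mul_le_mul_left p hcon
      nlinarith
    have hsub : (LevSub rb P p ϖ (p * i) : Set (↥(P.decompositionSubgroup ℚ) → Mat2 k)) ⊆
        LevSub rb P p ϖ (p * i + 1) := fun c hc =>
      ⟨hc.1, lev_succ_of_mul hK4 hp2 hpk hP hϖ hi1 hi hc.2⟩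
    have himg := Set.image_mono (f := ResCount.resGF P ϖ) hsub
    refine ⟨hnext.subset himg, ?_⟩
    unfold levWeight
    rw [if_pos (Dvd.intro i rfl), one_mul]
    exact Set.ncard_le_ncard himg hnext
  · obtain ⟨hfin, hcard⟩ := hn hpa
    have hstep := ncard_image_le_mul
      (LevSub rb P p ϖ a : Set (↥(P.decompositionSubgroup ℚ) → Mat2 k))
      (LevSub rb P p ϖ (a + 1) : Set (↥(P.decompositionSubgroup ℚ) → Mat2 k))
      (fun c => lam P p ϖ a c) (ResCount.resGF P ϖ).toAddMonoidHom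
      (fun g hg g' hg' hgg' => by
        have hd : g - g' ∈ LevSub rb P p ϖ a := sub_mem hg hg'
        refine ⟨hd.1, lev_succ_of_lam_eq_zero hK3 hFV hp2 hpk hP hϖ ha1 hpa ha hd.2 fun ψ => ?_⟩
        have h1 := lam_add hK3 hp2 hpk hP hϖ ha1 hpa ha hd.2 hg'.2 ψ
        rw [sub_add_cancel] at h1
        have h2 : lam P p ϖ a g ψ = lam P p ϖ a g' ψ := congrFun hgg' ψ
        rw [h2] at h1
        exact (add_eq_right.mp h1.symm))
      hfin hnext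
    refine ⟨hstep.1, hstep.2.trans ?_⟩
    unfold levWeight
    rw [if_neg hpa]
    exact Nat.mul_le_mul_right _ hcard

/-- The chain count: restrictions to `G_F` of the cocycles of level `≥ a`,
`1 ≤ a ≤ p² + p`. -/
theorem ncard_res_LevSub_le [Finite k] (hK3 : K3) (hK4 : K4) (hK4' : K4') (hK5 : K5)
    (hFV : Loc.FVal) (rb : GQ →* Mat2 k) (hp2 : p ≠ 2) (hpk : (p : k) = 0)
    (hP : P.LiesOverPrime p) (hϖ : ϖ ^ (p ^ 2 - 1) = -(p : Qb)) (n : ℕ → ℕ) (a₀ : ℕ)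
    (ha₀ : 1 ≤ a₀)
    (hn : ∀ j, a₀ ≤ j → j < p ^ 2 + p → ¬ p ∣ j →
      (lamImage rb P p ϖ j).Finite ∧ (lamImage rb P p ϖ j).ncard ≤ n j) :
    ∀ d a : ℕ, a + d = p ^ 2 + p → a₀ ≤ a →
      (resLev rb P p ϖ a).Finite ∧
        (resLev rb P p ϖ a).ncard ≤
          ∏ j ∈ Finset.Ico a (p ^ 2 + p), levWeight p n j := by
  intro d
  induction d with
  | zero =>
    intro a had _
    rw [add_zero] at had
    subst had
    have hsub : resLev rb P p ϖ (p ^ 2 + p) ⊆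
        ({0} : Set (↥(ResCount.GFSet P ϖ) → Mat2 k)) := by
      rintro _ ⟨c, hc, rfl⟩
      rw [Set.mem_singleton_iff, ResCount.resGF_eq_zero_iff]
      intro σ hσ hσϖ
      exact eq_zero_of_lev_top hK5 hp2 hpk hP hϖ (lev_succ_top hK4' hp2 hpk hP hϖ hc.2) σ hσ hσϖ
    refine ⟨(Set.finite_singleton _).subset hsub, ?_⟩
    rw [Finset.Ico_self, Finset.prod_empty]
    calc _ ≤ ({0} : Set (↥(ResCount.GFSet P ϖ) → Mat2 k)).ncard :=
          Set.ncard_le_ncard hsub (Set.finite_singleton _)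
      _ = 1 := Set.ncard_singleton _
  | succ d ih =>
    intro a had ha
    have hlt : a < p ^ 2 + p := by omega
    obtain ⟨hfin, hcard⟩ := ih (a + 1) (by omega) (by omega)
    obtain ⟨h1, h2⟩ := ncard_res_LevSub_step hK3 hK4 hFV rb hp2 hpk hP hϖ n a (ha₀.trans ha) hlt
      (hn a ha hlt) hfin
    refine ⟨h1, h2.trans ?_⟩
    rw [Finset.prod_eq_prod_Ico_succ_bot hlt]
    exact Nat.mul_le_mul_left _ hcard

/-- **The counting skeleton.**  If for every valid level `j` (`p² − 2 ≤ j < p² + p`, `p ∤ j`) the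
leading-coefficient functions of the cocycles of level `≥ j` are at most `n j` in number, then the
restrictions to `G_F` of the cocycles in `LSS` are at most `∏_j n j` in number. -/
theorem card_res_LSS_le [Finite k] (hK3 : K3) (hK4 : K4) (hK4' : K4') (hK5 : K5)
    (hFV : Loc.FVal) (rb : GQ →* Mat2 k) (hp2 : p ≠ 2) (hpk : (p : k) = 0)
    (hP : P.LiesOverPrime p) (hϖ : ϖ ^ (p ^ 2 - 1) = -(p : Qb)) (n : ℕ → ℕ)
    (hn : ∀ j, p ^ 2 - 2 ≤ j → j < p ^ 2 + p → ¬ p ∣ j →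
      (lamImage rb P p ϖ j).Finite ∧ (lamImage rb P p ϖ j).ncard ≤ n j) :
    Finite ↥((LSS rb P p).map (ResCount.resGF P ϖ)) ∧
      Nat.card ↥((LSS rb P p).map (ResCount.resGF P ϖ)) ≤
        ∏ j ∈ Finset.Ico (p ^ 2 - 2) (p ^ 2 + p), levWeight p n j := by
  have hp : p.Prime := Fact.out
  have hp2' : 2 ≤ p := hp.two_le
  have h4 : 4 ≤ p ^ 2 := by nlinarith
  obtain ⟨hfin, hcard⟩ := ncard_res_LevSub_le hK3 hK4 hK4' hK5 hFV rb hp2 hpk hP hϖ n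
    (p ^ 2 - 2) (by omega) hn (p + 2) (p ^ 2 - 2) (by omega) le_rfl
  have hsub : (((LSS rb P p).map (ResCount.resGF P ϖ) : Submodule k _) :
      Set (↥(ResCount.GFSet P ϖ) → Mat2 k)) ⊆
      resLev rb P p ϖ (p ^ 2 - 2) := by
    rw [Submodule.map_coe]
    exact Set.image_mono (LSS_le_LevSub rb P p hϖ)
  have hfin' := hfin.subset hsub
  refine ⟨hfin'.to_subtype, ?_⟩
  rw [← SetLike.coe_sort_coe, Nat.card_coe_set_eq]
  exact (Set.ncard_le_ncard hsub hfin).trans hcard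

end Count

end Fermat.Agent.TW.Flat.SS.Filt
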